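/-
S56lib / Kum / Struct (helper3).
The maximal unramified subextension of a finite extension of local fields, inside an ambient
ultrametric normed field `Ω` (e.g. `PadicAlgCl p`), in norm language:
* `exists_primitiveRoot_residue` : a local field `K` contains a primitive root of unity of order
  `#𝓀[K] - 1` (Teichmüller, via Hensel);
* `exists_maxUnramified` : for `L / K` finite inside `Ω` there is `K₀ = K(ζ) ≤ L`, finite Galois
  over `K`, with the same value group as `K`, and `π ∈ L` with `‖π‖ ^ [L : K₀] = ‖ϖ_K‖`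
  generating the value group of `L`.
-/
import Fermat.Agent.S55lib.LocalUnr.UnrExistAmbient
import Fermat.Agent.S55lib.LocalUnr.Adic
import Fermat.Agent.S55lib.LocalUnr.UnramifiedCrit

set_option autoImplicit false
set_option linter.unusedSectionVars false
set_option linter.style.haveILetI false

open scoped NormedField Valued NNReal Pointwise IntermediateField

noncomputable section

namespace Fermat.Agent.S56lib.Kum

open Fermat.Agent.S55lib.LocalUnr Polynomial

section Teich

variable (K : Type*) [NontriviallyNormedField K] [IsUltrametricDist K] [ProperSpace K]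

/-- **Teichmüller**: a local field contains a primitive root of unity of order `#𝓀[K] - 1`. -/
theorem exists_primitiveRoot_residue : ∃ ζ : K, IsPrimitiveRoot ζ (Nat.card 𝓀[K] - 1) := by
  classical
  haveI := finite_residue K
  haveI := isAdicComplete_integer K
  haveI : Fintype 𝓀[K] := Fintype.ofFinite _
  obtain ⟨g, hg⟩ := IsCyclic.exists_generator (α := 𝓀[K]ˣ)
  have hord : orderOf g = Nat.card 𝓀[K] - 1 := by
    rw [orderOf_eq_card_of_forall_mem_zpowers hg, Nat.card_eq_fintype_card,
      Nat.card_eq_fintype_card, Fintype.card_units]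
  set N := Nat.card 𝓀[K] - 1 with hN
  have hN2 : 1 ≤ N := by
    have := two_le_card_residue (K := K)
    omega
  obtain ⟨a₀, ha₀⟩ := IsLocalRing.residue_surjective (R := 𝒪[K]) (g : 𝓀[K])
  have hgN : (g : 𝓀[K]) ^ N = 1 := by
    rw [← Units.val_pow_eq_pow_val, ← hord, pow_orderOf_eq_one, Units.val_one]
  -- the polynomial `X^N - 1`
  have hmonic : (X ^ N - 1 : 𝒪[K][X]).Monic := by
    have := monic_X_pow_sub_C (1 : 𝒪[K]) (n := N) (by omega)
    simpa using this
  have h1 : (X ^ N - 1 : 𝒪[K][X]).eval a₀ ∈ 𝓂[K] := by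
    rw [Valued.maximalIdeal, ← Ideal.Quotient.eq_zero_iff_mem]
    change IsLocalRing.residue 𝒪[K] _ = 0
    simp only [eval_sub, eval_pow, eval_X, eval_one, map_sub, map_pow, map_one, ha₀, hgN, sub_self]
  have hcard0 : ((Nat.card 𝓀[K] : ℕ) : 𝓀[K]) = 0 := by
    rw [Nat.card_eq_fintype_card]
    exact Nat.cast_card_eq_zero 𝓀[K]
  have hNres : ((N : ℕ) : 𝓀[K]) = -1 := by
    have h2 : ((N + 1 : ℕ) : 𝓀[K]) = 0 := by
      have : N + 1 = Nat.card 𝓀[K] := by omega
      rw [this, hcard0]
    push_cast at h2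
    exact eq_neg_of_add_eq_zero_left h2
  have h2 : IsUnit (Ideal.Quotient.mk 𝓂[K] ((X ^ N - 1 : 𝒪[K][X]).derivative.eval a₀)) := by
    change IsUnit (IsLocalRing.residue 𝒪[K] _)
    simp only [derivative_sub, derivative_X_pow, derivative_one, sub_zero, eval_mul, eval_pow,
      eval_X, map_mul, map_pow, ha₀]
    have : (IsLocalRing.residue 𝒪[K]) (eval a₀ (C (N : 𝒪[K]))) = ((N : ℕ) : 𝓀[K]) := by
      simp
    rw [this, hNres]
    exact (isUnit_one.neg).mul ((Units.isUnit g).pow _)
  obtain ⟨a, ha, haa⟩ := HenselianRing.is_henselian (I := 𝓂[K]) (X ^ N - 1 : 𝒪[K][X]) hmonic a₀ h1 h2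
  have hares : IsLocalRing.residue 𝒪[K] a = g := by
    rw [← ha₀, ← sub_eq_zero, ← map_sub]
    exact (Ideal.Quotient.eq_zero_iff_mem (I := IsLocalRing.maximalIdeal 𝒪[K])).2 haa
  have haN : a ^ N = 1 := by
    have := ha
    simp only [IsRoot.def, eval_sub, eval_pow, eval_X, eval_one, sub_eq_zero] at this
    exact this
  refine ⟨(a : K), ?_⟩
  rw [IsPrimitiveRoot.iff_def]
  refine ⟨by exact_mod_cast congrArg (fun x : 𝒪[K] => (x : K)) haN, fun l hl => ?_⟩
  have hal : a ^ l = 1 := by
    apply Subtype.ext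
    simpa using hl
  have hgl : g ^ l = 1 := by
    apply Units.ext
    rw [Units.val_pow_eq_pow_val, ← hares, ← map_pow, hal, map_one, Units.val_one]
  rw [← hord]
  exact orderOf_dvd_of_pow_eq_one hgl

end Teich

section Struct

variable {K Ω : Type*} [NontriviallyNormedField K] [IsUltrametricDist K] [ProperSpace K]
  [NormedField Ω] [NormedAlgebra K Ω] [IsUltrametricDist Ω] [Algebra.IsIntegral K Ω]
  (L : IntermediateField K Ω) [FiniteDimensional K L]

/-- **Maximal unramified subextension**, norm form.  For `L / K` finite inside `Ω` there is a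
subfield `K₀ ≤ L`, finite Galois over `K`, whose value group is that of `K`, and an element
`π ∈ L` with `‖π‖ ^ [L : K₀] = ‖ϖ_K‖` whose norm generates the value group of `L`. -/
theorem exists_maxUnramified :
    ∃ (K₀ : IntermediateField K Ω) (h : K₀ ≤ L) (π : Ω),
      FiniteDimensional K K₀ ∧ IsGalois K K₀ ∧
      (∀ x : K₀, x ≠ 0 → ∃ k : ℤ, ‖(x : Ω)‖ = unifNorm K ^ k) ∧
      π ∈ L ∧ ‖π‖ ^ Module.finrank K₀ (IntermediateField.extendScalars h) = unifNorm K ∧
      (∀ x : L, x ≠ 0 → ∃ k : ℤ, ‖(x : Ω)‖ = ‖π‖ ^ k) := by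
  haveI : ProperSpace L := properSpace_of_finiteDimensional L
  have hf : 0 < resDeg K L := resDeg_pos K L
  obtain ⟨ζ', hζ'⟩ := exists_primitiveRoot_residue L
  have hcard : Nat.card 𝓀[L] = Nat.card 𝓀[K] ^ resDeg K L := by
    haveI := finite_residue K
    haveI := finite_residue L
    letI := Fintype.ofFinite 𝓀[K]
    letI := Fintype.ofFinite 𝓀[L]
    rw [Nat.card_eq_fintype_card, Nat.card_eq_fintype_card, resDeg]
    exact Module.card_eq_pow_finrank
  rw [hcard] at hζ'
  have hζ : IsPrimitiveRoot (ζ' : Ω) (Nat.card 𝓀[K] ^ resDeg K L - 1) :=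
    hζ'.map_of_injective (f := algebraMap L Ω) (algebraMap L Ω).injective
  obtain ⟨h1, h2, h3, h4, h5⟩ := adjoin_primitiveRoot_isUnramified (K := K) (resDeg K L) hf hζ
  have hle : K⟮(ζ' : Ω)⟯ ≤ L := by
    rw [IntermediateField.adjoin_simple_le_iff]
    exact ζ'.2
  refine ⟨K⟮(ζ' : Ω)⟯, hle, ((unif L : L) : Ω), h1, h2, ?_, (unif L).2, ?_, ?_⟩
  · intro x hx
    refine ⟨ord K⟮(ζ' : Ω)⟯ x, ?_⟩
    rw [← h4.unifNorm_eq]
    exact norm_eq_zpow_ord (K := K⟮(ζ' : Ω)⟯) hx
  · have e1 : ‖((unif L : L) : Ω)‖ = unifNorm L := rfl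
    rw [e1, unifNorm_eq_pow K L]
    congr 1
    have e2 := finrank_eq_ramIdx_mul_resDeg K L
    have e3 := Module.finrank_mul_finrank K K⟮(ζ' : Ω)⟯ (IntermediateField.extendScalars hle)
    have e4 : Module.finrank K (IntermediateField.extendScalars hle) = Module.finrank K L := rfl
    rw [h5, e4, e2, mul_comm] at e3
    exact Nat.eq_of_mul_eq_mul_right hf e3
  · intro x hx
    exact ⟨ord L x, norm_eq_zpow_ord (K := L) hx⟩

/-- Galois invariance of the norm over an intermediate field `K₀ ≤ L` (uniqueness of the norm). -/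
theorem norm_algEquiv_extendScalars {K₀ : IntermediateField K Ω} (h : K₀ ≤ L)
    (σ : IntermediateField.extendScalars h ≃ₐ[K₀] IntermediateField.extendScalars h)
    (x : IntermediateField.extendScalars h) :
    ‖((σ x : IntermediateField.extendScalars h) : Ω)‖ = ‖(x : Ω)‖ := by
  haveI : FiniteDimensional K K₀ :=
    FiniteDimensional.of_injective (IntermediateField.inclusion h).toLinearMap
      (IntermediateField.inclusion_injective h)
  haveI : ProperSpace K₀ := properSpace_of_finiteDimensional K₀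
  haveI : FiniteDimensional K (IntermediateField.extendScalars h) :=
    (inferInstance : FiniteDimensional K L)
  haveI : FiniteDimensional K₀ (IntermediateField.extendScalars h) :=
    FiniteDimensional.right K K₀ (IntermediateField.extendScalars h)
  exact norm_algEquiv K₀ (IntermediateField.extendScalars h) σ x

end Struct

section Padic

variable (p : ℕ) [Fact p.Prime]

theorem unifNorm_padic_eq : unifNorm ℚ_[p] = ‖(p : ℚ_[p])‖ := by
  symm
  apply IsUniformizer.norm_eq_unifNorm
  refine ⟨?_, fun x hx => ?_⟩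
  · rw [Padic.norm_p]
    exact inv_lt_one_of_one_lt₀ (by exact_mod_cast (Fact.out : p.Prime).one_lt)
  · rw [Padic.norm_p, ← zpow_neg_one]
    rw [Padic.norm_le_pow_iff_norm_lt_pow_add_one]
    simpa using hx

/-- **Maximal unramified subextension** of a finite extension `L / ℚ_p` inside `PadicAlgCl p`. -/
theorem exists_maxUnramified_padic (L : IntermediateField ℚ_[p] (PadicAlgCl p))
    [FiniteDimensional ℚ_[p] L] :
    ∃ (K₀ : IntermediateField ℚ_[p] (PadicAlgCl p)) (h : K₀ ≤ L) (π : PadicAlgCl p),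
      FiniteDimensional ℚ_[p] K₀ ∧ IsGalois ℚ_[p] K₀ ∧
      (∀ x : K₀, x ≠ 0 → ∃ k : ℤ, ‖(x : PadicAlgCl p)‖ = ‖(p : PadicAlgCl p)‖ ^ k) ∧
      π ∈ L ∧ ‖π‖ ^ Module.finrank K₀ (IntermediateField.extendScalars h)
        = ‖(p : PadicAlgCl p)‖ ∧
      (∀ x : L, x ≠ 0 → ∃ k : ℤ, ‖(x : PadicAlgCl p)‖ = ‖π‖ ^ k) := by
  have hp : ‖(p : PadicAlgCl p)‖ = unifNorm ℚ_[p] := by
    rw [unifNorm_padic_eq, ← norm_algebraMap' (PadicAlgCl p) (p : ℚ_[p]), map_natCast]
  rw [hp]
  exact exists_maxUnramified L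

end Padic

end Fermat.Agent.S56lib.Kum
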