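/-
S56lib / Kum / Break (helper3).
**The Kummer break formula, in norm language.**  `Ω` is any ultrametric normed field of residue
characteristic `p` (`‖p‖ < 1`), `ζ` a primitive `p`-th root of unity, `α ^ p = u`.
* `norm_zeta_sub_one_pow` : `‖ζ - 1‖ ^ (p - 1) = ‖p‖`;
* `norm_root_sub_one_pow` : if `‖u - 1‖ < 1` and `‖p‖ ^ p < ‖u - 1‖ ^ (p - 1)` (the level of `u` is
  `< p e/(p-1)`) then `‖α - 1‖ ^ p = ‖u - 1‖`;
* `norm_kummer_unif_*` : if `‖u - 1‖ = ‖π‖ ^ i` and `a i + b p = 1` then `Π = (α - 1) ^ a π ^ b` has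
  `‖Π‖ ^ p = ‖π‖`, and for `σ α = ζ α`, `σ π = π`: `‖σ Π / Π - 1‖ = ‖ζ - 1‖ / ‖α - 1‖`
  (lower break `t = p e/(p-1) - i`);
* the same when `‖u‖ = ‖π‖ ^ m`, `p ∤ m`: `Π = α ^ a π ^ b`, `‖σ Π / Π - 1‖ = ‖ζ - 1‖`
  (`t = p e/(p-1)`).
-/
import Mathlib

set_option autoImplicit false
set_option linter.unusedSectionVars false

namespace Fermat.Agent.S56lib.Kum

open IsUltrametricDist

variable {Ω : Type*} [NormedField Ω] [IsUltrametricDist Ω]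

/-! ### elementary ultrametric facts -/

theorem norm_sub_le_max' (x y : Ω) : ‖x - y‖ ≤ max ‖x‖ ‖y‖ := by
  have := norm_add_le_max x (-y)
  rwa [norm_neg, ← sub_eq_add_neg] at this

/-- `‖x + y‖ = ‖x‖` if `‖y‖ < ‖x‖` -/
theorem norm_add_eq_left {x y : Ω} (h : ‖y‖ < ‖x‖) : ‖x + y‖ = ‖x‖ := by
  rw [norm_add_eq_max_of_norm_ne_norm h.ne', max_eq_left h.le]

theorem norm_add_eq_right {x y : Ω} (h : ‖x‖ < ‖y‖) : ‖x + y‖ = ‖y‖ := by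
  rw [add_comm]; exact norm_add_eq_left h

theorem norm_sub_eq_left {x y : Ω} (h : ‖y‖ < ‖x‖) : ‖x - y‖ = ‖x‖ := by
  rw [sub_eq_add_neg]; exact norm_add_eq_left (by rwa [norm_neg])

/-- an integer prime to the residue characteristic has norm one -/
theorem norm_intCast_eq_one {p : ℕ} (hp : ‖(p : Ω)‖ < 1) {a : ℤ} (ha : IsCoprime a (p : ℤ)) :
    ‖(a : Ω)‖ = 1 := by
  obtain ⟨x, y, hxy⟩ := ha
  refine le_antisymm (norm_intCast_le_one Ω a) ?_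
  by_contra hlt
  push Not at hlt
  have h1 : ‖((x * a + y * p : ℤ) : Ω)‖ = 1 := by rw [hxy]; simp
  have h2 : ‖((x * a + y * p : ℤ) : Ω)‖ < 1 := by
    push_cast
    refine lt_of_le_of_lt (norm_add_le_max _ _) (max_lt ?_ ?_)
    · rw [norm_mul]
      calc ‖(x : Ω)‖ * ‖(a : Ω)‖ ≤ 1 * ‖(a : Ω)‖ :=
            mul_le_mul_of_nonneg_right (norm_intCast_le_one Ω x) (norm_nonneg _)
        _ < 1 := by rwa [one_mul]
    · rw [norm_mul]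
      calc ‖(y : Ω)‖ * ‖(p : Ω)‖ ≤ 1 * ‖(p : Ω)‖ :=
            mul_le_mul_of_nonneg_right (norm_intCast_le_one Ω y) (norm_nonneg _)
        _ < 1 := by rwa [one_mul]
  linarith

/-- `‖(1 + w) ^ n - 1 - n w‖ ≤ ‖w‖ ^ 2` for `‖w‖ ≤ 1` -/
theorem norm_one_add_pow_sub_le {w : Ω} (hw : ‖w‖ ≤ 1) (n : ℕ) :
    ‖(1 + w) ^ n - 1 - n * w‖ ≤ ‖w‖ ^ 2 := by
  induction n with
  | zero => simp
  | succ n ih =>
    have h : (1 + w) ^ (n + 1) - 1 - ((n + 1 : ℕ) : Ω) * w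
        = ((1 + w) ^ n - 1 - n * w) * (1 + w) + (n : Ω) * w ^ 2 := by
      push_cast; ring
    rw [h]
    refine (norm_add_le_max _ _).trans (max_le ?_ ?_)
    · rw [norm_mul]
      have h1 : ‖1 + w‖ ≤ 1 := (norm_add_le_max _ _).trans (max_le (by simp) hw)
      calc ‖(1 + w) ^ n - 1 - n * w‖ * ‖1 + w‖ ≤ ‖w‖ ^ 2 * 1 :=
            mul_le_mul ih h1 (norm_nonneg _) (by positivity)
        _ = ‖w‖ ^ 2 := mul_one _
    · rw [norm_mul, norm_pow]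
      calc ‖(n : Ω)‖ * ‖w‖ ^ 2 ≤ 1 * ‖w‖ ^ 2 :=
            mul_le_mul_of_nonneg_right (norm_natCast_le_one Ω n) (by positivity)
        _ = ‖w‖ ^ 2 := one_mul _

/-- `‖(1 + w) ^ n - 1‖ = ‖w‖` for `‖w‖ < 1`, `‖n‖ = 1` -/
theorem norm_one_add_pow_sub_one {w : Ω} (hw : ‖w‖ < 1) {n : ℕ} (hn : ‖(n : Ω)‖ = 1) :
    ‖(1 + w) ^ n - 1‖ = ‖w‖ := by
  rcases eq_or_ne w 0 with rfl | hw0
  · simp
  have hwpos : 0 < ‖w‖ := norm_pos_iff.mpr hw0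
  have h : (1 + w) ^ n - 1 = (n : Ω) * w + ((1 + w) ^ n - 1 - n * w) := by ring
  rw [h, norm_add_eq_left]
  · rw [norm_mul, hn, one_mul]
  · rw [norm_mul, hn, one_mul]
    refine lt_of_le_of_lt (norm_one_add_pow_sub_le hw.le n) ?_
    calc ‖w‖ ^ 2 = ‖w‖ * ‖w‖ := sq _
      _ < ‖w‖ * 1 := mul_lt_mul_of_pos_left hw hwpos
      _ = ‖w‖ := mul_one _

theorem norm_one_add_eq_one {w : Ω} (hw : ‖w‖ < 1) : ‖1 + w‖ = 1 := by
  rw [norm_add_eq_left (by simpa using hw)]; simp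

/-- `‖x⁻¹ - 1‖ = ‖x - 1‖` for `‖x‖ = 1` -/
theorem norm_inv_sub_one {x : Ω} (hx : ‖x‖ = 1) : ‖x⁻¹ - 1‖ = ‖x - 1‖ := by
  have hx0 : x ≠ 0 := by
    rintro rfl; simp at hx
  have h : x⁻¹ - 1 = -(x - 1) * x⁻¹ := by field_simp; ring
  rw [h, norm_mul, norm_neg, norm_inv, hx, inv_one, mul_one]

/-- `‖(1 + w) ^ a - 1‖ = ‖w‖` for an integer exponent `a` of norm one, `‖w‖ < 1` -/
theorem norm_one_add_zpow_sub_one {w : Ω} (hw : ‖w‖ < 1) {a : ℤ} (ha : ‖(a : Ω)‖ = 1) :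
    ‖(1 + w) ^ a - 1‖ = ‖w‖ := by
  rcases a with n | n
  · have hn : ‖(n : Ω)‖ = 1 := by simpa using ha
    simpa using norm_one_add_pow_sub_one hw hn
  · have hn : ‖((n + 1 : ℕ) : Ω)‖ = 1 := by
      have : ((Int.negSucc n : ℤ) : Ω) = -((n + 1 : ℕ) : Ω) := by
        push_cast; ring
      rw [this, norm_neg] at ha
      exact ha
    rw [zpow_negSucc, norm_inv_sub_one, norm_one_add_pow_sub_one hw hn]
    rw [norm_pow, norm_one_add_eq_one hw, one_pow]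

/-! ### the binomial estimate -/

/-- `‖(y + 1) ^ p - 1 - y ^ p‖ ≤ ‖p‖ ‖y‖` for `‖y‖ ≤ 1` -/
theorem norm_add_one_pow_sub_le {p : ℕ} (hp : p.Prime) {y : Ω} (hy : ‖y‖ ≤ 1) :
    ‖(y + 1) ^ p - 1 - y ^ p‖ ≤ ‖(p : Ω)‖ * ‖y‖ := by
  obtain ⟨n, rfl⟩ : ∃ n, p = n + 1 := ⟨p - 1, (Nat.succ_pred_eq_of_pos hp.pos).symm⟩
  have h : (y + 1) ^ (n + 1) - 1 - y ^ (n + 1)
      = ∑ m ∈ Finset.range n, y ^ (m + 1) * ((n + 1).choose (m + 1) : Ω) := by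
    rw [add_pow, Finset.sum_range_succ, Finset.sum_range_succ']
    simp only [one_pow, mul_one, Nat.choose_self, Nat.cast_one, pow_zero, Nat.choose_zero_right,
      Nat.sub_self]
    ring
  rw [h]
  refine norm_sum_le_of_forall_le_of_nonneg (by positivity) (fun m hm => ?_)
  have hm' : m + 1 < n + 1 := by simpa using Finset.mem_range.mp hm
  obtain ⟨c, hc⟩ := hp.dvd_choose_self (Nat.succ_ne_zero m) hm'
  rw [hc, norm_mul]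
  push_cast
  rw [norm_mul]
  have h1 : ‖y ^ (m + 1)‖ ≤ ‖y‖ := by
    rw [norm_pow, pow_succ]
    calc ‖y‖ ^ m * ‖y‖ ≤ 1 * ‖y‖ :=
          mul_le_mul_of_nonneg_right (pow_le_one₀ (norm_nonneg _) hy) (norm_nonneg _)
      _ = ‖y‖ := one_mul _
  have h2 : ‖((n : Ω) + 1)‖ * ‖(c : Ω)‖ ≤ ‖((n : Ω) + 1)‖ := by
    calc ‖((n : Ω) + 1)‖ * ‖(c : Ω)‖ ≤ ‖((n : Ω) + 1)‖ * 1 :=
          mul_le_mul_of_nonneg_left (norm_natCast_le_one Ω c) (norm_nonneg _)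
      _ = _ := mul_one _
  calc ‖y ^ (m + 1)‖ * (‖((n : Ω) + 1)‖ * ‖(c : Ω)‖) ≤ ‖y‖ * ‖((n : Ω) + 1)‖ :=
        mul_le_mul h1 h2 (by positivity) (norm_nonneg _)
    _ = ‖((n : Ω) + 1)‖ * ‖y‖ := mul_comm _ _

/-! ### roots of unity -/

theorem norm_one_sub_pow_le {x : Ω} (hx : ‖x‖ ≤ 1) (m : ℕ) : ‖1 - x ^ m‖ ≤ ‖1 - x‖ := by
  rw [← mul_neg_geom_sum x m, norm_mul]
  have h : ‖∑ i ∈ Finset.range m, x ^ i‖ ≤ 1 :=
    norm_sum_le_of_forall_le_of_nonneg zero_le_one (fun i _ => by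
      rw [norm_pow]; exact pow_le_one₀ (norm_nonneg _) hx)
  calc ‖1 - x‖ * ‖∑ i ∈ Finset.range m, x ^ i‖ ≤ ‖1 - x‖ * 1 :=
        mul_le_mul_of_nonneg_left h (norm_nonneg _)
    _ = ‖1 - x‖ := mul_one _

theorem norm_eq_one_of_pow_eq_one {x : Ω} {n : ℕ} (hn : n ≠ 0) (h : x ^ n = 1) : ‖x‖ = 1 := by
  have h1 : ‖x‖ ^ n = 1 := by rw [← norm_pow, h, norm_one]
  exact (pow_eq_one_iff_of_nonneg (norm_nonneg _) hn).mp h1

variable {p : ℕ} {ζ : Ω}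

theorem norm_primitiveRoot (hp : p.Prime) (hζ : IsPrimitiveRoot ζ p) : ‖ζ‖ = 1 :=
  norm_eq_one_of_pow_eq_one hp.ne_zero hζ.pow_eq_one

/-- `‖1 - ζ ^ m‖ = ‖1 - ζ‖` for `p ∤ m` -/
theorem norm_one_sub_zeta_pow (hp : p.Prime) (hζ : IsPrimitiveRoot ζ p) {m : ℕ}
    (hm : ¬ p ∣ m) : ‖1 - ζ ^ m‖ = ‖1 - ζ‖ := by
  refine le_antisymm (norm_one_sub_pow_le (norm_primitiveRoot hp hζ).le m) ?_
  -- `ζ = (ζ ^ m) ^ m'`
  have hcop : Nat.Coprime m p := ((Nat.Prime.coprime_iff_not_dvd hp).mpr hm).symm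
  obtain ⟨m', -, hm'⟩ := Nat.exists_mul_mod_eq_one_of_coprime hcop hp.one_lt
  have hζm : (ζ ^ m) ^ m' = ζ := by
    rw [← pow_mul, ← Nat.mod_add_div (m * m') p, pow_add, pow_mul, hζ.pow_eq_one, one_pow,
      mul_one, hm', pow_one]
  have h1 : ‖ζ ^ m‖ ≤ 1 := by rw [norm_pow, norm_primitiveRoot hp hζ, one_pow]
  calc ‖1 - ζ‖ = ‖1 - (ζ ^ m) ^ m'‖ := by rw [hζm]
    _ ≤ ‖1 - ζ ^ m‖ := norm_one_sub_pow_le h1 m'

/-- **`‖ζ - 1‖ ^ (p - 1) = ‖p‖`** for a primitive `p`-th root of unity. -/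
theorem norm_zeta_sub_one_pow (hp : p.Prime) (hζ : IsPrimitiveRoot ζ p) :
    ‖ζ - 1‖ ^ (p - 1) = ‖(p : Ω)‖ := by
  obtain ⟨n, rfl⟩ : ∃ n, p = n + 1 := ⟨p - 1, (Nat.succ_pred_eq_of_pos hp.pos).symm⟩
  have h := hζ.prod_one_sub_pow_eq_order
  have h2 : ‖∏ k ∈ Finset.range n, (1 - ζ ^ (k + 1))‖ = ‖ζ - 1‖ ^ n := by
    rw [norm_prod]
    rw [Finset.prod_congr rfl (fun k hk => ?_), Finset.prod_const, Finset.card_range]
    have hk' : k + 1 < n + 1 := by simpa using Finset.mem_range.mp hk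
    rw [norm_one_sub_zeta_pow hp hζ (Nat.not_dvd_of_pos_of_lt (Nat.succ_pos k) hk'),
      ← norm_neg, neg_sub]
  rw [Nat.add_sub_cancel, ← h2, h]
  push_cast
  rfl

theorem zeta_ne_one (hp : p.Prime) (hζ : IsPrimitiveRoot ζ p) : ζ ≠ 1 :=
  hζ.ne_one hp.one_lt

theorem norm_zeta_sub_one_pos (hp : p.Prime) (hζ : IsPrimitiveRoot ζ p) : 0 < ‖ζ - 1‖ :=
  norm_pos_iff.mpr (sub_ne_zero.mpr (zeta_ne_one hp hζ))

/-- in residue characteristic `p`: `‖ζ - 1‖ < 1` -/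
theorem norm_zeta_sub_one_lt_one (hp : p.Prime) (hpΩ : ‖(p : Ω)‖ < 1)
    (hζ : IsPrimitiveRoot ζ p) : ‖ζ - 1‖ < 1 := by
  by_contra h
  push Not at h
  have h1 : 1 ≤ ‖ζ - 1‖ ^ (p - 1) := one_le_pow₀ h
  rw [norm_zeta_sub_one_pow hp hζ] at h1
  linarith

/-! ### the norm of `α - 1` -/

/-- **Lemma A.** If `‖α ^ p - 1‖ < 1` and `‖p‖ ^ p < ‖α ^ p - 1‖ ^ (p - 1)` then
`‖α - 1‖ ^ p = ‖α ^ p - 1‖`. -/
theorem norm_root_sub_one_pow (hp : p.Prime) {α : Ω} (h1 : ‖α ^ p - 1‖ < 1)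
    (h2 : ‖(p : Ω)‖ ^ p < ‖α ^ p - 1‖ ^ (p - 1)) : ‖α - 1‖ ^ p = ‖α ^ p - 1‖ := by
  set y : Ω := α - 1 with hy
  have hα : α = y + 1 := by rw [hy]; ring
  -- `‖α‖ = 1`
  have hu : ‖α ^ p‖ = 1 := by
    have : α ^ p = 1 + (α ^ p - 1) := by ring
    rw [this]; exact norm_one_add_eq_one h1
  have hα1 : ‖α‖ = 1 := by
    rw [norm_pow] at hu
    exact (pow_eq_one_iff_of_nonneg (norm_nonneg _) hp.ne_zero).mp hu
  have hy1 : ‖y‖ ≤ 1 := by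
    rw [hy]; exact (norm_sub_le_max' _ _).trans (max_le hα1.le (by simp))
  have hbin := norm_add_one_pow_sub_le hp hy1
  rw [← hα] at hbin
  -- `α ^ p - 1 = y ^ p + rest`
  have hdec : α ^ p - 1 = y ^ p + (α ^ p - 1 - y ^ p) := by ring
  by_cases hcase : ‖α ^ p - 1 - y ^ p‖ < ‖y ^ p‖
  · rw [hdec, norm_add_eq_left hcase, norm_pow]
  · exfalso
    push Not at hcase
    rw [norm_pow] at hcase
    -- `‖y‖ ^ p ≤ ‖p‖ ‖y‖`, so `‖α ^ p - 1‖ ≤ ‖p‖ ‖y‖` and `‖y‖ ^ (p-1) ≤ ‖p‖`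
    have hle : ‖y‖ ^ p ≤ ‖(p : Ω)‖ * ‖y‖ := hcase.trans hbin
    have hr : ‖α ^ p - 1‖ ≤ ‖(p : Ω)‖ * ‖y‖ := by
      rw [hdec]
      refine (norm_add_le_max _ _).trans (max_le ?_ hbin)
      rw [norm_pow]; exact hle
    obtain ⟨n, rfl⟩ : ∃ n, p = n + 1 := ⟨p - 1, (Nat.succ_pred_eq_of_pos hp.pos).symm⟩
    rw [Nat.add_sub_cancel] at h2
    have hy0 : 0 < ‖y‖ := by
      rcases (norm_nonneg y).lt_or_eq with h | h
      · exact h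
      · exfalso
        rw [← h, mul_zero] at hr
        have : ‖α ^ (n + 1) - 1‖ = 0 := le_antisymm hr (norm_nonneg _)
        rw [this] at h2
        have hn0 : n ≠ 0 := by
          rintro rfl; exact hp.ne_one rfl
        rw [zero_pow hn0] at h2
        exact absurd h2 (not_lt.mpr (by positivity))
    have hyn : ‖y‖ ^ n ≤ ‖((n + 1 : ℕ) : Ω)‖ := by
      rw [pow_succ] at hle
      exact le_of_mul_le_mul_right hle hy0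
    have : ‖α ^ (n + 1) - 1‖ ^ n ≤ ‖((n + 1 : ℕ) : Ω)‖ ^ (n + 1) := by
      calc ‖α ^ (n + 1) - 1‖ ^ n ≤ (‖((n + 1 : ℕ) : Ω)‖ * ‖y‖) ^ n :=
            pow_le_pow_left₀ (norm_nonneg _) hr n
        _ = ‖((n + 1 : ℕ) : Ω)‖ ^ n * ‖y‖ ^ n := mul_pow _ _ _
        _ ≤ ‖((n + 1 : ℕ) : Ω)‖ ^ n * ‖((n + 1 : ℕ) : Ω)‖ :=
            mul_le_mul_of_nonneg_left hyn (by positivity)
        _ = ‖((n + 1 : ℕ) : Ω)‖ ^ (n + 1) := (pow_succ _ _).symm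
    linarith

/-- under the level hypothesis, `‖ζ - 1‖ < ‖α - 1‖` -/
theorem norm_zeta_sub_one_lt (hp : p.Prime) (hζ : IsPrimitiveRoot ζ p) {α : Ω}
    (h1 : ‖α ^ p - 1‖ < 1) (h2 : ‖(p : Ω)‖ ^ p < ‖α ^ p - 1‖ ^ (p - 1)) :
    ‖ζ - 1‖ < ‖α - 1‖ := by
  have hA := norm_root_sub_one_pow hp h1 h2
  rw [← hA, ← norm_zeta_sub_one_pow hp hζ, ← pow_mul, ← pow_mul] at h2
  have hne : (p - 1) * p ≠ 0 :=
    Nat.mul_ne_zero (Nat.sub_ne_zero_of_lt hp.one_lt) hp.ne_zero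
  rw [mul_comm p (p - 1)] at h2
  exact lt_of_pow_lt_pow_left₀ _ (norm_nonneg _) h2

theorem norm_root_sub_one_pos (hp : p.Prime) (hζ : IsPrimitiveRoot ζ p) {α : Ω}
    (h1 : ‖α ^ p - 1‖ < 1) (h2 : ‖(p : Ω)‖ ^ p < ‖α ^ p - 1‖ ^ (p - 1)) : 0 < ‖α - 1‖ :=
  lt_of_le_of_lt (norm_nonneg _) (norm_zeta_sub_one_lt hp hζ h1 h2)

/-! ### the uniformiser of `K′(α)` and the break: unit case -/

section Unit

variable {α π : Ω} {i a b : ℤ}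

/-- **Lemma C1.** `Π = (α - 1) ^ a π ^ b` with `a i + b p = 1` has `‖Π‖ ^ p = ‖π‖`. -/
theorem norm_kummer_unif_pow (hp : p.Prime) (hπ0 : π ≠ 0)
    (h1 : ‖α ^ p - 1‖ < 1) (h2 : ‖(p : Ω)‖ ^ p < ‖α ^ p - 1‖ ^ (p - 1))
    (hlev : ‖α ^ p - 1‖ = ‖π‖ ^ i) (hab : a * i + b * p = 1) :
    ‖(α - 1) ^ a * π ^ b‖ ^ p = ‖π‖ := by
  have hA := norm_root_sub_one_pow hp h1 h2
  have hπpos : ‖π‖ ≠ 0 := norm_ne_zero_iff.mpr hπ0
  have hy0 : ‖α - 1‖ ≠ 0 := by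
    intro h0
    rw [h0, zero_pow hp.ne_zero, hlev] at hA
    exact zpow_ne_zero i hπpos hA.symm
  rw [norm_mul, norm_zpow, norm_zpow, mul_pow, ← zpow_natCast, ← zpow_natCast, ← zpow_mul,
    ← zpow_mul, mul_comm a, zpow_mul, zpow_natCast, hA, hlev, ← zpow_mul, ← zpow_add₀ hπpos]
  have : i * a + b * (p : ℤ) = 1 := by rw [← hab]; ring
  rw [this, zpow_one]

/-- **Lemma C2 (the break).** For a ring endomorphism `σ` with `σ α = ζ α`, `σ π = π`: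
`‖σ Π / Π - 1‖ = ‖ζ - 1‖ / ‖α - 1‖`. -/
theorem norm_kummer_unif_map (hp : p.Prime) (hpΩ : ‖(p : Ω)‖ < 1) (hζ : IsPrimitiveRoot ζ p)
    (hπ0 : π ≠ 0) (h1 : ‖α ^ p - 1‖ < 1) (h2 : ‖(p : Ω)‖ ^ p < ‖α ^ p - 1‖ ^ (p - 1))
    (hab : a * i + b * p = 1) (σ : Ω →+* Ω) (hσα : σ α = ζ * α) (hσπ : σ π = π) :
    ‖σ ((α - 1) ^ a * π ^ b) / ((α - 1) ^ a * π ^ b) - 1‖ = ‖ζ - 1‖ / ‖α - 1‖ := by
  have hlt := norm_zeta_sub_one_lt hp hζ h1 h2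
  have hypos := norm_root_sub_one_pos hp hζ h1 h2
  have hy0 : α - 1 ≠ 0 := norm_pos_iff.mp hypos
  have hα1 : ‖α‖ = 1 := by
    have hu : ‖α ^ p‖ = 1 := by
      have : α ^ p = 1 + (α ^ p - 1) := by ring
      rw [this]; exact norm_one_add_eq_one h1
    rw [norm_pow] at hu
    exact (pow_eq_one_iff_of_nonneg (norm_nonneg _) hp.ne_zero).mp hu
  set w : Ω := (ζ - 1) * α / (α - 1) with hw
  have hwn : ‖w‖ = ‖ζ - 1‖ / ‖α - 1‖ := by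
    rw [hw, norm_div, norm_mul, hα1, mul_one]
  have hw1 : ‖w‖ < 1 := by rw [hwn]; exact (div_lt_one hypos).mpr hlt
  have hσ : σ ((α - 1) ^ a * π ^ b) / ((α - 1) ^ a * π ^ b) = (1 + w) ^ a := by
    rw [map_mul, map_zpow₀, map_zpow₀, map_sub, map_one, hσα, hσπ]
    have hπb : π ^ b ≠ 0 := zpow_ne_zero b hπ0
    rw [mul_div_mul_right _ _ hπb, ← div_zpow]
    congr 1
    rw [hw]; field_simp; ring
  have ha : ‖(a : Ω)‖ = 1 :=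
    norm_intCast_eq_one hpΩ ⟨i, b, by rw [← hab]; ring⟩
  rw [hσ, norm_one_add_zpow_sub_one hw1 ha, hwn]

end Unit

/-! ### the valuation case -/

section Val

variable {α π : Ω} {m a b : ℤ}

theorem norm_zeta_zpow_sub_one (hp : p.Prime) (hζ : IsPrimitiveRoot ζ p) {a : ℤ}
    (ha : IsCoprime a (p : ℤ)) : ‖ζ ^ a - 1‖ = ‖ζ - 1‖ := by
  have hp0 : (p : ℤ) ≠ 0 := by exact_mod_cast hp.ne_zero
  have hdec : a = (a % p) + p * (a / p) := (Int.emod_add_mul_ediv a p).symm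
  have hnn : 0 ≤ a % p := Int.emod_nonneg a hp0
  obtain ⟨n, hn⟩ := Int.eq_ofNat_of_zero_le hnn
  have hζ0 : ζ ≠ 0 := hζ.ne_zero hp.ne_zero
  have hpow : ζ ^ a = ζ ^ n := by
    rw [hdec, zpow_add₀ hζ0, zpow_mul, zpow_natCast, hζ.pow_eq_one, one_zpow, mul_one, hn,
      zpow_natCast]
  have hndvd : ¬ p ∣ n := by
    intro hdvd
    have h1 : (p : ℤ) ∣ a % p := by rw [hn]; exact_mod_cast hdvd
    have h2 : (p : ℤ) ∣ a := by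
      have := dvd_add h1 (dvd_mul_right (p : ℤ) (a / p))
      rwa [← hdec] at this
    have hunit : IsUnit (p : ℤ) := ha.symm.isUnit_of_dvd' (dvd_refl _) h2
    have := Int.isUnit_iff.mp hunit
    rcases this with h | h
    · exact hp.ne_one (by exact_mod_cast h)
    · have : (0 : ℤ) ≤ p := Int.natCast_nonneg p
      omega
  rw [hpow, ← norm_neg, neg_sub, norm_one_sub_zeta_pow hp hζ hndvd, ← norm_neg, neg_sub]

/-- **Lemma D1.** If `‖α ^ p‖ = ‖π‖ ^ m`, `a m + b p = 1`, then `Π = α ^ a π ^ b` has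
`‖Π‖ ^ p = ‖π‖`. -/
theorem norm_kummer_unif_pow_val (hπ0 : π ≠ 0) (hlev : ‖α ^ p‖ = ‖π‖ ^ m)
    (hab : a * m + b * p = 1) : ‖α ^ a * π ^ b‖ ^ p = ‖π‖ := by
  have hπpos : ‖π‖ ≠ 0 := norm_ne_zero_iff.mpr hπ0
  rw [norm_pow] at hlev
  rw [norm_mul, norm_zpow, norm_zpow, mul_pow, ← zpow_natCast, ← zpow_natCast, ← zpow_mul,
    ← zpow_mul, mul_comm a, zpow_mul, zpow_natCast, hlev, ← zpow_mul, ← zpow_add₀ hπpos]
  have : m * a + b * (p : ℤ) = 1 := by rw [← hab]; ring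
  rw [this, zpow_one]

/-- **Lemma D2.** In the valuation case `‖σ Π / Π - 1‖ = ‖ζ - 1‖`. -/
theorem norm_kummer_unif_map_val (hp : p.Prime) (hζ : IsPrimitiveRoot ζ p) (hπ0 : π ≠ 0)
    (hα0 : α ≠ 0) (hab : a * m + b * p = 1) (σ : Ω →+* Ω) (hσα : σ α = ζ * α) (hσπ : σ π = π) :
    ‖σ (α ^ a * π ^ b) / (α ^ a * π ^ b) - 1‖ = ‖ζ - 1‖ := by
  have hσ : σ (α ^ a * π ^ b) / (α ^ a * π ^ b) = ζ ^ a := by
    rw [map_mul, map_zpow₀, map_zpow₀, hσα, hσπ]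
    have hπb : π ^ b ≠ 0 := zpow_ne_zero b hπ0
    rw [mul_div_mul_right _ _ hπb, ← div_zpow, mul_div_assoc, div_self hα0, mul_one]
  rw [hσ, norm_zeta_zpow_sub_one hp hζ ⟨m, b, by rw [← hab]; ring⟩]

end Val

end Fermat.Agent.S56lib.Kum
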