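/-
S56lib / Kum / Levels (helper3).
**Kummer normal forms in a local field.**  `K` a normed local field (helper3's currency:
`[NontriviallyNormedField K] [IsUltrametricDist K] [ProperSpace K]`) of residue characteristic `p`,
`e = ord p`.  Every `u ∈ Kˣ` is, modulo `p`-th powers, of one of the three forms
* (val)  `p ∤ ord u`;
* (unit) `‖u - 1‖ < 1`, `i = ord (u - 1)`, `p ∤ i`, `(p - 1) i < p e`;
* (top)  `u = 1` or `p e ≤ (p - 1) ord (u - 1)`.
-/
import Mathlib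
import Fermat.Agent.S55lib.LocalUnr.Ord
import Fermat.Agent.S56lib.Kum.Break

set_option autoImplicit false
set_option linter.unusedSectionVars false
set_option linter.style.haveILetI false

open scoped NormedField Valued NNReal

namespace Fermat.Agent.S56lib.Kum

open Fermat.Agent.S55lib.LocalUnr IsUltrametricDist

variable (K : Type*) [NontriviallyNormedField K] [IsUltrametricDist K] [ProperSpace K] {p : ℕ}

/-! ### norms and `ord` -/

variable {K}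

theorem norm_lt_norm_iff_ord {x y : K} (hx : x ≠ 0) (hy : y ≠ 0) :
    ‖x‖ < ‖y‖ ↔ ord K y < ord K x := by
  rw [norm_eq_zpow_ord hx, norm_eq_zpow_ord hy]
  exact zpow_lt_zpow_iff_right_of_lt_one₀ (unifNorm_pos K) (unifNorm_lt_one K)

theorem norm_le_norm_iff_ord {x y : K} (hx : x ≠ 0) (hy : y ≠ 0) :
    ‖x‖ ≤ ‖y‖ ↔ ord K y ≤ ord K x := by
  rw [norm_eq_zpow_ord hx, norm_eq_zpow_ord hy]
  exact zpow_le_zpow_iff_right_of_lt_one₀ (unifNorm_pos K) (unifNorm_lt_one K)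

theorem ord_pos_of_norm_lt_one {x : K} (hx : x ≠ 0) (h : ‖x‖ < 1) : 0 < ord K x :=
  (ord_pos_iff hx).mpr h

/-- `‖p‖ ^ p < ‖z‖ ^ (p - 1)` in terms of `ord` -/
theorem pow_norm_lt_iff {z : K} (hz : z ≠ 0) (hp0 : (p : K) ≠ 0) (hp : p.Prime) :
    ‖(p : K)‖ ^ p < ‖z‖ ^ (p - 1) ↔ ((p : ℤ) - 1) * ord K z < p * ord K (p : K) := by
  rw [norm_eq_zpow_ord hz, norm_eq_zpow_ord hp0, ← zpow_natCast, ← zpow_natCast, ← zpow_mul,
    ← zpow_mul, zpow_lt_zpow_iff_right_of_lt_one₀ (unifNorm_pos K) (unifNorm_lt_one K)]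
  have h1 : ((p - 1 : ℕ) : ℤ) = (p : ℤ) - 1 := by
    rw [Nat.cast_sub hp.one_lt.le]; simp
  rw [h1]
  constructor <;> intro h <;> nlinarith

variable (K)

/-! ### Frobenius on the residue field -/

theorem charP_residue (hp : p.Prime) (hpK : ‖(p : K)‖ < 1) : CharP 𝓀[K] p := by
  apply (CharP.charP_iff_prime_eq_zero hp).mpr
  have h1 : (p : 𝒪[K]) ∈ 𝓂[K] := by
    rw [mem_maximalIdeal_iff]
    simpa using hpK
  have := (IsLocalRing.residue_eq_zero_iff _).mpr h1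
  simpa using this

/-- Frobenius is onto on the residue field: every integral `x` is a `p`-th power modulo `𝔪`. -/
theorem exists_pow_sub_lt (hp : p.Prime) (hpK : ‖(p : K)‖ < 1) {x : K} (hx : ‖x‖ ≤ 1) :
    ∃ y : K, ‖y‖ ≤ 1 ∧ ‖y ^ p - x‖ < 1 := by
  haveI : Fact p.Prime := ⟨hp⟩
  haveI := charP_residue K hp hpK
  haveI := finite_residue K
  let x' : 𝒪[K] := ⟨x, by rw [Valued.integer.mem_iff]; exact hx⟩
  obtain ⟨yb, hyb⟩ := surjective_frobenius 𝓀[K] p (IsLocalRing.residue 𝒪[K] x')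
  obtain ⟨y, rfl⟩ := IsLocalRing.residue_surjective yb
  refine ⟨(y : K), ?_, ?_⟩
  · have := y.2
    rwa [Valued.integer.mem_iff] at this
  · rw [frobenius_def, ← map_pow, ← sub_eq_zero, ← map_sub, IsLocalRing.residue_eq_zero_iff,
      mem_maximalIdeal_iff] at hyb
    simpa using hyb

variable {K}

/-! ### the improvement step -/

/-- If the level of `u` is `p j` with `(p - 1) j < e`, then `u w ^ p` has higher level for a
suitable `1`-unit `w`. -/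
theorem exists_improve (hp : p.Prime) (hpK : ‖(p : K)‖ < 1) {u π : K} (hπ0 : π ≠ 0)
    (hπ1 : ‖π‖ < 1) {j : ℕ} (hj : 1 ≤ j) (hu : ‖u - 1‖ = ‖π‖ ^ (p * j))
    (hlev : ‖(p : K)‖ * ‖π‖ ^ j < ‖π‖ ^ (p * j)) :
    ∃ w : K, ‖w - 1‖ < 1 ∧ ‖u * w ^ p - 1‖ < ‖π‖ ^ (p * j) := by
  have hπpos : 0 < ‖π‖ := norm_pos_iff.mpr hπ0
  have hπj1 : ‖π‖ ^ j < 1 := pow_lt_one₀ (norm_nonneg _) hπ1 (by omega)
  have hπpj1 : ‖π‖ ^ (p * j) < 1 :=
    pow_lt_one₀ (norm_nonneg _) hπ1 (Nat.mul_ne_zero hp.ne_zero (by omega))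
  have hπpjpos : 0 < ‖π‖ ^ (p * j) := by positivity
  -- `x = (u - 1)/π^{pj}` is a unit
  set x : K := (u - 1) / π ^ (p * j) with hx
  have hxn : ‖x‖ = 1 := by
    rw [hx, norm_div, norm_pow, hu, div_self hπpjpos.ne']
  have hux : u - 1 = x * π ^ (p * j) := by
    rw [hx, div_mul_cancel₀ _ (pow_ne_zero _ hπ0)]
  obtain ⟨y, hy1, hy2⟩ := exists_pow_sub_lt K hp hpK (x := -x) (by rw [norm_neg, hxn])
  rw [sub_neg_eq_add] at hy2
  set z : K := y * π ^ j with hz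
  have hzn : ‖z‖ ≤ ‖π‖ ^ j := by
    rw [hz, norm_mul, norm_pow]
    calc ‖y‖ * ‖π‖ ^ j ≤ 1 * ‖π‖ ^ j := mul_le_mul_of_nonneg_right hy1 (by positivity)
      _ = ‖π‖ ^ j := one_mul _
  have hz1 : ‖z‖ ≤ 1 := hzn.trans hπj1.le
  refine ⟨z + 1, by simpa using lt_of_le_of_lt hzn hπj1, ?_⟩
  have hR := norm_add_one_pow_sub_le hp hz1
  set R : K := (z + 1) ^ p - 1 - z ^ p with hRdef
  have hun : ‖u‖ = 1 := by
    have : u = 1 + (u - 1) := by ring
    rw [this]; exact norm_one_add_eq_one (by rw [hu]; exact hπpj1)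
  have hdec : u * (z + 1) ^ p - 1 = (y ^ p + x) * π ^ (p * j) + (u - 1) * z ^ p + u * R := by
    have hzp : z ^ p = y ^ p * π ^ (p * j) := by
      rw [hz, mul_pow, ← pow_mul, mul_comm j p]
    rw [hRdef]; linear_combination hzp + hux
  rw [hdec]
  refine lt_of_le_of_lt (norm_add_le_max _ _) (max_lt (lt_of_le_of_lt (norm_add_le_max _ _)
    (max_lt ?_ ?_)) ?_)
  · rw [norm_mul, norm_pow]
    calc ‖y ^ p + x‖ * ‖π‖ ^ (p * j) < 1 * ‖π‖ ^ (p * j) :=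
          mul_lt_mul_of_pos_right hy2 hπpjpos
      _ = _ := one_mul _
  · rw [norm_mul, hu, norm_pow]
    have : ‖z‖ ^ p < 1 := by
      refine pow_lt_one₀ (norm_nonneg _) (lt_of_le_of_lt hzn hπj1) hp.ne_zero
    calc ‖π‖ ^ (p * j) * ‖z‖ ^ p < ‖π‖ ^ (p * j) * 1 := mul_lt_mul_of_pos_left this hπpjpos
      _ = _ := mul_one _
  · rw [norm_mul, hun, one_mul]
    refine lt_of_le_of_lt hR (lt_of_le_of_lt ?_ hlev)
    exact mul_le_mul_of_nonneg_left hzn (norm_nonneg _)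

/-! ### normal forms -/

variable (K) (p)

/-- unit normal form: a `1`-unit whose level `i` is prime to `p` and `< p e/(p-1)` -/
def IsUnitNF (u : K) : Prop :=
  ‖u - 1‖ < 1 ∧ u ≠ 1 ∧ ¬ (p : ℤ) ∣ ord K (u - 1) ∧
    ((p : ℤ) - 1) * ord K (u - 1) < p * ord K (p : K)

/-- top normal form: level `≥ p e/(p-1)` -/
def IsTopNF (u : K) : Prop :=
  u = 1 ∨ (‖u - 1‖ < 1 ∧ (p : ℤ) * ord K (p : K) ≤ ((p : ℤ) - 1) * ord K (u - 1))

/-- Kummer normal form -/
def IsKummerNF (u : K) : Prop :=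
  (¬ (p : ℤ) ∣ ord K u) ∨ IsUnitNF K p u ∨ IsTopNF K p u

variable {K} {p}

theorem norm_one_unit_mul {w w' : K} (hw : ‖w - 1‖ < 1) (hw' : ‖w' - 1‖ < 1) :
    ‖w * w' - 1‖ < 1 := by
  have hw'1 : ‖w'‖ = 1 := by
    have : w' = 1 + (w' - 1) := by ring
    rw [this]; exact norm_one_add_eq_one hw'
  have : w * w' - 1 = (w - 1) * w' + (w' - 1) := by ring
  rw [this]
  refine lt_of_le_of_lt (norm_add_le_max _ _) (max_lt ?_ hw')
  rw [norm_mul, hw'1, mul_one]; exact hw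

theorem norm_one_unit {w : K} (hw : ‖w - 1‖ < 1) : ‖w‖ = 1 := by
  have : w = 1 + (w - 1) := by ring
  rw [this]; exact norm_one_add_eq_one hw

/-- normal forms for `1`-units, by induction on the distance to the top level -/
theorem exists_unit_nf (hp : p.Prime) (hpK : ‖(p : K)‖ < 1) (hp0 : (p : K) ≠ 0) :
    ∀ n : ℕ, ∀ u : K, ‖u - 1‖ < 1 → u ≠ 1 →
      (p : ℤ) * ord K (p : K) - ((p : ℤ) - 1) * ord K (u - 1) ≤ n →
      ∃ w : K, ‖w - 1‖ < 1 ∧ (IsUnitNF K p (u * w ^ p) ∨ IsTopNF K p (u * w ^ p)) := by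
  have hp1 : (1 : ℤ) ≤ (p : ℤ) - 1 := by
    have := hp.two_le
    omega
  have hppos : (0 : ℤ) < p := by exact_mod_cast hp.pos
  intro n
  induction n with
  | zero =>
    intro u hu1 hu hn
    refine ⟨1, by simp, Or.inr (Or.inr ⟨by simpa using hu1, ?_⟩)⟩
    simp only [one_pow, mul_one]
    push_cast at hn
    linarith
  | succ n ih =>
    intro u hu1 hu hn
    have hz0 : u - 1 ≠ 0 := sub_ne_zero.mpr hu
    set i : ℤ := ord K (u - 1) with hi
    have hipos : 0 < i := ord_pos_of_norm_lt_one hz0 hu1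
    by_cases htop : (p : ℤ) * ord K (p : K) ≤ ((p : ℤ) - 1) * i
    · exact ⟨1, by simp, Or.inr (Or.inr ⟨by simpa using hu1, by simpa using htop⟩)⟩
    push Not at htop
    by_cases hdiv : (p : ℤ) ∣ i
    swap
    · exact ⟨1, by simp, Or.inl ⟨by simpa using hu1, by simpa using hu, by simpa using hdiv,
        by simpa using htop⟩⟩
    -- `i = p j`: improve
    obtain ⟨j', hj'⟩ := hdiv
    have hj'pos : 0 < j' := by
      by_contra h
      push Not at h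
      have : (p : ℤ) * j' ≤ 0 := mul_nonpos_of_nonneg_of_nonpos hppos.le h
      omega
    obtain ⟨j, rfl⟩ := Int.eq_ofNat_of_zero_le hj'pos.le
    have hj1 : 1 ≤ j := by exact_mod_cast hj'pos
    have hπ := unif_isUniformizer K
    have hπ0 : unif K ≠ 0 := hπ.ne_zero
    have hπn : ‖unif K‖ = unifNorm K := rfl
    have hunorm : ‖u - 1‖ = ‖unif K‖ ^ (p * j) := by
      rw [norm_eq_zpow_ord hz0, ← hi, hj', hπn, ← zpow_natCast]
      congr 1
    have hlev : ‖(p : K)‖ * ‖unif K‖ ^ j < ‖unif K‖ ^ (p * j) := by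
      rw [norm_eq_zpow_ord hp0, hπn, ← zpow_natCast, ← zpow_natCast,
        ← zpow_add₀ (unifNorm_pos K).ne',
        zpow_lt_zpow_iff_right_of_lt_one₀ (unifNorm_pos K) (unifNorm_lt_one K)]
      rw [hj'] at htop
      push_cast
      nlinarith
    obtain ⟨w, hw1, hw2⟩ := exists_improve hp hpK hπ0 hπ.norm_lt_one hj1 hunorm hlev
    by_cases hu' : u * w ^ p = 1
    · exact ⟨w, hw1, Or.inr (Or.inl hu')⟩
    have hz0' : u * w ^ p - 1 ≠ 0 := sub_ne_zero.mpr hu'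
    have hlt : ‖u * w ^ p - 1‖ < ‖u - 1‖ := by rw [hunorm]; exact hw2
    have hord : i < ord K (u * w ^ p - 1) := by
      rw [hi]; exact (norm_lt_norm_iff_ord hz0' hz0).mp hlt
    have hu'1 : ‖u * w ^ p - 1‖ < 1 := hlt.trans hu1
    obtain ⟨w', hw'1, hw'2⟩ := ih (u * w ^ p) hu'1 hu' (by
      push_cast at hn
      nlinarith)
    refine ⟨w * w', norm_one_unit_mul hw1 hw'1, ?_⟩
    have : u * (w * w') ^ p = u * w ^ p * w' ^ p := by ring
    rw [this]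
    exact hw'2

/-- **Kummer normal forms exist**: every `u ≠ 0` is a normal form times a `p`-th power. -/
theorem exists_mul_pow_isKummerNF (hp : p.Prime) (hpK : ‖(p : K)‖ < 1) (hp0 : (p : K) ≠ 0)
    {u : K} (hu : u ≠ 0) : ∃ w : K, w ≠ 0 ∧ IsKummerNF K p (u * w ^ p) := by
  by_cases hdiv : (p : ℤ) ∣ ord K u
  swap
  · exact ⟨1, one_ne_zero, Or.inl (by simpa using hdiv)⟩
  obtain ⟨m, hm⟩ := hdiv
  have hπ := unif_isUniformizer K
  have hπ0 : unif K ≠ 0 := hπ.ne_zero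
  -- `u₁ = u π^{-pm}` is a unit
  set w₁ : K := (unif K) ^ (-m) with hw₁
  have hw₁0 : w₁ ≠ 0 := zpow_ne_zero _ hπ0
  have hu₁ : ‖u * w₁ ^ p‖ = 1 := by
    rw [norm_mul, norm_pow, hw₁, norm_zpow, norm_eq_zpow_ord hu, hm]
    show unifNorm K ^ ((p : ℤ) * m) * (unifNorm K ^ (-m)) ^ p = 1
    rw [← zpow_natCast, ← zpow_mul, ← zpow_add₀ (unifNorm_pos K).ne']
    have : (p : ℤ) * m + -m * (p : ℤ) = 0 := by ring
    rw [this, zpow_zero]
  -- `u₂ = u₁ y^{-p} ≡ 1`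
  obtain ⟨y, hy1, hy2⟩ := exists_pow_sub_lt K hp hpK hu₁.le
  have hyn : ‖y ^ p‖ = 1 := by
    have : y ^ p = u * w₁ ^ p + (y ^ p - u * w₁ ^ p) := by ring
    rw [this, norm_add_eq_left (by rw [hu₁]; exact hy2), hu₁]
  have hy0 : y ≠ 0 := by
    rintro rfl
    rw [zero_pow hp.ne_zero, norm_zero] at hyn
    exact zero_ne_one hyn
  set w₂ : K := w₁ * y⁻¹ with hw₂
  have hw₂0 : w₂ ≠ 0 := mul_ne_zero hw₁0 (inv_ne_zero hy0)
  have hu₂ : ‖u * w₂ ^ p - 1‖ < 1 := by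
    have : u * w₂ ^ p - 1 = -(y ^ p - u * w₁ ^ p) * (y ^ p)⁻¹ := by
      rw [hw₂, mul_pow, inv_pow]
      field_simp
      ring
    rw [this, norm_mul, norm_neg, norm_inv, hyn, inv_one, mul_one]
    exact hy2
  by_cases hone : u * w₂ ^ p = 1
  · exact ⟨w₂, hw₂0, Or.inr (Or.inr (Or.inl hone))⟩
  obtain ⟨w, hw1, hw2⟩ := exists_unit_nf hp hpK hp0
    ((p : ℤ) * ord K (p : K) - ((p : ℤ) - 1) * ord K (u * w₂ ^ p - 1)).toNat (u * w₂ ^ p) hu₂ hone
    (Int.self_le_toNat _)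
  have hw0 : w ≠ 0 := by
    rintro rfl
    simp at hw1
  refine ⟨w₂ * w, mul_ne_zero hw₂0 hw0, Or.inr ?_⟩
  have : u * (w₂ * w) ^ p = u * w₂ ^ p * w ^ p := by ring
  rw [this]
  exact hw2

end Fermat.Agent.S56lib.Kum
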