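/-
S56lib / Kum / PthPower (helper3).
**Levels of `p`-th powers and uniqueness of the unit normal form.**
* `norm_pow_sub_one_of_lt` / `norm_pow_sub_one_le` : the level of `w ^ p` for a `1`-unit `w` is
  `p · level w` if `(p-1) level w < e`, and `≥ e + level w` otherwise;
* `norm_sub_one_lt_of_pow` : `‖w ^ p - 1‖ < 1 → ‖w - 1‖ < 1`;
* `IsUnitNF.norm_le_mul_pow` / `IsUnitNF.norm_mul_pow_sub_lt` : a unit normal form cannot be improved,
  and its leading term is an invariant of the class modulo `p`-th powers.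
-/
import Mathlib
import Fermat.Agent.S56lib.Kum.Levels

set_option autoImplicit false
set_option linter.unusedSectionVars false
set_option linter.style.haveILetI false

open scoped NormedField Valued NNReal

namespace Fermat.Agent.S56lib.Kum

open Fermat.Agent.S55lib.LocalUnr IsUltrametricDist

section Field

variable {Ω : Type*} [NormedField Ω] [IsUltrametricDist Ω] {p : ℕ}

/-- low level: `‖w ^ p - 1‖ = ‖w - 1‖ ^ p` if `‖p‖ < ‖w - 1‖ ^ (p - 1)` -/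
theorem norm_pow_sub_one_of_lt (hp : p.Prime) {w : Ω} (hw : ‖w - 1‖ ≤ 1)
    (h : ‖(p : Ω)‖ < ‖w - 1‖ ^ (p - 1)) : ‖w ^ p - 1‖ = ‖w - 1‖ ^ p := by
  set z : Ω := w - 1 with hz
  have hwz : w = z + 1 := by rw [hz]; ring
  have hR := norm_add_one_pow_sub_le hp hw
  rw [← hwz] at hR
  have hzpos : 0 < ‖z‖ := by
    rcases (norm_nonneg z).lt_or_eq with h0 | h0
    · exact h0
    · exfalso
      rw [← h0, zero_pow (Nat.sub_ne_zero_of_lt hp.one_lt)] at h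
      exact absurd h (not_lt.mpr (norm_nonneg _))
  have hdec : w ^ p - 1 = z ^ p + (w ^ p - 1 - z ^ p) := by ring
  rw [hdec, norm_add_eq_left, norm_pow]
  rw [norm_pow]
  refine lt_of_le_of_lt hR ?_
  obtain ⟨n, rfl⟩ : ∃ n, p = n + 1 := ⟨p - 1, (Nat.succ_pred_eq_of_pos hp.pos).symm⟩
  rw [Nat.add_sub_cancel] at h
  rw [pow_succ]
  exact mul_lt_mul_of_pos_right h hzpos

/-- high level: `‖w ^ p - 1‖ ≤ ‖p‖ ‖w - 1‖` if `‖w - 1‖ ^ (p - 1) ≤ ‖p‖` -/
theorem norm_pow_sub_one_le (hp : p.Prime) {w : Ω} (hw : ‖w - 1‖ ≤ 1)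
    (h : ‖w - 1‖ ^ (p - 1) ≤ ‖(p : Ω)‖) : ‖w ^ p - 1‖ ≤ ‖(p : Ω)‖ * ‖w - 1‖ := by
  set z : Ω := w - 1 with hz
  have hwz : w = z + 1 := by rw [hz]; ring
  have hR := norm_add_one_pow_sub_le hp hw
  rw [← hwz] at hR
  have hdec : w ^ p - 1 = z ^ p + (w ^ p - 1 - z ^ p) := by ring
  rw [hdec]
  refine (norm_add_le_max _ _).trans (max_le ?_ hR)
  obtain ⟨n, rfl⟩ : ∃ n, p = n + 1 := ⟨p - 1, (Nat.succ_pred_eq_of_pos hp.pos).symm⟩
  rw [Nat.add_sub_cancel] at h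
  rw [norm_pow, pow_succ]
  exact mul_le_mul_of_nonneg_right h (norm_nonneg _)

/-- `‖w ^ p - 1‖ < 1 → ‖w - 1‖ < 1` in residue characteristic `p` -/
theorem norm_sub_one_lt_of_pow (hp : p.Prime) (hpΩ : ‖(p : Ω)‖ < 1) {w : Ω}
    (h : ‖w ^ p - 1‖ < 1) : ‖w - 1‖ < 1 := by
  have hwp : ‖w ^ p‖ = 1 := by
    have : w ^ p = 1 + (w ^ p - 1) := by ring
    rw [this]; exact norm_one_add_eq_one h
  have hw1 : ‖w‖ = 1 := by
    rw [norm_pow] at hwp
    exact (pow_eq_one_iff_of_nonneg (norm_nonneg _) hp.ne_zero).mp hwp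
  have hz1 : ‖w - 1‖ ≤ 1 := (norm_sub_le_max' _ _).trans (max_le hw1.le (by simp))
  set z : Ω := w - 1 with hz
  have hwz : w = z + 1 := by rw [hz]; ring
  have hR := norm_add_one_pow_sub_le hp hz1
  rw [← hwz] at hR
  -- `z ^ p = (w^p - 1) - R`
  have hzp : ‖z ^ p‖ < 1 := by
    have : z ^ p = (w ^ p - 1) - (w ^ p - 1 - z ^ p) := by ring
    rw [this]
    refine lt_of_le_of_lt (norm_sub_le_max' _ _) (max_lt h (lt_of_le_of_lt hR ?_))
    calc ‖(p : Ω)‖ * ‖z‖ ≤ ‖(p : Ω)‖ * 1 := mul_le_mul_of_nonneg_left hz1 (norm_nonneg _)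
      _ < 1 := by rwa [mul_one]
  rw [norm_pow] at hzp
  by_contra hcon
  push Not at hcon
  exact absurd hzp (not_lt.mpr (one_le_pow₀ hcon))

end Field

section Local

variable {K : Type*} [NontriviallyNormedField K] [IsUltrametricDist K] [ProperSpace K] {p : ℕ}

/-- the level of a `p`-th power of a `1`-unit `w ≠ 1` is either `p · ord (w - 1)` (low case) or
`≥ e + ord (w - 1)` with `(p - 1) ord (w - 1) ≥ e` (high case) -/
theorem ord_pow_sub_one (hp : p.Prime) (hp0 : (p : K) ≠ 0) {w : K} (hw1 : ‖w - 1‖ < 1)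
    (hw : w ≠ 1) (hwp : w ^ p ≠ 1) :
    (((p : ℤ) - 1) * ord K (w - 1) < ord K (p : K) ∧ ord K (w ^ p - 1) = p * ord K (w - 1)) ∨
    (ord K (p : K) ≤ ((p : ℤ) - 1) * ord K (w - 1) ∧
      ord K (p : K) + ord K (w - 1) ≤ ord K (w ^ p - 1)) := by
  have hz0 : w - 1 ≠ 0 := sub_ne_zero.mpr hw
  have hzp0 : w ^ p - 1 ≠ 0 := sub_ne_zero.mpr hwp
  have h1 : ((p - 1 : ℕ) : ℤ) = (p : ℤ) - 1 := by
    rw [Nat.cast_sub hp.one_lt.le]; simp
  have hc := unifNorm_pos K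
  have hc1 := unifNorm_lt_one K
  by_cases hlow : ((p : ℤ) - 1) * ord K (w - 1) < ord K (p : K)
  · left
    refine ⟨hlow, ?_⟩
    have hlt : ‖(p : K)‖ < ‖w - 1‖ ^ (p - 1) := by
      rw [norm_eq_zpow_ord hz0, norm_eq_zpow_ord hp0, ← zpow_natCast, ← zpow_mul,
        zpow_lt_zpow_iff_right_of_lt_one₀ hc hc1, h1, mul_comm]
      exact hlow
    have := norm_pow_sub_one_of_lt hp hw1.le hlt
    apply ord_eq_of_norm_eq
    rw [this, norm_eq_zpow_ord hz0, ← zpow_natCast, ← zpow_mul, mul_comm]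
  · right
    push Not at hlow
    refine ⟨hlow, ?_⟩
    have hle : ‖w - 1‖ ^ (p - 1) ≤ ‖(p : K)‖ := by
      rw [norm_eq_zpow_ord hz0, norm_eq_zpow_ord hp0, ← zpow_natCast, ← zpow_mul,
        zpow_le_zpow_iff_right_of_lt_one₀ hc hc1, h1, mul_comm]
      exact hlow
    have := norm_pow_sub_one_le hp hw1.le hle
    rw [← norm_mul, norm_le_norm_iff_ord hzp0 (mul_ne_zero hp0 hz0), ord_mul hp0 hz0] at this
    exact this

/-- **A unit normal form cannot be improved**: if `u` is a unit normal form and `u w ^ p` is a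
`1`-unit, then `‖u - 1‖ ≤ ‖u w ^ p - 1‖`. -/
theorem IsUnitNF.norm_le_mul_pow (hp : p.Prime) (hpK : ‖(p : K)‖ < 1) (hp0 : (p : K) ≠ 0)
    {u w : K} (hu : IsUnitNF K p u) (h1 : ‖u * w ^ p - 1‖ < 1) :
    ‖u - 1‖ ≤ ‖u * w ^ p - 1‖ ∧
      (‖u * w ^ p - 1‖ ≤ ‖u - 1‖ → ‖u * w ^ p - 1 - (u - 1)‖ < ‖u - 1‖) := by
  obtain ⟨hu1, hune, hndvd, hlev⟩ := hu
  have hun : ‖u‖ = 1 := norm_one_unit hu1
  have hu0 : u ≠ 0 := by
    rintro rfl; simp at hun
  have hz0 : u - 1 ≠ 0 := sub_ne_zero.mpr hune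
  -- `w ^ p` is a `1`-unit
  have hwp1 : ‖w ^ p - 1‖ < 1 := by
    have : w ^ p - 1 = ((u * w ^ p - 1) - (u - 1)) * u⁻¹ := by
      field_simp; ring
    rw [this, norm_mul, norm_inv, hun, inv_one, mul_one]
    exact lt_of_le_of_lt (norm_sub_le_max' _ _) (max_lt h1 hu1)
  have hw1 : ‖w - 1‖ < 1 := norm_sub_one_lt_of_pow hp hpK hwp1
  have hdec : u * w ^ p - 1 = (u - 1) + u * (w ^ p - 1) := by ring
  have hnorm : ‖u * (w ^ p - 1)‖ = ‖w ^ p - 1‖ := by rw [norm_mul, hun, one_mul]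
  by_cases hwp : w ^ p = 1
  · rw [hwp]; simp
    exact hz0
  have hzp0 : w ^ p - 1 ≠ 0 := sub_ne_zero.mpr hwp
  have hw : w ≠ 1 := by
    rintro rfl; simp at hwp
  -- the two levels differ
  have hne : ord K (w ^ p - 1) ≠ ord K (u - 1) := by
    rcases ord_pow_sub_one hp hp0 hw1 hw hwp with ⟨-, h⟩ | ⟨h2, h3⟩
    · intro heq
      exact hndvd ⟨ord K (w - 1), by rw [← heq, h]⟩
    · intro heq
      have hp1 : (1 : ℤ) ≤ (p : ℤ) - 1 := by have := hp.two_le; omega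
      have hppos : (0 : ℤ) < p := by exact_mod_cast hp.pos
      rw [heq] at h3
      nlinarith
  rcases lt_or_gt_of_ne hne with hlt | hgt
  · -- `ord (w^p - 1) < ord (u - 1)`: `‖w^p - 1‖ > ‖u - 1‖`
    have : ‖u - 1‖ < ‖u * (w ^ p - 1)‖ := by
      rw [hnorm]; exact (norm_lt_norm_iff_ord hz0 hzp0).mpr hlt
    rw [hdec, norm_add_eq_right this]
    refine ⟨this.le, fun h => absurd h (not_le.mpr this)⟩
  · have : ‖u * (w ^ p - 1)‖ < ‖u - 1‖ := by
      rw [hnorm]; exact (norm_lt_norm_iff_ord hzp0 hz0).mpr hgt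
    rw [hdec, norm_add_eq_left this]
    refine ⟨le_rfl, fun _ => ?_⟩
    have : u - 1 + u * (w ^ p - 1) - (u - 1) = u * (w ^ p - 1) := by ring
    rw [this]
    assumption

end Local

end Fermat.Agent.S56lib.Kum
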