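/-
S56lib / Kum / Hensel (helper3).
**Sharp Hensel for `p`-th powers**: in a ring `R` complete for the `I`-adic topology with
`(p) = I ^ e`, every unit `u ≡ 1 mod I ^ (e + m)` with `(p - 1) m > e` is a `p`-th power of a unit
`≡ 1 mod I ^ m`.  (In a local field: the principal units of level `> p e/(p-1)` are `p`-th powers.)
Successive approximation via helper6's `LocalH.exists_preimage_of_approx₂`.
-/
import Mathlib
import Fermat.Agent.S55lib.LocalH.PowIndex
import Fermat.Agent.S56lib.Kum.PthPower

set_option autoImplicit false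
set_option linter.unusedSectionVars false
set_option linter.style.haveILetI false

namespace Fermat.Agent.S56lib.Kum

open Fermat.Agent.S55lib.LocalH

/-- `(1 + b) ^ p = 1 + p b + p b² c + b ^ p` -/
theorem one_add_pow_prime_eq {R : Type*} [CommRing R] {p : ℕ} (hp : p.Prime) (b : R) :
    ∃ c : R, (1 + b) ^ p = 1 + p * b + p * b ^ 2 * c + b ^ p := by
  obtain ⟨n, rfl⟩ : ∃ n, p = n + 2 := ⟨p - 2, by have := hp.two_le; omega⟩
  refine ⟨∑ m ∈ Finset.range n, b ^ m * (((n + 2).choose (m + 2) / (n + 2) : ℕ) : R), ?_⟩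
  have hchoose : ∀ m ∈ Finset.range n,
      (((n + 2).choose (m + 2) : ℕ) : R) = ((n + 2 : ℕ) : R) *
        (((n + 2).choose (m + 2) / (n + 2) : ℕ) : R) := by
    intro m hm
    have hm' : m + 2 < n + 2 := by simpa using Finset.mem_range.mp hm
    have hdvd := hp.dvd_choose_self (Nat.succ_ne_zero (m + 1)) hm'
    rw [← Nat.cast_mul, Nat.mul_div_cancel' hdvd]
  rw [add_comm 1 b, add_pow, Finset.sum_range_succ, Finset.sum_range_succ',
    Finset.sum_range_succ']
  simp only [one_pow, mul_one, Nat.choose_self, Nat.cast_one, pow_zero, Nat.choose_zero_right,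
    Nat.sub_self, zero_add, pow_one, Nat.choose_one_right]
  rw [Finset.sum_congr rfl (fun m hm => by rw [hchoose m hm])]
  rw [Finset.mul_sum]
  have : ∀ m ∈ Finset.range n, b ^ (m + 1 + 1) * (((n + 2 : ℕ) : R) *
      (((n + 2).choose (m + 2) / (n + 2) : ℕ) : R)) =
      ((n + 2 : ℕ) : R) * b ^ 2 * (b ^ m * (((n + 2).choose (m + 2) / (n + 2) : ℕ) : R)) := by
    intro m _
    ring
  rw [Finset.sum_congr rfl this]
  push_cast
  ring

section Adic

variable {R : Type*} [CommRing R] (I : Ideal R) [IsAdicComplete I R]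

/-- **sharp Hensel for `p`-th powers** -/
theorem exists_pow_eq_of_sub_one_mem_sharp (hunit : ∀ x : R, x - 1 ∈ I → IsUnit x)
    {p : ℕ} (hp : p.Prime) (e m : ℕ) (hspan : Ideal.span {(p : R)} = I ^ e) (hm1 : 1 ≤ m)
    (hm : e < (p - 1) * m) (u : Rˣ) (hu : ((u : Rˣ) : R) - 1 ∈ I ^ (e + m)) :
    ∃ y : Rˣ, y ^ p = u ∧ ((y : Rˣ) : R) - 1 ∈ I ^ m := by
  have key := exists_preimage_of_approx₂ I hunit (fun k => congKer I (k + m))
    (fun k => congKer I (k + e + m))
    (fun k => congKer_anti I (by omega))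
    (fun k w hw => Ideal.pow_le_pow_right (by omega) ((mem_congKer I).mp hw))
    (fun k w hw => Ideal.pow_le_pow_right (by omega) ((mem_congKer I).mp hw))
    (fun z hz => by
      obtain ⟨w, hw, hzw⟩ := hz (0 + m)
      rw [mem_congKer] at hw ⊢
      have : ((z : Rˣ) : R) - 1 = (((z : Rˣ) : R) - w) + (((w : Rˣ) : R) - 1) := by ring
      rw [this]
      exact Ideal.add_mem _ hzw hw)
    (powMonoidHom p)
    (fun k x y hxy => by
      obtain ⟨c, hc⟩ := sub_dvd_pow_sub_pow ((x : Rˣ) : R) ((y : Rˣ) : R) p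
      have : (((powMonoidHom p x : Rˣ)) : R) - ((powMonoidHom p y : Rˣ) : R) =
          (((x : Rˣ) : R) - y) * c := by
        rw [← hc]; simp
      rw [this]
      exact Ideal.mul_mem_right _ _ hxy)
    (fun k u hu => by
      rw [mem_congKer] at hu
      have h1 : I ^ (k + e + m) = Ideal.span {(p : R)} * I ^ (k + m) := by
        rw [hspan, ← pow_add]
        congr 1
        omega
      rw [h1, Ideal.mem_span_singleton_mul] at hu
      obtain ⟨b, hb, hpb⟩ := hu
      have hbI : b ∈ I := Ideal.pow_le_self (by omega) hb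
      obtain ⟨y, hy⟩ := hunit (1 + b) (by simpa using hbI)
      refine ⟨y, ?_, ?_⟩
      · rw [mem_congKer, hy]
        simpa using hb
      · rw [mem_congKer]
        obtain ⟨c, hc⟩ := one_add_pow_prime_eq hp b
        have h2 : (((u / powMonoidHom p y : Rˣ)) : R) - 1 =
            (((powMonoidHom p y)⁻¹ : Rˣ) : R) *
              (((u : Rˣ) : R) - ((powMonoidHom p y : Rˣ) : R)) := by
          rw [div_eq_mul_inv, Units.val_mul, mul_sub, Units.inv_mul, mul_comm]
        have h3 : ((u : Rˣ) : R) - ((powMonoidHom p y : Rˣ) : R) =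
            -((p : R) * (b ^ 2 * c) + b ^ p) := by
          have : ((powMonoidHom p y : Rˣ) : R) = (1 + b) ^ p := by
            rw [powMonoidHom_apply, Units.val_pow_eq_pow_val, hy]
          rw [this, hc]
          have : ((u : Rˣ) : R) = 1 + p * b := by rw [hpb]; ring
          rw [this]
          ring
        rw [h2, h3]
        refine Ideal.mul_mem_left _ _ ((Ideal.neg_mem_iff _).mpr (Ideal.add_mem _ ?_ ?_))
        · -- `p b² c ∈ I^{e + 2(k+m)}`
          have hb2 : b ^ 2 * c ∈ I ^ ((k + m) * 2) := by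
            rw [pow_mul]
            exact Ideal.mul_mem_right _ _ (Ideal.pow_mem_pow hb 2)
          have hp' : (p : R) * (b ^ 2 * c) ∈ Ideal.span {(p : R)} * I ^ ((k + m) * 2) :=
            Ideal.mul_mem_mul (Ideal.mem_span_singleton_self _) hb2
          rw [hspan, ← pow_add] at hp'
          exact Ideal.pow_le_pow_right (by omega) hp'
        · -- `b^p ∈ I^{p(k+m)}`
          have hbp : b ^ p ∈ I ^ ((k + m) * p) := by
            rw [pow_mul]
            exact Ideal.pow_mem_pow hb p
          refine Ideal.pow_le_pow_right ?_ hbp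
          obtain ⟨n, rfl⟩ : ∃ n, p = n + 1 := ⟨p - 1, (Nat.succ_pred_eq_of_pos hp.pos).symm⟩
          rw [Nat.add_sub_cancel] at hm
          nlinarith)
  obtain ⟨P, hP, hPu⟩ := key u (by
    show u ∈ congKer I (0 + e + m)
    rw [mem_congKer]
    simpa using hu)
  refine ⟨P, hPu, ?_⟩
  have : P ∈ congKer I (0 + m) := hP
  rw [mem_congKer] at this
  simpa using this

end Adic

end Fermat.Agent.S56lib.Kum
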