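/-
S56lib / Kum / HenselLocal (helper3).
Sharp Hensel for `p`-th powers in a normed local field: a principal unit of level `> p e/(p-1)` is
the `p`-th power of a principal unit.
-/
import Mathlib
import Fermat.Agent.S55lib.LocalUnr.Adic
import Fermat.Agent.S56lib.Kum.Hensel

set_option autoImplicit false
set_option linter.unusedSectionVars false
set_option linter.style.haveILetI false

open scoped NormedField Valued NNReal

namespace Fermat.Agent.S56lib.Kum

open Fermat.Agent.S55lib.LocalUnr IsUltrametricDist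

variable (K : Type*) [NontriviallyNormedField K] [IsUltrametricDist K] [ProperSpace K] {p : ℕ}

/-- the chosen uniformiser as an element of the unit ball -/
noncomputable def unifInt : 𝒪[K] :=
  ⟨unif K, by rw [Valued.integer.mem_iff]; exact (unif_isUniformizer K).norm_lt_one.le⟩

theorem coe_unifInt : ((unifInt K : 𝒪[K]) : K) = unif K := rfl

variable {K}

theorem dvd_iff_norm_le {a x : 𝒪[K]} (ha : (a : K) ≠ 0) : a ∣ x ↔ ‖(x : K)‖ ≤ ‖(a : K)‖ := by
  constructor
  · rintro ⟨c, rfl⟩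
    have hc : ‖(c : K)‖ ≤ 1 := by
      have := c.2
      rwa [Valued.integer.mem_iff] at this
    show ‖(a : K) * (c : K)‖ ≤ _
    rw [norm_mul]
    calc ‖(a : K)‖ * ‖(c : K)‖ ≤ ‖(a : K)‖ * 1 := mul_le_mul_of_nonneg_left hc (norm_nonneg _)
      _ = _ := mul_one _
  · intro h
    have hapos : 0 < ‖(a : K)‖ := norm_pos_iff.mpr ha
    refine ⟨⟨(x : K) / (a : K), ?_⟩, ?_⟩
    · rw [Valued.integer.mem_iff, norm_div]
      exact (div_le_one hapos).mpr h
    · apply Subtype.ext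
      show (x : K) = (a : K) * ((x : K) / (a : K))
      field_simp

variable (K)

theorem maximalIdeal_eq_span_unifInt : 𝓂[K] = Ideal.span {unifInt K} := by
  have hπ := unif_isUniformizer K
  ext x
  rw [mem_maximalIdeal_iff, Ideal.mem_span_singleton, dvd_iff_norm_le (by exact hπ.ne_zero)]
  constructor
  · intro h; exact hπ.2 _ h
  · intro h; exact lt_of_le_of_lt h hπ.norm_lt_one

theorem mem_maximalIdeal_pow_iff (x : 𝒪[K]) (n : ℕ) :
    x ∈ 𝓂[K] ^ n ↔ ‖(x : K)‖ ≤ unifNorm K ^ n := by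
  rw [maximalIdeal_eq_span_unifInt, Ideal.span_singleton_pow, Ideal.mem_span_singleton,
    dvd_iff_norm_le]
  · show ‖(x : K)‖ ≤ ‖((unifInt K : 𝒪[K]) : K) ^ n‖ ↔ _
    rw [norm_pow]; rfl
  · show ((unifInt K : 𝒪[K]) : K) ^ n ≠ 0
    exact pow_ne_zero _ (unif_isUniformizer K).ne_zero

variable {K}

theorem span_natCast_eq_pow (hpK : ‖(p : K)‖ < 1) (hp0 : (p : K) ≠ 0) :
    Ideal.span {(p : 𝒪[K])} = 𝓂[K] ^ (ord K (p : K)).toNat := by
  have hpos : 0 < ord K (p : K) := (ord_pos_iff hp0).mpr hpK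
  have he : ((ord K (p : K)).toNat : ℤ) = ord K (p : K) := Int.toNat_of_nonneg hpos.le
  have hcoe : (((p : 𝒪[K]) : 𝒪[K]) : K) = (p : K) := by simp
  have hnorm : unifNorm K ^ (ord K (p : K)).toNat = ‖(p : K)‖ := by
    rw [norm_eq_zpow_ord hp0, ← zpow_natCast, he]
  ext x
  rw [Ideal.mem_span_singleton, mem_maximalIdeal_pow_iff, dvd_iff_norm_le (by rw [hcoe]; exact hp0),
    hcoe, hnorm]

/-- **principal units of level `> p e/(p-1)` are `p`-th powers of principal units** -/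
theorem exists_pow_eq_of_top_lt (hp : p.Prime) (hpK : ‖(p : K)‖ < 1) (hp0 : (p : K) ≠ 0)
    {u : K} (hu1 : ‖u - 1‖ < 1) (hu : u ≠ 1)
    (h : (p : ℤ) * ord K (p : K) < ((p : ℤ) - 1) * ord K (u - 1)) :
    ∃ w : K, ‖w - 1‖ < 1 ∧ w ^ p = u := by
  haveI := isAdicComplete_integer K
  have hz0 : u - 1 ≠ 0 := sub_ne_zero.mpr hu
  have hepos : 0 < ord K (p : K) := (ord_pos_iff hp0).mpr hpK
  have hipos : 0 < ord K (u - 1) := (ord_pos_iff hz0).mpr hu1
  set e : ℕ := (ord K (p : K)).toNat with he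
  have heZ : (e : ℤ) = ord K (p : K) := Int.toNat_of_nonneg hepos.le
  have hp1 : (1 : ℤ) ≤ (p : ℤ) - 1 := by have := hp.two_le; omega
  -- `m = i - e`
  have hie : ord K (p : K) < ord K (u - 1) := by nlinarith
  set m : ℕ := (ord K (u - 1) - ord K (p : K)).toNat with hm
  have hmZ : (m : ℤ) = ord K (u - 1) - ord K (p : K) := Int.toNat_of_nonneg (by omega)
  have hm1 : 1 ≤ m := by
    have : (1 : ℤ) ≤ (m : ℤ) := by rw [hmZ]; omega
    exact_mod_cast this
  have hem : e < (p - 1) * m := by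
    have h1 : ((p - 1 : ℕ) : ℤ) = (p : ℤ) - 1 := by
      rw [Nat.cast_sub hp.one_lt.le]; simp
    have : (e : ℤ) < ((p - 1 : ℕ) : ℤ) * (m : ℤ) := by
      rw [heZ, hmZ, h1]; nlinarith
    exact_mod_cast this
  -- the unit `u` of the unit ball
  have hun : ‖u‖ = 1 := norm_one_unit hu1
  have hu0 : u ≠ 0 := by rintro rfl; simp at hun
  let u' : 𝒪[K] := ⟨u, by rw [Valued.integer.mem_iff]; exact hun.le⟩
  have hu'unit : IsUnit u' := by
    rw [Valued.integer.isUnit_iff_norm_eq_one]; exact hun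
  obtain ⟨uu, huu⟩ := hu'unit
  have hmem : ((uu : (𝒪[K])ˣ) : 𝒪[K]) - 1 ∈ 𝓂[K] ^ (e + m) := by
    rw [huu, mem_maximalIdeal_pow_iff]
    show ‖u - 1‖ ≤ _
    rw [norm_eq_zpow_ord hz0, ← zpow_natCast]
    have : ((e + m : ℕ) : ℤ) = ord K (u - 1) := by push_cast; rw [heZ, hmZ]; ring
    rw [this]
  obtain ⟨y, hy, hy1⟩ := exists_pow_eq_of_sub_one_mem_sharp 𝓂[K]
    (fun x hx => by
      have : ‖((x : 𝒪[K]) : K) - 1‖ < 1 := by
        have := (mem_maximalIdeal_iff K).mp hx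
        simpa using this
      rw [Valued.integer.isUnit_iff_norm_eq_one]
      exact norm_one_unit this)
    hp e m (span_natCast_eq_pow hpK hp0) hm1 hem uu hmem
  refine ⟨((y : (𝒪[K])ˣ) : 𝒪[K]), ?_, ?_⟩
  · have := Ideal.pow_le_self (by omega : m ≠ 0) hy1
    have := (mem_maximalIdeal_iff K).mp this
    simpa using this
  · have h1 := congrArg (fun z : (𝒪[K])ˣ => (((z : (𝒪[K])ˣ) : 𝒪[K]) : K)) hy
    simp only [Units.val_pow_eq_pow_val, SubmonoidClass.coe_pow] at h1
    rw [h1, huu]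

end Fermat.Agent.S56lib.Kum
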