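/-
S56lib / Kum / LeadCoeff (helper3).
**Principal unit filtration and leading coefficients.**  `K` a normed local field, `c = unifNorm K`.
* `princUnits K i = {u | ‖u‖ = 1, ‖u - 1‖ ≤ c ^ i}` (subgroup of `Kˣ`);
* `leadCoeff K i : princUnits K i →* Multiplicative 𝓀[K]`, `u ↦ ((u - 1)/π^i mod 𝔪)` (`i ≥ 1`), with kernel
  `princUnits K (i + 1)`;
* (Lv1) for `i = p j`, `(p-1) j < e`: `U_i ⊆ U_{i+1} · Kˣᵖ`;
* (Lv2) for `p ∤ i`, `(p-1) i < p e`: a `p`-th power in `U_i` lies in `U_{i+1}`;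
* (Lv5) for `(p-1) i > p e`: `U_i ⊆ Kˣᵖ`.
-/
import Mathlib
import Fermat.Agent.S56lib.Kum.HenselLocal

set_option autoImplicit false
set_option linter.unusedSectionVars false
set_option linter.style.haveILetI false

open scoped NormedField Valued NNReal

namespace Fermat.Agent.S56lib.Kum

open Fermat.Agent.S55lib.LocalUnr IsUltrametricDist

variable (K : Type*) [NontriviallyNormedField K] [IsUltrametricDist K] [ProperSpace K] {p : ℕ}

/-- the `i`-th principal unit group `U_i` -/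
def princUnits (i : ℕ) : Subgroup Kˣ where
  carrier := {u | ‖(u : K)‖ = 1 ∧ ‖(u : K) - 1‖ ≤ unifNorm K ^ i}
  one_mem' := by
    refine ⟨by simp, ?_⟩
    simp only [Units.val_one, sub_self, norm_zero]
    exact pow_nonneg (unifNorm_pos K).le _
  mul_mem' := by
    rintro u v ⟨hu1, hu⟩ ⟨hv1, hv⟩
    refine ⟨by rw [Units.val_mul, norm_mul, hu1, hv1, one_mul], ?_⟩
    have : ((u * v : Kˣ) : K) - 1 = ((u : K) - 1) * (v : K) + ((v : K) - 1) := by
      rw [Units.val_mul]; ring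
    rw [this]
    refine (norm_add_le_max _ _).trans (max_le ?_ hv)
    rw [norm_mul, hv1, mul_one]; exact hu
  inv_mem' := by
    rintro u ⟨hu1, hu⟩
    refine ⟨by rw [Units.val_inv_eq_inv_val, norm_inv, hu1, inv_one], ?_⟩
    rw [Units.val_inv_eq_inv_val, norm_inv_sub_one hu1]; exact hu

variable {K}

theorem mem_princUnits {i : ℕ} {u : Kˣ} :
    u ∈ princUnits K i ↔ ‖(u : K)‖ = 1 ∧ ‖(u : K) - 1‖ ≤ unifNorm K ^ i := Iff.rfl

theorem mem_princUnits_of_pos {i : ℕ} (hi : 1 ≤ i) {u : Kˣ} :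
    u ∈ princUnits K i ↔ ‖(u : K) - 1‖ ≤ unifNorm K ^ i := by
  refine ⟨fun h => h.2, fun h => ⟨?_, h⟩⟩
  refine norm_one_unit (lt_of_le_of_lt h ?_)
  exact pow_lt_one₀ (unifNorm_pos K).le (unifNorm_lt_one K) (by omega)

theorem princUnits_anti {i j : ℕ} (h : i ≤ j) : princUnits K j ≤ princUnits K i := by
  rintro u ⟨hu1, hu⟩
  exact ⟨hu1, hu.trans (pow_le_pow_of_le_one (unifNorm_pos K).le (unifNorm_lt_one K).le h)⟩

/-- discreteness: `‖z‖ < c ^ n ↔ ‖z‖ ≤ c ^ (n + 1)` -/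
theorem norm_lt_pow_iff_le_pow_succ (z : K) (n : ℕ) :
    ‖z‖ < unifNorm K ^ n ↔ ‖z‖ ≤ unifNorm K ^ (n + 1) := by
  by_cases hz : z = 0
  · rw [hz, norm_zero]
    exact ⟨fun _ => pow_nonneg (unifNorm_pos K).le _, fun _ => pow_pos (unifNorm_pos K) n⟩
  rw [norm_eq_zpow_ord hz, ← zpow_natCast, ← zpow_natCast,
    zpow_lt_zpow_iff_right_of_lt_one₀ (unifNorm_pos K) (unifNorm_lt_one K),
    zpow_le_zpow_iff_right_of_lt_one₀ (unifNorm_pos K) (unifNorm_lt_one K)]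
  push_cast
  omega

/-- membership in terms of `ord` -/
theorem mem_princUnits_iff_ord {i : ℕ} (hi : 1 ≤ i) {u : Kˣ} (hu : (u : K) ≠ 1) :
    u ∈ princUnits K i ↔ (i : ℤ) ≤ ord K ((u : K) - 1) := by
  have hz0 : (u : K) - 1 ≠ 0 := sub_ne_zero.mpr hu
  rw [mem_princUnits_of_pos hi, norm_eq_zpow_ord hz0, ← zpow_natCast,
    zpow_le_zpow_iff_right_of_lt_one₀ (unifNorm_pos K) (unifNorm_lt_one K)]

variable (K)

/-- the normalised difference `(u - 1)/π^i` as an element of the unit ball -/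
noncomputable def normDiff (i : ℕ) (u : princUnits K i) : 𝒪[K] :=
  ⟨(((u : Kˣ) : K) - 1) / unif K ^ i, by
    rw [Valued.integer.mem_iff, norm_div, norm_pow]
    exact (div_le_one (pow_pos (unifNorm_pos K) i)).mpr u.2.2⟩

theorem coe_normDiff (i : ℕ) (u : princUnits K i) :
    ((normDiff K i u : 𝒪[K]) : K) = (((u : Kˣ) : K) - 1) / unif K ^ i := rfl

/-- the **leading coefficient** homomorphism `U_i → (𝓀, +)`, `i ≥ 1` -/
noncomputable def leadCoeff (i : ℕ) (hi : 1 ≤ i) : princUnits K i →* Multiplicative 𝓀[K] where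
  toFun u := Multiplicative.ofAdd (IsLocalRing.residue 𝒪[K] (normDiff K i u))
  map_one' := by
    have : normDiff K i 1 = 0 := by
      apply Subtype.ext; rw [coe_normDiff]; simp
    rw [this, map_zero]; rfl
  map_mul' u v := by
    rw [← ofAdd_add, ← map_add]
    congr 1
    rw [← sub_eq_zero, ← map_sub, IsLocalRing.residue_eq_zero_iff, mem_maximalIdeal_iff]
    have hπ0 : unif K ^ i ≠ 0 := pow_ne_zero _ (unif_isUniformizer K).ne_zero
    have : (((normDiff K i (u * v) - (normDiff K i u + normDiff K i v) : 𝒪[K]) : 𝒪[K]) : K) =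
        ((((u : Kˣ) : K) - 1) / unif K ^ i) * (((v : Kˣ) : K) - 1) := by
      push_cast
      rw [coe_normDiff, coe_normDiff, coe_normDiff]
      have : (((u * v : princUnits K i) : Kˣ) : K) = ((u : Kˣ) : K) * ((v : Kˣ) : K) := by
        simp
      rw [this]
      field_simp
      ring
    show ‖(((normDiff K i (u * v) - (normDiff K i u + normDiff K i v) : 𝒪[K]) : 𝒪[K]) : K)‖ < 1
    rw [this, norm_mul, norm_div, norm_pow]
    have h1 : ‖((u : Kˣ) : K) - 1‖ / ‖unif K‖ ^ i ≤ 1 :=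
      (div_le_one (pow_pos (unifNorm_pos K) i)).mpr u.2.2
    have h2 : ‖((v : Kˣ) : K) - 1‖ < 1 :=
      lt_of_le_of_lt v.2.2 (pow_lt_one₀ (unifNorm_pos K).le (unifNorm_lt_one K) (by omega))
    calc _ ≤ 1 * ‖((v : Kˣ) : K) - 1‖ := mul_le_mul_of_nonneg_right h1 (norm_nonneg _)
      _ < 1 := by rwa [one_mul]

variable {K}

theorem leadCoeff_eq_one_iff {i : ℕ} (hi : 1 ≤ i) (u : princUnits K i) :
    leadCoeff K i hi u = 1 ↔ (u : Kˣ) ∈ princUnits K (i + 1) := by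
  show Multiplicative.ofAdd (IsLocalRing.residue 𝒪[K] (normDiff K i u)) = 1 ↔ _
  rw [← ofAdd_zero, Multiplicative.ofAdd.apply_eq_iff_eq, IsLocalRing.residue_eq_zero_iff,
    mem_maximalIdeal_iff]
  show ‖((normDiff K i u : 𝒪[K]) : K)‖ < 1 ↔ _
  rw [coe_normDiff, norm_div, norm_pow]
  show ‖((u : Kˣ) : K) - 1‖ / unifNorm K ^ i < 1 ↔ _
  rw [div_lt_one (pow_pos (unifNorm_pos K) i), mem_princUnits_of_pos (by omega)]
  exact norm_lt_pow_iff_le_pow_succ _ _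

/-! ### (Lv1), (Lv2), (Lv5) -/

/-- **(Lv1)** for `i = p j` with `(p-1) j < e`: `U_i ⊆ U_{i+1} Kˣᵖ` -/
theorem exists_mul_pow_mem_princUnits_succ (hp : p.Prime) (hpK : ‖(p : K)‖ < 1) (hp0 : (p : K) ≠ 0)
    {j : ℕ} (hj : 1 ≤ j) (hlev : ((p : ℤ) - 1) * j < ord K (p : K)) {u : Kˣ}
    (hu : u ∈ princUnits K (p * j)) : ∃ w : Kˣ, u * w ^ p ∈ princUnits K (p * j + 1) := by
  have hpj : 1 ≤ p * j := Nat.one_le_iff_ne_zero.mpr (Nat.mul_ne_zero hp.ne_zero (by omega))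
  by_cases hex : ‖(u : K) - 1‖ = unifNorm K ^ (p * j)
  swap
  · refine ⟨1, ?_⟩
    simp only [one_pow, mul_one]
    rw [mem_princUnits_of_pos (by omega)]
    have hlt : ‖(u : K) - 1‖ < unifNorm K ^ (p * j) := lt_of_le_of_ne hu.2 hex
    exact (norm_lt_pow_iff_le_pow_succ _ _).mp hlt
  have hπ := unif_isUniformizer K
  have hlev' : ‖(p : K)‖ * ‖unif K‖ ^ j < ‖unif K‖ ^ (p * j) := by
    show ‖(p : K)‖ * unifNorm K ^ j < unifNorm K ^ (p * j)
    rw [norm_eq_zpow_ord hp0, ← zpow_natCast, ← zpow_natCast, ← zpow_add₀ (unifNorm_pos K).ne',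
      zpow_lt_zpow_iff_right_of_lt_one₀ (unifNorm_pos K) (unifNorm_lt_one K)]
    push_cast
    linarith
  obtain ⟨w, hw1, hw2⟩ := exists_improve hp hpK hπ.ne_zero hπ.norm_lt_one hj hex hlev'
  have hw0 : w ≠ 0 := by rintro rfl; simp at hw1
  refine ⟨Units.mk0 w hw0, ?_⟩
  rw [mem_princUnits_of_pos (by omega)]
  show ‖(u : K) * w ^ p - 1‖ ≤ _
  have hlt : ‖(u : K) * w ^ p - 1‖ < unifNorm K ^ (p * j) := hw2
  exact (norm_lt_pow_iff_le_pow_succ _ _).mp hlt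

/-- **(Lv2)** for `p ∤ i`, `(p-1) i < p e`: a `p`-th power in `U_i` lies in `U_{i+1}` -/
theorem pow_mem_princUnits_succ (hp : p.Prime) (hpK : ‖(p : K)‖ < 1) (hp0 : (p : K) ≠ 0)
    {i : ℕ} (hi : 1 ≤ i) (hndvd : ¬ p ∣ i) (hlev : ((p : ℤ) - 1) * i < p * ord K (p : K))
    {w : Kˣ} (hw : w ^ p ∈ princUnits K i) : w ^ p ∈ princUnits K (i + 1) := by
  by_cases hwp : ((w : K)) ^ p = 1
  · have : w ^ p = 1 := Units.ext (by simpa using hwp)
    rw [this]; exact one_mem _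
  have hwp' : ((w ^ p : Kˣ) : K) ≠ 1 := by simpa using hwp
  rw [mem_princUnits_iff_ord hi hwp'] at hw
  rw [mem_princUnits_iff_ord (by omega) hwp']
  have hc1 : ‖(w : K) ^ p - 1‖ < 1 := by
    have h := (mem_princUnits_of_pos (K := K) hi (u := w ^ p)).mp
      ((mem_princUnits_iff_ord hi hwp').mpr hw)
    refine lt_of_le_of_lt (by simpa using h) ?_
    exact pow_lt_one₀ (unifNorm_pos K).le (unifNorm_lt_one K) (by omega)
  have hw1 : ‖(w : K) - 1‖ < 1 := norm_sub_one_lt_of_pow hp hpK hc1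
  have hwne : (w : K) ≠ 1 := by
    intro h; rw [h] at hwp; simp at hwp
  simp only [Units.val_pow_eq_pow_val] at hw ⊢
  have hp1 : (1 : ℤ) ≤ (p : ℤ) - 1 := by have := hp.two_le; omega
  have hppos : (0 : ℤ) < p := by exact_mod_cast hp.pos
  rcases ord_pow_sub_one hp hp0 hw1 hwne hwp with ⟨-, h⟩ | ⟨h2, h3⟩
  · -- level `p · ord (w - 1) ≠ i`
    rw [h] at hw ⊢
    have hne : (p : ℤ) * ord K ((w : K) - 1) ≠ i := by
      intro heq
      apply hndvd
      have : (p : ℤ) ∣ (i : ℤ) := ⟨_, heq.symm⟩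
      exact_mod_cast this
    push_cast
    omega
  · push_cast
    nlinarith

/-- **(Lv5)** for `(p-1) i > p e`: `U_i ⊆ Kˣᵖ` -/
theorem exists_pow_eq_of_mem_princUnits (hp : p.Prime) (hpK : ‖(p : K)‖ < 1) (hp0 : (p : K) ≠ 0)
    {i : ℕ} (hi : 1 ≤ i) (hlev : (p : ℤ) * ord K (p : K) < ((p : ℤ) - 1) * i) {u : Kˣ}
    (hu : u ∈ princUnits K i) : ∃ w : Kˣ, w ^ p = u := by
  by_cases hu1 : (u : K) = 1
  · exact ⟨1, by rw [one_pow]; exact (Units.ext (by simpa using hu1)).symm⟩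
  have hord := (mem_princUnits_iff_ord hi hu1).mp hu
  have hlt : ‖(u : K) - 1‖ < 1 :=
    lt_of_le_of_lt ((mem_princUnits_of_pos hi).mp hu)
      (pow_lt_one₀ (unifNorm_pos K).le (unifNorm_lt_one K) (by omega))
  have hp1 : (1 : ℤ) ≤ (p : ℤ) - 1 := by have := hp.two_le; omega
  obtain ⟨w, hw1, hw⟩ := exists_pow_eq_of_top_lt hp hpK hp0 hlt hu1 (by nlinarith)
  have hw0 : w ≠ 0 := by rintro rfl; simp at hw1
  exact ⟨Units.mk0 w hw0, Units.ext (by simpa using hw)⟩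

end Fermat.Agent.S56lib.Kum
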