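/-
S56lib / Kum / Equivariant (helper3).
Action of an isometric field automorphism `δ` of a local field `K` on the principal unit
filtration and on leading coefficients:
* `intMap δ hδ : 𝒪[K] →+* 𝒪[K]`, `resMap δ hδ : 𝓀[K] →+* 𝓀[K]` (induced maps),
* `theta δ hδ : 𝓀[K]` (residue of `δ π / π`),
* **(Lv3)** `leadCoeff_map` : `lc_i (δ u) = θ_δ ^ i * δ̄ (lc_i u)`.
-/
import Fermat.Agent.S56lib.Kum.LeadCoeff

set_option autoImplicit false
set_option linter.unusedSectionVars false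

open scoped NormedField Valued NNReal

namespace Fermat.Agent.S56lib.Kum

open Fermat.Agent.S55lib.LocalUnr IsUltrametricDist

variable {K : Type*} [NontriviallyNormedField K] [IsUltrametricDist K] [ProperSpace K]

/-- the restriction of an isometric automorphism to the unit ball -/
noncomputable def intMap (δ : K ≃+* K) (hδ : ∀ x, ‖δ x‖ = ‖x‖) : 𝒪[K] →+* 𝒪[K] :=
  (δ : K →+* K).restrict 𝒪[K] 𝒪[K] (fun x hx => by
    rw [Valued.integer.mem_iff] at hx ⊢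
    show ‖δ x‖ ≤ 1
    rwa [hδ])

theorem coe_intMap (δ : K ≃+* K) (hδ : ∀ x, ‖δ x‖ = ‖x‖) (x : 𝒪[K]) :
    ((intMap δ hδ x : 𝒪[K]) : K) = δ (x : K) := rfl

instance isLocalHom_intMap (δ : K ≃+* K) (hδ : ∀ x, ‖δ x‖ = ‖x‖) : IsLocalHom (intMap δ hδ) :=
  ⟨fun x hx => by
    rw [Valued.integer.isUnit_iff_norm_eq_one] at hx ⊢
    have : ‖(intMap δ hδ x : 𝒪[K])‖ = ‖x‖ := by
      change ‖δ (x : K)‖ = ‖(x : K)‖
      exact hδ _
    rw [← this]; exact hx⟩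

/-- the induced map on the residue field -/
noncomputable def resMap (δ : K ≃+* K) (hδ : ∀ x, ‖δ x‖ = ‖x‖) : 𝓀[K] →+* 𝓀[K] :=
  IsLocalRing.ResidueField.map (intMap δ hδ)

theorem resMap_residue (δ : K ≃+* K) (hδ : ∀ x, ‖δ x‖ = ‖x‖) (x : 𝒪[K]) :
    resMap δ hδ (IsLocalRing.residue 𝒪[K] x) = IsLocalRing.residue 𝒪[K] (intMap δ hδ x) :=
  IsLocalRing.ResidueField.map_residue _ _

/-- `δ π / π` as an element of the unit ball -/
noncomputable def thetaInt (δ : K ≃+* K) (hδ : ∀ x, ‖δ x‖ = ‖x‖) : 𝒪[K] :=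
  ⟨δ (unif K) / unif K, by
    rw [Valued.integer.mem_iff, norm_div, hδ]
    exact (div_self (unifNorm_pos K).ne').le⟩

theorem coe_thetaInt (δ : K ≃+* K) (hδ : ∀ x, ‖δ x‖ = ‖x‖) :
    ((thetaInt δ hδ : 𝒪[K]) : K) = δ (unif K) / unif K := rfl

theorem norm_thetaInt (δ : K ≃+* K) (hδ : ∀ x, ‖δ x‖ = ‖x‖) :
    ‖((thetaInt δ hδ : 𝒪[K]) : K)‖ = 1 := by
  rw [coe_thetaInt, norm_div, hδ]
  exact div_self (unifNorm_pos K).ne'

/-- the residue of `δ π / π` -/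
noncomputable def theta (δ : K ≃+* K) (hδ : ∀ x, ‖δ x‖ = ‖x‖) : 𝓀[K] :=
  IsLocalRing.residue 𝒪[K] (thetaInt δ hδ)

theorem theta_ne_zero (δ : K ≃+* K) (hδ : ∀ x, ‖δ x‖ = ‖x‖) : theta δ hδ ≠ 0 := by
  intro h
  rw [theta, IsLocalRing.residue_eq_zero_iff, mem_maximalIdeal_iff] at h
  have := norm_thetaInt δ hδ
  change ‖((thetaInt δ hδ : 𝒪[K]) : K)‖ < 1 at h
  rw [this] at h
  exact lt_irrefl _ h

/-- `δ` on units -/
noncomputable def unitsMap (δ : K ≃+* K) : Kˣ →* Kˣ := Units.map (δ : K →* K)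

theorem coe_unitsMap (δ : K ≃+* K) (u : Kˣ) : ((unitsMap δ u : Kˣ) : K) = δ (u : K) := rfl

theorem unitsMap_mem_princUnits (δ : K ≃+* K) (hδ : ∀ x, ‖δ x‖ = ‖x‖) {i : ℕ} {u : Kˣ}
    (hu : u ∈ princUnits K i) : unitsMap δ u ∈ princUnits K i := by
  refine ⟨?_, ?_⟩
  · rw [coe_unitsMap, hδ]; exact hu.1
  · rw [coe_unitsMap]
    have : δ (u : K) - 1 = δ ((u : K) - 1) := by rw [map_sub, map_one]
    rw [this, hδ]; exact hu.2

/-- **(Lv3)**: the leading coefficient of `δ u` -/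
theorem leadCoeff_unitsMap (δ : K ≃+* K) (hδ : ∀ x, ‖δ x‖ = ‖x‖) {i : ℕ} (hi : 1 ≤ i)
    (u : princUnits K i) :
    Multiplicative.toAdd (leadCoeff K i hi ⟨unitsMap δ u, unitsMap_mem_princUnits δ hδ u.2⟩) =
      theta δ hδ ^ i * resMap δ hδ (Multiplicative.toAdd (leadCoeff K i hi u)) := by
  show IsLocalRing.residue 𝒪[K] (normDiff K i ⟨unitsMap δ u, _⟩) =
    theta δ hδ ^ i * resMap δ hδ (IsLocalRing.residue 𝒪[K] (normDiff K i u))
  rw [resMap_residue, theta, ← map_pow, ← map_mul]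
  congr 1
  apply Subtype.ext
  have hπ0 : unif K ≠ 0 := (unif_isUniformizer K).ne_zero
  have hδπ0 : δ (unif K) ≠ 0 := by
    rw [← norm_pos_iff, hδ]; exact unifNorm_pos K
  push_cast
  rw [coe_normDiff, coe_intMap, coe_normDiff, coe_thetaInt]
  show (δ ((u : Kˣ) : K) - 1) / unif K ^ i = _
  rw [map_div₀, map_sub, map_one, map_pow, div_pow]
  field_simp

end Fermat.Agent.S56lib.Kum
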