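/-
S56lib / Kum / Lev (helper3).
The level filtration `lev K p i = U_i · Kˣᵖ` of `Kˣ` modulo `p`-th powers, and the leading
coefficient `levLc` on it at the good levels (`p ∤ i`, `(p-1) i < p e`).
* `lev_eq_succ_of_dvd` (levels `p ∣ i` do not occur), `lev_eq_pthPowers` (beyond the top);
* `levLc_mul_pow`, `levLc_mul`, `levLc_eq_zero_iff`, `levLc_unitsMap` (Galois action).
-/
import Fermat.Agent.S56lib.Kum.Equivariant

set_option autoImplicit false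
set_option linter.unusedSectionVars false

open scoped NormedField Valued NNReal

namespace Fermat.Agent.S56lib.Kum

open Fermat.Agent.S55lib.LocalUnr IsUltrametricDist

variable (K : Type*) [NontriviallyNormedField K] [IsUltrametricDist K] [ProperSpace K] (p : ℕ)

/-- the subgroup of `p`-th powers -/
def pthPowers : Subgroup Kˣ := (powMonoidHom p : Kˣ →* Kˣ).range

/-- `U_i · Kˣᵖ` -/
def lev (i : ℕ) : Subgroup Kˣ := princUnits K i ⊔ pthPowers K p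

variable {K p}

theorem mem_pthPowers {u : Kˣ} : u ∈ pthPowers K p ↔ ∃ w : Kˣ, w ^ p = u := Iff.rfl

theorem pow_mem_pthPowers (w : Kˣ) : w ^ p ∈ pthPowers K p := ⟨w, rfl⟩

theorem mem_lev {i : ℕ} {u : Kˣ} :
    u ∈ lev K p i ↔ ∃ u₁ ∈ princUnits K i, ∃ w : Kˣ, u₁ * w ^ p = u := by
  rw [lev, Subgroup.mem_sup]
  constructor
  · rintro ⟨u₁, hu₁, v, ⟨w, rfl⟩, rfl⟩
    exact ⟨u₁, hu₁, w, rfl⟩
  · rintro ⟨u₁, hu₁, w, rfl⟩
    exact ⟨u₁, hu₁, w ^ p, ⟨w, rfl⟩, rfl⟩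

theorem princUnits_le_lev (i : ℕ) : princUnits K i ≤ lev K p i := le_sup_left

theorem pthPowers_le_lev (i : ℕ) : pthPowers K p ≤ lev K p i := le_sup_right

theorem lev_anti {i j : ℕ} (h : i ≤ j) : lev K p j ≤ lev K p i :=
  sup_le_sup_right (princUnits_anti h) _

theorem mul_pow_mem_lev {i : ℕ} {u : Kˣ} (hu : u ∈ lev K p i) (w : Kˣ) : u * w ^ p ∈ lev K p i :=
  mul_mem hu (pthPowers_le_lev i (pow_mem_pthPowers w))

theorem unitsMap_mem_pthPowers (δ : K ≃+* K) {u : Kˣ} (hu : u ∈ pthPowers K p) :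
    unitsMap δ u ∈ pthPowers K p := by
  obtain ⟨w, rfl⟩ := hu
  exact ⟨unitsMap δ w, by
    show (unitsMap δ w) ^ p = unitsMap δ (w ^ p)
    rw [map_pow]⟩

theorem unitsMap_mem_lev (δ : K ≃+* K) (hδ : ∀ x, ‖δ x‖ = ‖x‖) {i : ℕ} {u : Kˣ}
    (hu : u ∈ lev K p i) : unitsMap δ u ∈ lev K p i := by
  obtain ⟨u₁, hu₁, w, rfl⟩ := mem_lev.1 hu
  rw [map_mul, map_pow]
  exact mem_lev.2 ⟨_, unitsMap_mem_princUnits δ hδ hu₁, _, rfl⟩

section Prime

variable (hp : p.Prime) (hpK : ‖(p : K)‖ < 1) (hp0 : (p : K) ≠ 0)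

include hp hpK hp0

/-- **(Lv1)** levels divisible by `p` do not occur below the top -/
theorem lev_eq_succ_of_dvd {i : ℕ} (hi : 1 ≤ i) (hdvd : p ∣ i)
    (hlev : ((p : ℤ) - 1) * i < p * ord K (p : K)) : lev K p i = lev K p (i + 1) := by
  apply le_antisymm _ (lev_anti (Nat.le_succ i))
  intro u hu
  obtain ⟨u₁, hu₁, w, rfl⟩ := mem_lev.1 hu
  obtain ⟨j, rfl⟩ := hdvd
  have hj : 1 ≤ j := by
    rcases Nat.eq_zero_or_pos j with h | h
    · rw [h] at hi; simp at hi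
    · exact h
  have hppos : (0 : ℤ) < p := by exact_mod_cast hp.pos
  have hlev' : ((p : ℤ) - 1) * j < ord K (p : K) := by
    push_cast at hlev
    have : (p : ℤ) * (((p : ℤ) - 1) * j) < p * ord K (p : K) := by linarith
    exact lt_of_mul_lt_mul_left this hppos.le
  obtain ⟨w', hw'⟩ := exists_mul_pow_mem_princUnits_succ hp hpK hp0 hj hlev' hu₁
  have : u₁ * w ^ p = (u₁ * w' ^ p) * (w * w'⁻¹) ^ p := by
    rw [mul_pow, inv_pow]
    rw [mul_assoc, mul_comm (w ^ p), ← mul_assoc (w' ^ p), mul_inv_cancel, one_mul]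
  rw [this]
  exact mem_lev.2 ⟨_, hw', _, rfl⟩

/-- **(Lv5)** beyond the top level everything is a `p`-th power -/
theorem lev_eq_pthPowers {i : ℕ} (hi : 1 ≤ i)
    (hlev : (p : ℤ) * ord K (p : K) < ((p : ℤ) - 1) * i) : lev K p i = pthPowers K p := by
  apply le_antisymm _ (pthPowers_le_lev i)
  intro u hu
  obtain ⟨u₁, hu₁, w, rfl⟩ := mem_lev.1 hu
  obtain ⟨w', hw'⟩ := exists_pow_eq_of_mem_princUnits hp hpK hp0 hi hlev hu₁
  exact ⟨w' * w, by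
    show (w' * w) ^ p = _
    rw [mul_pow, hw']⟩

end Prime

/-- a good level: `1 ≤ i`, `p ∤ i`, `(p-1) i < p e` -/
structure GoodLevel (K : Type*) [NontriviallyNormedField K] [IsUltrametricDist K] [ProperSpace K]
    (p : ℕ) (i : ℕ) : Prop where
  pos : 1 ≤ i
  ndvd : ¬ p ∣ i
  lt : ((p : ℤ) - 1) * i < p * ord K (p : K)

open Classical in
/-- the leading coefficient on `lev K p i` (zero outside) -/
noncomputable def levLc (K : Type*) [NontriviallyNormedField K] [IsUltrametricDist K]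
    [ProperSpace K] (p : ℕ) (i : ℕ) (u : Kˣ) : 𝓀[K] :=
  if h : 1 ≤ i ∧ u ∈ lev K p i then
    Multiplicative.toAdd (leadCoeff K i h.1
      ⟨Classical.choose (mem_lev.1 h.2), (Classical.choose_spec (mem_lev.1 h.2)).1⟩)
  else 0

section Prime

variable (hp : p.Prime) (hpK : ‖(p : K)‖ < 1) (hp0 : (p : K) ≠ 0)

include hp hpK hp0

/-- `levLc` is computed by any decomposition -/
theorem levLc_mul_pow {i : ℕ} (hg : GoodLevel K p i) (u₁ : princUnits K i) (w : Kˣ) :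
    levLc K p i ((u₁ : Kˣ) * w ^ p) = Multiplicative.toAdd (leadCoeff K i hg.pos u₁) := by
  have hmem : (u₁ : Kˣ) * w ^ p ∈ lev K p i := mem_lev.2 ⟨_, u₁.2, w, rfl⟩
  have h : 1 ≤ i ∧ (u₁ : Kˣ) * w ^ p ∈ lev K p i := ⟨hg.pos, hmem⟩
  rw [levLc, dif_pos h]
  obtain ⟨h1, w', h2⟩ := Classical.choose_spec (mem_lev.1 h.2)
  set u₂ : princUnits K i := ⟨Classical.choose (mem_lev.1 h.2), h1⟩ with hu₂
  have h2' : (u₂ : Kˣ) * w' ^ p = (u₁ : Kˣ) * w ^ p := h2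
  -- `u₂ / u₁` is a `p`-th power in `U_i`
  have h3 : ((u₂ / u₁ : princUnits K i) : Kˣ) = (w * w'⁻¹) ^ p := by
    have : ((u₂ / u₁ : princUnits K i) : Kˣ) = (u₂ : Kˣ) / (u₁ : Kˣ) := rfl
    rw [this, mul_pow, inv_pow, div_eq_iff_eq_mul, eq_comm, mul_assoc, mul_comm _ (u₁ : Kˣ),
      ← mul_assoc, mul_comm _ (u₁ : Kˣ), ← h2', mul_assoc, mul_inv_cancel, mul_one]
  have h4 : (w * w'⁻¹) ^ p ∈ princUnits K i := by rw [← h3]; exact (u₂ / u₁).2
  have h5 := pow_mem_princUnits_succ hp hpK hp0 hg.pos hg.ndvd hg.lt h4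
  rw [← h3] at h5
  have h6 := (leadCoeff_eq_one_iff hg.pos (u₂ / u₁)).2 h5
  rw [map_div, div_eq_one] at h6
  rw [h6]

theorem levLc_of_mem_princUnits {i : ℕ} (hg : GoodLevel K p i) (u₁ : princUnits K i) :
    levLc K p i (u₁ : Kˣ) = Multiplicative.toAdd (leadCoeff K i hg.pos u₁) := by
  have := levLc_mul_pow hp hpK hp0 hg u₁ 1
  rwa [one_pow, mul_one] at this

theorem levLc_mul {i : ℕ} (hg : GoodLevel K p i) {u v : Kˣ} (hu : u ∈ lev K p i)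
    (hv : v ∈ lev K p i) : levLc K p i (u * v) = levLc K p i u + levLc K p i v := by
  obtain ⟨u₁, hu₁, w, rfl⟩ := mem_lev.1 hu
  obtain ⟨v₁, hv₁, w', rfl⟩ := mem_lev.1 hv
  have : u₁ * w ^ p * (v₁ * w' ^ p) = ((⟨u₁, hu₁⟩ * ⟨v₁, hv₁⟩ : princUnits K i) : Kˣ) *
      (w * w') ^ p := by
    show _ = u₁ * v₁ * (w * w') ^ p
    rw [mul_pow]
    rw [mul_assoc, mul_assoc, mul_left_comm (w ^ p)]
  rw [this, levLc_mul_pow hp hpK hp0 hg, levLc_mul_pow hp hpK hp0 hg ⟨u₁, hu₁⟩,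
    levLc_mul_pow hp hpK hp0 hg ⟨v₁, hv₁⟩, map_mul]
  rfl

theorem levLc_one {i : ℕ} (hg : GoodLevel K p i) : levLc K p i (1 : Kˣ) = 0 := by
  have := levLc_mul hp hpK hp0 hg (one_mem (lev K p i)) (one_mem (lev K p i))
  rw [one_mul] at this
  exact left_eq_add.mp this

theorem levLc_pthPower {i : ℕ} (hg : GoodLevel K p i) {v : Kˣ} (hv : v ∈ pthPowers K p) :
    levLc K p i v = 0 := by
  obtain ⟨w, rfl⟩ := hv
  have := levLc_mul_pow hp hpK hp0 hg (1 : princUnits K i) w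
  rw [map_one] at this
  simpa using this

theorem levLc_mul_pthPower {i : ℕ} (hg : GoodLevel K p i) {u v : Kˣ} (hu : u ∈ lev K p i)
    (hv : v ∈ pthPowers K p) : levLc K p i (u * v) = levLc K p i u := by
  rw [levLc_mul hp hpK hp0 hg hu (pthPowers_le_lev i hv), levLc_pthPower hp hpK hp0 hg hv,
    add_zero]

theorem levLc_inv {i : ℕ} (hg : GoodLevel K p i) {u : Kˣ} (hu : u ∈ lev K p i) :
    levLc K p i u⁻¹ = - levLc K p i u := by
  have := levLc_mul hp hpK hp0 hg hu (inv_mem hu)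
  rw [mul_inv_cancel, levLc_one hp hpK hp0 hg] at this
  exact eq_neg_of_add_eq_zero_right this.symm

theorem levLc_pow {i : ℕ} (hg : GoodLevel K p i) {u : Kˣ} (hu : u ∈ lev K p i) (n : ℕ) :
    levLc K p i (u ^ n) = n • levLc K p i u := by
  induction n with
  | zero => rw [pow_zero, zero_smul, levLc_one hp hpK hp0 hg]
  | succ n ih =>
    rw [pow_succ, levLc_mul hp hpK hp0 hg (pow_mem hu n) hu, ih, succ_nsmul]

/-- the kernel of `levLc` on `lev i` is `lev (i+1)` -/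
theorem levLc_eq_zero_iff {i : ℕ} (hg : GoodLevel K p i) {u : Kˣ} (hu : u ∈ lev K p i) :
    levLc K p i u = 0 ↔ u ∈ lev K p (i + 1) := by
  constructor
  · intro h
    obtain ⟨u₁, hu₁, w, rfl⟩ := mem_lev.1 hu
    rw [levLc_mul_pow hp hpK hp0 hg ⟨u₁, hu₁⟩ w] at h
    have h1 : leadCoeff K i hg.pos ⟨u₁, hu₁⟩ = 1 := h
    have h2 := (leadCoeff_eq_one_iff hg.pos ⟨u₁, hu₁⟩).1 h1
    exact mem_lev.2 ⟨u₁, h2, w, rfl⟩
  · intro h
    obtain ⟨u₂, hu₂, w, rfl⟩ := mem_lev.1 h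
    have hu₂' : u₂ ∈ princUnits K i := princUnits_anti (Nat.le_succ i) hu₂
    rw [levLc_mul_pow hp hpK hp0 hg ⟨u₂, hu₂'⟩ w]
    have := (leadCoeff_eq_one_iff hg.pos ⟨u₂, hu₂'⟩).2 hu₂
    rw [this]; rfl

/-- **(Lv3)** on `lev`: `levLc (δ u) = θ_δ ^ i * δ̄ (levLc u)` -/
theorem levLc_unitsMap {i : ℕ} (hg : GoodLevel K p i) (δ : K ≃+* K) (hδ : ∀ x, ‖δ x‖ = ‖x‖)
    {u : Kˣ} (hu : u ∈ lev K p i) :
    levLc K p i (unitsMap δ u) = theta δ hδ ^ i * resMap δ hδ (levLc K p i u) := by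
  obtain ⟨u₁, hu₁, w, rfl⟩ := mem_lev.1 hu
  rw [map_mul, map_pow]
  have h1 := levLc_mul_pow hp hpK hp0 hg
    ⟨unitsMap δ u₁, unitsMap_mem_princUnits δ hδ hu₁⟩ (unitsMap δ w)
  have h2 := levLc_mul_pow hp hpK hp0 hg ⟨u₁, hu₁⟩ w
  rw [h1, h2]
  exact leadCoeff_unitsMap δ hδ hg.pos ⟨u₁, hu₁⟩

end Prime

end Fermat.Agent.S56lib.Kum
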