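/-
S56lib / Kum / Top (helper3).
The top level `T = p e / (p - 1)` of the filtration `lev K p i` for a local field `K ∋ ζ_p`:
* `topLevel`, `topLevel_spec` : `(p - 1) T = p e`, `‖ζ - 1‖ ^ p = c ^ T`;
* `lev_succ_topLevel` : `lev (T + 1) = Kˣᵖ`;
* `card_lev_top_le` : the image of `lev T` in `Kˣ / Kˣᵖ` has at most `p` elements;
* `unitsMap_mul_inv_pow_mem` : for `τ` trivial on the residue field, `τ ζ = ζ ^ n`:
  `τ u ≡ u ^ n` modulo `p`-th powers, for `u ∈ lev T`.
-/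
import Fermat.Agent.S56lib.Kum.Lev
import Fermat.Agent.S56lib.Kum.Break

set_option autoImplicit false
set_option linter.unusedSectionVars false
set_option linter.style.haveILetI false

open scoped NormedField Valued NNReal

namespace Fermat.Agent.S56lib.Kum

open Fermat.Agent.S55lib.LocalUnr IsUltrametricDist

section Field

variable {Ω : Type*} [NormedField Ω] [IsUltrametricDist Ω]

/-- `‖(y + 1) ^ p - 1 - y ^ p - p y‖ ≤ ‖p‖ ‖y‖ ^ 2` for `‖y‖ ≤ 1` -/
theorem norm_add_one_pow_sub_sub_le {p : ℕ} (hp : p.Prime) {y : Ω} (hy : ‖y‖ ≤ 1) :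
    ‖(y + 1) ^ p - 1 - y ^ p - p * y‖ ≤ ‖(p : Ω)‖ * ‖y‖ ^ 2 := by
  obtain ⟨n, rfl⟩ : ∃ n, p = n + 2 := ⟨p - 2, by have := hp.two_le; omega⟩
  have h : (y + 1) ^ (n + 2) - 1 - y ^ (n + 2) - ((n + 2 : ℕ) : Ω) * y
      = ∑ m ∈ Finset.range n, y ^ (m + 2) * ((n + 2).choose (m + 2) : Ω) := by
    rw [add_pow, Finset.sum_range_succ, Finset.sum_range_succ', Finset.sum_range_succ']
    simp only [one_pow, mul_one, Nat.choose_self, Nat.cast_one, pow_zero, Nat.choose_zero_right,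
      Nat.sub_self, zero_add, pow_one, Nat.choose_one_right]
    ring
  rw [h]
  refine norm_sum_le_of_forall_le_of_nonneg (by positivity) (fun m hm => ?_)
  have hm' : m + 2 < n + 2 := by simpa using Finset.mem_range.mp hm
  obtain ⟨c, hc⟩ := hp.dvd_choose_self (Nat.succ_ne_zero (m + 1)) hm'
  rw [hc, norm_mul]
  push_cast
  rw [norm_mul]
  have h1 : ‖y ^ (m + 2)‖ ≤ ‖y‖ ^ 2 := by
    rw [norm_pow, pow_add]
    calc ‖y‖ ^ m * ‖y‖ ^ 2 ≤ 1 * ‖y‖ ^ 2 :=
          mul_le_mul_of_nonneg_right (pow_le_one₀ (norm_nonneg _) hy) (by positivity)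
      _ = ‖y‖ ^ 2 := one_mul _
  have h2 : ‖((n : Ω) + 2)‖ * ‖(c : Ω)‖ ≤ ‖((n : Ω) + 2)‖ := by
    calc ‖((n : Ω) + 2)‖ * ‖(c : Ω)‖ ≤ ‖((n : Ω) + 2)‖ * 1 :=
          mul_le_mul_of_nonneg_left (norm_natCast_le_one Ω c) (norm_nonneg _)
      _ = _ := mul_one _
  calc ‖y ^ (m + 2)‖ * (‖((n : Ω) + 2)‖ * ‖(c : Ω)‖) ≤ ‖y‖ ^ 2 * ‖((n : Ω) + 2)‖ :=
        mul_le_mul h1 h2 (by positivity) (by positivity)
    _ = ‖((n : Ω) + 2)‖ * ‖y‖ ^ 2 := mul_comm _ _

end Field

section Red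

variable {K : Type*} [NontriviallyNormedField K] [IsUltrametricDist K] [ProperSpace K]

open Classical in
/-- total reduction map `K → 𝓀[K]` (zero outside the unit ball) -/
noncomputable def red (x : K) : 𝓀[K] :=
  if h : ‖x‖ ≤ 1 then IsLocalRing.residue 𝒪[K] ⟨x, (Valued.integer.mem_iff).2 h⟩ else 0

theorem red_of_le {x : K} (h : ‖x‖ ≤ 1) :
    red x = IsLocalRing.residue 𝒪[K] ⟨x, (Valued.integer.mem_iff).2 h⟩ := by
  rw [red, dif_pos h]

theorem red_coe (x : 𝒪[K]) : red (x : K) = IsLocalRing.residue 𝒪[K] x := by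
  rw [red_of_le (Valued.integer.mem_iff.1 x.2)]

theorem red_add {x y : K} (hx : ‖x‖ ≤ 1) (hy : ‖y‖ ≤ 1) : red (x + y) = red x + red y := by
  have hxy : ‖x + y‖ ≤ 1 := (norm_add_le_max x y).trans (max_le hx hy)
  rw [red_of_le hx, red_of_le hy, red_of_le hxy, ← map_add]
  rfl

theorem red_mul {x y : K} (hx : ‖x‖ ≤ 1) (hy : ‖y‖ ≤ 1) : red (x * y) = red x * red y := by
  have hxy : ‖x * y‖ ≤ 1 := by
    rw [norm_mul]; exact mul_le_one₀ hx (norm_nonneg _) hy
  rw [red_of_le hx, red_of_le hy, red_of_le hxy, ← map_mul]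
  rfl

theorem red_one : red (1 : K) = 1 := by
  rw [red_of_le (by simp)]
  exact map_one _

theorem red_pow {x : K} (hx : ‖x‖ ≤ 1) (n : ℕ) : red (x ^ n) = red x ^ n := by
  induction n with
  | zero => rw [pow_zero, pow_zero, red_one]
  | succ n ih =>
    rw [pow_succ, pow_succ, red_mul (by rw [norm_pow]; exact pow_le_one₀ (norm_nonneg _) hx) hx,
      ih]

theorem red_eq_zero_iff {x : K} (hx : ‖x‖ ≤ 1) : red x = 0 ↔ ‖x‖ < 1 := by
  rw [red_of_le hx, IsLocalRing.residue_eq_zero_iff, mem_maximalIdeal_iff]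
  rfl

theorem red_eq_zero_of_lt {x : K} (hx : ‖x‖ < 1) : red x = 0 := (red_eq_zero_iff hx.le).2 hx

theorem red_add_of_lt {x y : K} (hx : ‖x‖ ≤ 1) (hy : ‖y‖ < 1) : red (x + y) = red x := by
  rw [red_add hx hy.le, red_eq_zero_of_lt hy, add_zero]

theorem red_natCast (n : ℕ) : red ((n : ℕ) : K) = (n : 𝓀[K]) := by
  rw [red_of_le (norm_natCast_le_one K n)]
  have : (⟨(n : K), (Valued.integer.mem_iff).2 (norm_natCast_le_one K n)⟩ : 𝒪[K]) =
      ((n : ℕ) : 𝒪[K]) := by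
    apply Subtype.ext; simp
  rw [this, map_natCast]

theorem red_surjective : Function.Surjective (red : K → 𝓀[K]) := by
  intro x
  obtain ⟨y, rfl⟩ := IsLocalRing.residue_surjective x
  exact ⟨(y : K), red_coe y⟩

theorem leadCoeff_eq_red {i : ℕ} (hi : 1 ≤ i) (u : princUnits K i) :
    Multiplicative.toAdd (leadCoeff K i hi u) = red ((((u : Kˣ) : K) - 1) / unif K ^ i) := by
  show IsLocalRing.residue 𝒪[K] (normDiff K i u) = _
  rw [← red_coe, coe_normDiff]

theorem red_map (δ : K ≃+* K) (hδ : ∀ x, ‖δ x‖ = ‖x‖) {x : K} (hx : ‖x‖ ≤ 1) :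
    red (δ x) = resMap δ hδ (red x) := by
  rw [red_of_le hx, resMap_residue, ← red_coe, coe_intMap]

theorem theta_eq_red (δ : K ≃+* K) (hδ : ∀ x, ‖δ x‖ = ‖x‖) :
    theta δ hδ = red (δ (unif K) / unif K) := by
  rw [theta, ← red_coe, coe_thetaInt]

end Red

section Local

variable {K : Type*} [NontriviallyNormedField K] [IsUltrametricDist K] [ProperSpace K] {p : ℕ}

/-- `ord (ζ - 1)` as a natural number -/
noncomputable def lamOrd (K : Type*) [NontriviallyNormedField K] [IsUltrametricDist K]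
    [ProperSpace K] (ζ : K) : ℕ := (ord K (ζ - 1)).toNat

/-- the top level `T = p · ord (ζ - 1) = p e / (p - 1)` -/
noncomputable def topLevel (K : Type*) [NontriviallyNormedField K] [IsUltrametricDist K]
    [ProperSpace K] (p : ℕ) (ζ : K) : ℕ := p * lamOrd K ζ

variable (hp : p.Prime) (hpK : ‖(p : K)‖ < 1) (hp0 : (p : K) ≠ 0) {ζ : K}
  (hζ : IsPrimitiveRoot ζ p)

include hp hpK hζ

theorem lam_ne_zero : ζ - 1 ≠ 0 := sub_ne_zero.mpr (zeta_ne_one hp hζ)

theorem ord_lam_pos : 0 < ord K (ζ - 1) :=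
  (ord_pos_iff (lam_ne_zero hp hpK hζ)).2 (norm_zeta_sub_one_lt_one hp hpK hζ)

theorem lamOrd_cast : ((lamOrd K ζ : ℕ) : ℤ) = ord K (ζ - 1) :=
  Int.toNat_of_nonneg (ord_lam_pos hp hpK hζ).le

theorem lamOrd_pos : 1 ≤ lamOrd K ζ := by
  have h1 := ord_lam_pos hp hpK hζ
  have h2 := lamOrd_cast hp hpK hζ
  omega

theorem norm_lam : ‖ζ - 1‖ = unifNorm K ^ lamOrd K ζ := by
  rw [norm_eq_zpow_ord (lam_ne_zero hp hpK hζ), ← lamOrd_cast hp hpK hζ, zpow_natCast]

include hp0 in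
theorem lamOrd_mul : ((p : ℤ) - 1) * lamOrd K ζ = ord K (p : K) := by
  have h1 := norm_zeta_sub_one_pow hp hζ
  rw [norm_lam hp hpK hζ, ← pow_mul, norm_eq_zpow_ord hp0, ← zpow_natCast] at h1
  have h2 := zpow_unifNorm_injective (K := K) h1
  rw [← h2]
  push_cast
  have : 1 ≤ p := hp.pos
  rw [Nat.cast_sub this]
  push_cast
  ring

include hp0 in
theorem topLevel_spec : ((p : ℤ) - 1) * topLevel K p ζ = p * ord K (p : K) := by
  rw [← lamOrd_mul hp hpK hp0 hζ, topLevel]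
  push_cast
  ring

theorem topLevel_pos : 1 ≤ topLevel K p ζ :=
  Nat.one_le_iff_ne_zero.mpr (Nat.mul_ne_zero hp.ne_zero (by have := lamOrd_pos hp hpK hζ; omega))

theorem norm_lam_pow : ‖(ζ - 1) ^ p‖ = unifNorm K ^ topLevel K p ζ := by
  rw [norm_pow, norm_lam hp hpK hζ, ← pow_mul, topLevel, mul_comm]

include hp0 in
/-- beyond the top level everything is a `p`-th power -/
theorem lev_succ_topLevel : lev K p (topLevel K p ζ + 1) = pthPowers K p := by
  apply lev_eq_pthPowers hp hpK hp0 (by omega)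
  have h := topLevel_spec hp hpK hp0 hζ
  have hp1 : (1 : ℤ) ≤ (p : ℤ) - 1 := by have := hp.two_le; omega
  push_cast
  linarith

theorem norm_eps : ‖(ζ - 1) ^ p / unif K ^ topLevel K p ζ‖ = 1 := by
  rw [norm_div, norm_lam_pow hp hpK hζ, norm_pow]
  exact div_self (pow_pos (unifNorm_pos K) _).ne'

theorem norm_c1 : ‖(p : K) / (ζ - 1) ^ (p - 1)‖ = 1 := by
  rw [norm_div, norm_pow, norm_zeta_sub_one_pow hp hζ]
  exact div_self (by rw [← norm_zeta_sub_one_pow hp hζ]; exact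
    (pow_pos (norm_zeta_sub_one_pos hp hζ) _).ne')

omit hp hpK hζ in
theorem red_ne_zero_of_norm_eq_one {x : K} (hx : ‖x‖ = 1) : red x ≠ 0 := by
  rw [Ne, red_eq_zero_iff hx.le, hx]
  exact lt_irrefl _

end Local

section Wp

variable {K : Type*} [NontriviallyNormedField K] [IsUltrametricDist K] [ProperSpace K] {p : ℕ}

/-- `ε̄`: the reduction of `(ζ - 1) ^ p / π ^ T` -/
noncomputable def epsBar (K : Type*) [NontriviallyNormedField K] [IsUltrametricDist K]
    [ProperSpace K] (p : ℕ) (ζ : K) : 𝓀[K] := red ((ζ - 1) ^ p / unif K ^ topLevel K p ζ)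

/-- `c̄₁`: the reduction of `p / (ζ - 1) ^ (p - 1)` -/
noncomputable def c1Bar (K : Type*) [NontriviallyNormedField K] [IsUltrametricDist K]
    [ProperSpace K] (p : ℕ) (ζ : K) : 𝓀[K] := red ((p : K) / (ζ - 1) ^ (p - 1))

/-- the Artin–Schreier type map `y ↦ ε̄ (y ^ p + c̄₁ y)` -/
noncomputable def wp (hp : p.Prime) (hpK : ‖(p : K)‖ < 1) (ζ : K) : 𝓀[K] →+ 𝓀[K] where
  toFun y := epsBar K p ζ * (y ^ p + c1Bar K p ζ * y)
  map_zero' := by simp [zero_pow hp.ne_zero]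
  map_add' x y := by
    haveI := charP_residue K hp hpK
    haveI : Fact p.Prime := ⟨hp⟩
    rw [add_pow_char]
    ring

variable (hp : p.Prime) (hpK : ‖(p : K)‖ < 1) (hp0 : (p : K) ≠ 0) {ζ : K}
  (hζ : IsPrimitiveRoot ζ p)

include hζ in
theorem card_ker_wp_le : Nat.card (wp hp hpK ζ).ker ≤ p := by
  classical
  haveI := finite_residue K
  haveI : Fintype 𝓀[K] := Fintype.ofFinite _
  have hε : epsBar K p ζ ≠ 0 := red_ne_zero_of_norm_eq_one (norm_eps hp hpK hζ)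
  have hne : (Polynomial.X ^ p + Polynomial.C (c1Bar K p ζ) * Polynomial.X : Polynomial 𝓀[K]) ≠ 0 := by
    intro h
    have h1 := congrArg (fun f : Polynomial 𝓀[K] => f.coeff p) h
    simp only [Polynomial.coeff_add, Polynomial.coeff_X_pow, if_true, Polynomial.coeff_C_mul,
      Polynomial.coeff_X, Polynomial.coeff_zero] at h1
    rw [if_neg (by have := hp.two_le; omega)] at h1
    simp at h1
  have hdeg : (Polynomial.X ^ p + Polynomial.C (c1Bar K p ζ) * Polynomial.X :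
      Polynomial 𝓀[K]).natDegree ≤ p := by
    refine (Polynomial.natDegree_add_le _ _).trans (max_le ?_ ?_)
    · rw [Polynomial.natDegree_X_pow]
    · refine (Polynomial.natDegree_C_mul_le _ _).trans ?_
      rw [Polynomial.natDegree_X]; exact hp.pos
  have hsub : ∀ y : 𝓀[K], y ∈ (wp hp hpK ζ).ker →
      y ∈ (Polynomial.X ^ p + Polynomial.C (c1Bar K p ζ) * Polynomial.X :
        Polynomial 𝓀[K]).roots.toFinset := by
    intro y hy
    rw [Multiset.mem_toFinset, Polynomial.mem_roots hne]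
    rw [AddMonoidHom.mem_ker] at hy
    have : epsBar K p ζ * (y ^ p + c1Bar K p ζ * y) = 0 := hy
    simpa using (mul_eq_zero.1 this).resolve_left hε
  calc Nat.card (wp hp hpK ζ).ker
      ≤ Nat.card ((Polynomial.X ^ p + Polynomial.C (c1Bar K p ζ) * Polynomial.X :
        Polynomial 𝓀[K]).roots.toFinset : Set 𝓀[K]) :=
        Nat.card_mono (Finset.finite_toSet _) (fun y hy => hsub y hy)
    _ = (Polynomial.X ^ p + Polynomial.C (c1Bar K p ζ) * Polynomial.X :
        Polynomial 𝓀[K]).roots.toFinset.card := Nat.card_eq_card_toFinset _ |>.trans (by simp)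
    _ ≤ Multiset.card (Polynomial.X ^ p + Polynomial.C (c1Bar K p ζ) * Polynomial.X :
        Polynomial 𝓀[K]).roots := Multiset.toFinset_card_le _
    _ ≤ _ := Polynomial.card_roots' _
    _ ≤ p := hdeg

include hζ in
theorem index_range_wp_le : (wp hp hpK ζ).range.index ≤ p := by
  haveI := finite_residue K
  rw [AddSubgroup.index_range]
  exact card_ker_wp_le hp hpK hζ

include hp hpK hζ in
/-- the key estimate: `(1 + y λ) ^ p = 1 + (y ^ p + c₁ y) λ ^ p + O(p λ ^ 2)` -/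
theorem norm_one_add_mul_lam_pow {y : K} (hy : ‖y‖ ≤ 1) :
    ‖(1 + y * (ζ - 1)) ^ p - 1 - (y ^ p + (p : K) / (ζ - 1) ^ (p - 1) * y) * (ζ - 1) ^ p‖ ≤
      ‖(p : K)‖ * ‖ζ - 1‖ ^ 2 := by
  have hl0 := lam_ne_zero hp hpK hζ
  have hz : ‖y * (ζ - 1)‖ ≤ 1 := by
    rw [norm_mul]
    exact mul_le_one₀ hy (norm_nonneg _) (norm_zeta_sub_one_lt_one hp hpK hζ).le
  have h1 := norm_add_one_pow_sub_sub_le hp hz
  have hpp : (ζ - 1) ^ p = (ζ - 1) ^ (p - 1) * (ζ - 1) := by
    rw [← pow_succ, Nat.sub_add_cancel hp.pos]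
  have h2 : (1 + y * (ζ - 1)) ^ p - 1 - (y ^ p + (p : K) / (ζ - 1) ^ (p - 1) * y) * (ζ - 1) ^ p =
      (y * (ζ - 1) + 1) ^ p - 1 - (y * (ζ - 1)) ^ p - p * (y * (ζ - 1)) := by
    have h3 : (p : K) / (ζ - 1) ^ (p - 1) * y * (ζ - 1) ^ p = p * (y * (ζ - 1)) := by
      rw [hpp]
      field_simp
    rw [add_mul, h3, mul_pow, add_comm 1]
    ring
  rw [h2]
  refine h1.trans ?_
  apply mul_le_mul_of_nonneg_left _ (norm_nonneg _)
  rw [norm_mul, mul_pow]
  calc ‖y‖ ^ 2 * ‖ζ - 1‖ ^ 2 ≤ 1 * ‖ζ - 1‖ ^ 2 :=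
        mul_le_mul_of_nonneg_right (pow_le_one₀ (norm_nonneg _) hy) (by positivity)
    _ = _ := one_mul _

/-- the unit `1 + y (ζ - 1)` -/
noncomputable def wUnit (ζ : K) (y : K) : K := 1 + y * (ζ - 1)

include hp hpK hζ in
theorem norm_wUnit_sub_one_lt {y : K} (hy : ‖y‖ ≤ 1) : ‖wUnit ζ y - 1‖ < 1 := by
  rw [wUnit, add_sub_cancel_left, norm_mul]
  calc ‖y‖ * ‖ζ - 1‖ ≤ 1 * ‖ζ - 1‖ := mul_le_mul_of_nonneg_right hy (norm_nonneg _)
    _ < 1 := by rw [one_mul]; exact norm_zeta_sub_one_lt_one hp hpK hζ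

include hp hpK hζ in
theorem wUnit_ne_zero {y : K} (hy : ‖y‖ ≤ 1) : wUnit ζ y ≠ 0 := by
  have := norm_one_unit (norm_wUnit_sub_one_lt hp hpK hζ hy)
  intro h
  rw [h, norm_zero] at this
  exact zero_ne_one this

include hp hpK hζ hp0 in
theorem norm_p_mul_lam_sq : ‖(p : K)‖ * ‖ζ - 1‖ ^ 2 < unifNorm K ^ topLevel K p ζ := by
  have hl := norm_zeta_sub_one_pos hp hζ
  have hl1 := norm_zeta_sub_one_lt_one hp hpK hζ
  rw [← norm_lam_pow hp hpK hζ, norm_pow, ← norm_zeta_sub_one_pow hp hζ, ← pow_add]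
  have : p - 1 + 2 = p + 1 := by have := hp.pos; omega
  rw [this]
  exact pow_lt_pow_right_of_lt_one₀ hl hl1 (Nat.lt_succ_self p)

include hp hpK hζ hp0 in
/-- `(1 + y λ) ^ p ∈ U_T` and its leading coefficient is `℘(ȳ)` -/
theorem wUnit_pow_spec {y : K} (hy : ‖y‖ ≤ 1) :
    ∃ h : (Units.mk0 (wUnit ζ y) (wUnit_ne_zero hp hpK hζ hy)) ^ p ∈
        princUnits K (topLevel K p ζ),
      Multiplicative.toAdd (leadCoeff K (topLevel K p ζ) (topLevel_pos hp hpK hζ)
        ⟨_, h⟩) = wp hp hpK ζ (red y) := by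
  set T := topLevel K p ζ with hT
  have hTpos : 0 < unifNorm K ^ T := pow_pos (unifNorm_pos K) _
  have hkey := norm_one_add_mul_lam_pow hp hpK hζ hy
  have hlt := norm_p_mul_lam_sq hp hpK hp0 hζ
  have hc1 := norm_c1 hp hpK hζ
  have hmain : ‖(y ^ p + (p : K) / (ζ - 1) ^ (p - 1) * y)‖ ≤ 1 := by
    refine (norm_add_le_max _ _).trans (max_le ?_ ?_)
    · rw [norm_pow]; exact pow_le_one₀ (norm_nonneg _) hy
    · rw [norm_mul, hc1, one_mul]; exact hy
  have hval : ‖wUnit ζ y ^ p - 1‖ ≤ unifNorm K ^ T := by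
    have : wUnit ζ y ^ p - 1 = (wUnit ζ y ^ p - 1 -
        (y ^ p + (p : K) / (ζ - 1) ^ (p - 1) * y) * (ζ - 1) ^ p) +
        (y ^ p + (p : K) / (ζ - 1) ^ (p - 1) * y) * (ζ - 1) ^ p := by ring
    rw [this]
    refine (norm_add_le_max _ _).trans (max_le (hkey.trans hlt.le) ?_)
    rw [norm_mul, norm_lam_pow hp hpK hζ]
    calc _ ≤ 1 * unifNorm K ^ T := mul_le_mul_of_nonneg_right hmain hTpos.le
      _ = _ := one_mul _
  have hmem : (Units.mk0 (wUnit ζ y) (wUnit_ne_zero hp hpK hζ hy)) ^ p ∈ princUnits K T := by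
    rw [mem_princUnits_of_pos (topLevel_pos hp hpK hζ)]
    simpa using hval
  refine ⟨hmem, ?_⟩
  rw [leadCoeff_eq_red]
  have hπT : unif K ^ T ≠ 0 := pow_ne_zero _ (unif_isUniformizer K).ne_zero
  have hdecomp : ((((⟨_, hmem⟩ : princUnits K T) : Kˣ) : K) - 1) / unif K ^ T =
      ((ζ - 1) ^ p / unif K ^ T) * (y ^ p + (p : K) / (ζ - 1) ^ (p - 1) * y) +
      (wUnit ζ y ^ p - 1 - (y ^ p + (p : K) / (ζ - 1) ^ (p - 1) * y) * (ζ - 1) ^ p) /
        unif K ^ T := by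
    simp only [Units.val_pow_eq_pow_val, Units.val_mk0]
    field_simp
    ring
  rw [hdecomp, red_add_of_lt, red_mul (norm_eps hp hpK hζ).le hmain, red_add, red_pow hy,
    red_mul hc1.le hy]
  · rfl
  · rw [norm_pow]; exact pow_le_one₀ (norm_nonneg _) hy
  · rw [norm_mul, hc1, one_mul]; exact hy
  · rw [norm_mul, norm_eps hp hpK hζ, one_mul]; exact hmain
  · rw [norm_div, norm_pow, div_lt_one (by exact hTpos)]
    exact lt_of_le_of_lt hkey hlt

include hp hpK hζ hp0 in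
/-- an element of `U_T` whose leading coefficient lies in the image of `℘` is a `p`-th power -/
theorem mem_pthPowers_of_leadCoeff_mem_range (u : princUnits K (topLevel K p ζ))
    (hu : Multiplicative.toAdd (leadCoeff K (topLevel K p ζ) (topLevel_pos hp hpK hζ) u) ∈
      (wp hp hpK ζ).range) : (u : Kˣ) ∈ pthPowers K p := by
  obtain ⟨ybar, hy⟩ := hu
  obtain ⟨y, rfl⟩ := IsLocalRing.residue_surjective ybar
  have hy1 : ‖(y : K)‖ ≤ 1 := Valued.integer.mem_iff.1 y.2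
  obtain ⟨hmem, hlc⟩ := wUnit_pow_spec hp hpK hp0 hζ hy1
  rw [red_coe, hy] at hlc
  set v : princUnits K (topLevel K p ζ) := ⟨_, hmem⟩ with hv
  have h1 : leadCoeff K (topLevel K p ζ) (topLevel_pos hp hpK hζ) (u / v) = 1 := by
    rw [map_div, div_eq_one]
    exact (Multiplicative.toAdd.injective hlc).symm
  have h2 := (leadCoeff_eq_one_iff (topLevel_pos hp hpK hζ) (u / v)).1 h1
  have h3 : ((u / v : princUnits K (topLevel K p ζ)) : Kˣ) ∈ pthPowers K p := by
    rw [← lev_succ_topLevel hp hpK hp0 hζ]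
    exact princUnits_le_lev _ h2
  have h4 : (u : Kˣ) = ((u / v : princUnits K (topLevel K p ζ)) : Kˣ) * (v : Kˣ) := by
    show (u : Kˣ) = (u : Kˣ) / (v : Kˣ) * (v : Kˣ)
    rw [div_mul_cancel]
  rw [h4]
  exact mul_mem h3 (pow_mem_pthPowers _)

omit hp hpK hp0 hζ in
theorem leadCoeff_surjective {i : ℕ} (hi : 1 ≤ i) :
    Function.Surjective (leadCoeff K i hi) := by
  intro x
  obtain ⟨y, hy⟩ := IsLocalRing.residue_surjective (Multiplicative.toAdd x)
  have hy1 : ‖(y : K)‖ ≤ 1 := Valued.integer.mem_iff.1 y.2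
  have hπ := unif_isUniformizer K
  have hlt : ‖(y : K) * unif K ^ i‖ ≤ unifNorm K ^ i := by
    rw [norm_mul, norm_pow]
    calc ‖(y : K)‖ * ‖unif K‖ ^ i ≤ 1 * ‖unif K‖ ^ i :=
          mul_le_mul_of_nonneg_right hy1 (by positivity)
      _ = _ := one_mul _
  have hlt1 : ‖(y : K) * unif K ^ i‖ < 1 :=
    lt_of_le_of_lt hlt (pow_lt_one₀ (unifNorm_pos K).le (unifNorm_lt_one K) (by omega))
  have h0 : 1 + (y : K) * unif K ^ i ≠ 0 := by
    intro h
    have h1 : ‖1 + (y : K) * unif K ^ i‖ = 1 := norm_one_add_eq_one hlt1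
    rw [h, norm_zero] at h1
    exact zero_ne_one h1
  have hmem : Units.mk0 _ h0 ∈ princUnits K i := by
    rw [mem_princUnits_of_pos hi]
    simpa using hlt
  refine ⟨⟨_, hmem⟩, ?_⟩
  apply Multiplicative.toAdd.injective
  rw [leadCoeff_eq_red]
  simp only [Units.val_mk0, add_sub_cancel_left]
  rw [mul_div_assoc, div_self (pow_ne_zero _ hπ.ne_zero), mul_one, red_coe, hy]

include hp hpK hζ hp0 in
/-- **Top level**: the image of `lev T` in `Kˣ / Kˣᵖ` is finite with at most `p` elements. -/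
theorem finite_and_card_lev_top_le :
    Finite ((lev K p (topLevel K p ζ)).map (QuotientGroup.mk' (pthPowers K p))) ∧
    Nat.card ((lev K p (topLevel K p ζ)).map (QuotientGroup.mk' (pthPowers K p))) ≤ p := by
  set T := topLevel K p ζ with hT
  have hTpos := topLevel_pos hp hpK hζ
  haveI := finite_residue K
  let f : princUnits K T →* Kˣ ⧸ pthPowers K p :=
    (QuotientGroup.mk' (pthPowers K p)).comp (princUnits K T).subtype
  have hle : (lev K p T).map (QuotientGroup.mk' (pthPowers K p)) ≤ f.range := by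
    rintro _ ⟨u, hu, rfl⟩
    obtain ⟨u₁, hu₁, w, rfl⟩ := mem_lev.1 hu
    refine ⟨⟨u₁, hu₁⟩, ?_⟩
    show QuotientGroup.mk' (pthPowers K p) u₁ = QuotientGroup.mk' (pthPowers K p) (u₁ * w ^ p)
    rw [map_mul]
    have : QuotientGroup.mk' (pthPowers K p) (w ^ p) = 1 :=
      (QuotientGroup.eq_one_iff _).2 (pow_mem_pthPowers w)
    rw [this]
    exact (mul_one (QuotientGroup.mk' (pthPowers K p) u₁)).symm
  -- the subgroup `N` of `U_T` with leading coefficient in the image of `℘`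
  let A : Subgroup (Multiplicative 𝓀[K]) := AddSubgroup.toSubgroup (wp hp hpK ζ).range
  let N : Subgroup (princUnits K T) := A.comap (leadCoeff K T hTpos)
  have hNker : N ≤ f.ker := by
    intro u hu
    rw [MonoidHom.mem_ker]
    exact (QuotientGroup.eq_one_iff _).2
      (mem_pthPowers_of_leadCoeff_mem_range hp hpK hp0 hζ u hu)
  have hAidx : A.index ≤ p := by
    have : A.index = (wp hp hpK ζ).range.index := AddSubgroup.index_toSubgroup _
    rw [this]
    exact index_range_wp_le hp hpK hζ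
  have hNidx : N.index = A.index := Subgroup.index_comap_of_surjective A (leadCoeff_surjective hTpos)
  have hA0 : A.index ≠ 0 := Subgroup.index_ne_zero_of_finite
  have hkidx : f.ker.index ≤ N.index :=
    Nat.le_of_dvd (Nat.pos_of_ne_zero (by rw [hNidx]; exact hA0)) (Subgroup.index_dvd_of_le hNker)
  haveI : Finite f.range := by
    apply Nat.finite_of_card_ne_zero
    rw [← Subgroup.index_ker]
    intro h0
    have := Subgroup.index_dvd_of_le hNker
    rw [h0, hNidx] at this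
    exact hA0 (Nat.eq_zero_of_zero_dvd this)
  refine ⟨Finite.of_injective (Subgroup.inclusion hle) (Subgroup.inclusion_injective hle), ?_⟩
  calc Nat.card ((lev K p T).map (QuotientGroup.mk' (pthPowers K p)))
      ≤ Nat.card f.range := Subgroup.card_le_of_le hle
    _ = f.ker.index := (Subgroup.index_ker f).symm
    _ ≤ N.index := hkidx
    _ = A.index := hNidx
    _ ≤ p := hAidx

include hp hpK hζ hp0 in
theorem finite_lev_top :
    Finite ((lev K p (topLevel K p ζ)).map (QuotientGroup.mk' (pthPowers K p))) :=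
  (finite_and_card_lev_top_le hp hpK hp0 hζ).1

include hp hpK hζ hp0 in
theorem card_lev_top_le :
    Nat.card ((lev K p (topLevel K p ζ)).map (QuotientGroup.mk' (pthPowers K p))) ≤ p :=
  (finite_and_card_lev_top_le hp hpK hp0 hζ).2

include hp hpK hζ in
theorem red_zeta : red ζ = 1 := by
  have : ζ = 1 + (ζ - 1) := by ring
  rw [this, red_add_of_lt (by simp) (norm_zeta_sub_one_lt_one hp hpK hζ), red_one]

include hp hpK hζ in
/-- `θ_τ ^ T = n` if `τ` is trivial on the residue field and `τ ζ = ζ ^ n` -/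
theorem theta_pow_topLevel (τ : K ≃+* K) (hτ : ∀ x, ‖τ x‖ = ‖x‖)
    (hres : ∀ x, resMap τ hτ x = x) {n : ℕ} (hn : τ ζ = ζ ^ n) :
    theta τ hτ ^ topLevel K p ζ = (n : 𝓀[K]) := by
  set T := topLevel K p ζ with hT
  haveI := charP_residue K hp hpK
  haveI : Fact p.Prime := ⟨hp⟩
  have hπ0 : unif K ≠ 0 := (unif_isUniformizer K).ne_zero
  have hl0 := lam_ne_zero hp hpK hζ
  have hζ1 : ‖ζ‖ = 1 := norm_primitiveRoot hp hζ
  have hθ1 : ‖τ (unif K) / unif K‖ = 1 := by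
    rw [norm_div, hτ]; exact div_self (unifNorm_pos K).ne'
  set E : K := (ζ - 1) ^ p / unif K ^ T with hE
  have hE1 : ‖E‖ = 1 := norm_eps hp hpK hζ
  have hτE1 : ‖τ E‖ = 1 := by rw [hτ, hE1]
  have hτE0 : τ E ≠ 0 := by rw [← norm_pos_iff, hτE1]; exact one_pos
  have hS : ‖∑ j ∈ Finset.range n, ζ ^ j‖ ≤ 1 :=
    norm_sum_le_of_forall_le_of_nonneg zero_le_one (fun j _ => by
      rw [norm_pow, hζ1, one_pow])
  -- the decomposition of `(τ π / π) ^ T`
  have hdec : (τ (unif K) / unif K) ^ T * τ E = (∑ j ∈ Finset.range n, ζ ^ j) ^ p * E := by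
    have h1 : τ E = (ζ ^ n - 1) ^ p / τ (unif K) ^ T := by
      rw [hE, map_div₀, map_pow, map_pow, map_sub, map_one, hn]
    have h2 : ζ ^ n - 1 = (∑ j ∈ Finset.range n, ζ ^ j) * (ζ - 1) := (geom_sum_mul ζ n).symm
    have hτπ0 : τ (unif K) ≠ 0 := by rw [← norm_pos_iff, hτ]; exact unifNorm_pos K
    rw [h1, h2, hE, div_pow, mul_pow]
    field_simp
  have hredE : red (τ E) = red E := by rw [red_map τ hτ hE1.le, hres]
  have hredE0 : red E ≠ 0 := red_ne_zero_of_norm_eq_one hE1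
  have h3 := congrArg red hdec
  rw [red_mul (by rw [norm_pow, hθ1, one_pow]) hτE1.le, red_pow hθ1.le, hredE,
    red_mul (by rw [norm_pow]; exact pow_le_one₀ (norm_nonneg _) hS) hE1.le, red_pow hS] at h3
  have h4 := mul_right_cancel₀ hredE0 h3
  rw [theta_eq_red, h4]
  have h5 : red (∑ j ∈ Finset.range n, ζ ^ j) = (n : 𝓀[K]) := by
    clear hdec h3 h4 hn
    induction n with
    | zero => simp [red_eq_zero_of_lt]
    | succ n ih =>
      have hS' : ‖∑ j ∈ Finset.range n, ζ ^ j‖ ≤ 1 :=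
        norm_sum_le_of_forall_le_of_nonneg zero_le_one (fun j _ => by
          rw [norm_pow, hζ1, one_pow])
      rw [Finset.sum_range_succ, red_add hS' (by rw [norm_pow, hζ1, one_pow]), ih hS',
        red_pow hζ1.le, red_zeta hp hpK hζ, one_pow]
      push_cast
      rfl
  rw [h5]
  rw [← frobenius_def, map_natCast]

include hp hpK hζ hp0 in
/-- **Top level, Galois action**: for `τ` trivial on the residue field with `τ ζ = ζ ^ n`,
`τ u ≡ u ^ n` modulo `p`-th powers for `u ∈ lev T`. -/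
theorem unitsMap_mul_inv_pow_mem (τ : K ≃+* K) (hτ : ∀ x, ‖τ x‖ = ‖x‖)
    (hres : ∀ x, resMap τ hτ x = x) {n : ℕ} (hn : τ ζ = ζ ^ n) {u : Kˣ}
    (hu : u ∈ lev K p (topLevel K p ζ)) : unitsMap τ u * (u ^ n)⁻¹ ∈ pthPowers K p := by
  set T := topLevel K p ζ with hT
  have hTpos := topLevel_pos hp hpK hζ
  obtain ⟨u₁, hu₁, w, rfl⟩ := mem_lev.1 hu
  have hsplit : unitsMap τ (u₁ * w ^ p) * ((u₁ * w ^ p) ^ n)⁻¹ =
      (unitsMap τ u₁ * (u₁ ^ n)⁻¹) * (unitsMap τ w * (w ^ n)⁻¹) ^ p := by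
    rw [map_mul, map_pow, mul_pow, mul_pow, mul_inv, inv_pow,
      ← pow_mul, ← pow_mul, mul_comm n p]
    rw [mul_mul_mul_comm]
  rw [hsplit]
  refine mul_mem ?_ (pow_mem_pthPowers _)
  set a : princUnits K T := ⟨u₁, hu₁⟩ with ha
  set b : princUnits K T := ⟨unitsMap τ u₁, unitsMap_mem_princUnits τ hτ hu₁⟩ with hb
  have h1 : leadCoeff K T hTpos (b / a ^ n) = 1 := by
    apply Multiplicative.toAdd.injective
    rw [map_div, map_pow, toAdd_div, toAdd_pow, toAdd_one]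
    have h2 := leadCoeff_unitsMap τ hτ hTpos a
    rw [show (⟨unitsMap τ (a : Kˣ), unitsMap_mem_princUnits τ hτ a.2⟩ : princUnits K T) = b
      from rfl] at h2
    rw [h2, hres, theta_pow_topLevel hp hpK hζ τ hτ hres hn, nsmul_eq_mul, sub_self]
  have h2 := (leadCoeff_eq_one_iff hTpos (b / a ^ n)).1 h1
  have h3 : ((b / a ^ n : princUnits K T) : Kˣ) = unitsMap τ u₁ * (u₁ ^ n)⁻¹ := by
    show (b : Kˣ) / ((a : Kˣ)) ^ n = _
    rw [div_eq_mul_inv]
  rw [← h3, ← lev_succ_topLevel hp hpK hp0 hζ]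
  exact princUnits_le_lev _ h2

end Wp

end Fermat.Agent.S56lib.Kum
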