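/-
S56lib / Kum / Tame (helper3).
Tame structure of a finite Galois extension `L / K` of local fields of degree prime to the
residue characteristic `p`:
* `eq_id_of_wild` : a wild isometric automorphism of order prime to `p` is trivial;
* `wild_of_theta` : trivial on residues and `θ = 1` implies wild;
* `theta_mul` : the cocycle formula for `θ`;
* `exists_tame_generator` : there is `τ ∈ Gal(L/K)` trivial on residues with `θ(τ)` of order
  exactly `e(L/K)`;
* `exists_frobenius` : there is `φ ∈ Gal(L/K)` inducing `x ↦ x ^ #k_K` on residues.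
-/
import Fermat.Agent.S56lib.Kum.Top
import Fermat.Agent.S55lib.LocalUnr.Frob

set_option autoImplicit false
set_option linter.unusedSectionVars false
set_option linter.style.haveILetI false

open scoped NormedField Valued NNReal

namespace Fermat.Agent.S56lib.Kum

open Fermat.Agent.S55lib.LocalUnr IsUltrametricDist

section Wild

variable {K : Type*} [NontriviallyNormedField K] [IsUltrametricDist K] [ProperSpace K] {p : ℕ}

/-- a wild automorphism is an isometry -/
theorem norm_map_of_wild (σ : K ≃+* K) (hwild : ∀ x, x ≠ 0 → ‖σ x - x‖ < ‖x‖) (x : K) :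
    ‖σ x‖ = ‖x‖ := by
  rcases eq_or_ne x 0 with rfl | hx
  · simp
  · have : σ x = x + (σ x - x) := by ring
    rw [this, norm_add_eq_left (hwild x hx)]

/-- **wild automorphisms of order prime to `p` are trivial** -/
theorem eq_id_of_wild (hp : p.Prime) (hpK : ‖(p : K)‖ < 1) (σ : K ≃+* K)
    (hwild : ∀ x, x ≠ 0 → ‖σ x - x‖ < ‖x‖) {m : ℕ} (hm : ¬ p ∣ m)
    (hσm : ∀ x, (σ ^ m) x = x) (x : K) : σ x = x := by
  by_contra hne
  set y : K := σ x - x with hy
  have hy0 : y ≠ 0 := sub_ne_zero.mpr hne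
  have hiso := norm_map_of_wild σ hwild
  have key : ∀ j : ℕ, ‖(σ ^ j) x - x - (j : K) * y‖ < ‖y‖ := by
    intro j
    induction j with
    | zero => simpa using norm_pos_iff.mpr hy0
    | succ j ih =>
      have h1 : (σ ^ (j + 1)) x - x - ((j + 1 : ℕ) : K) * y =
          σ ((σ ^ j) x - x - (j : K) * y) + (j : K) * (σ y - y) := by
        rw [pow_succ', RingAut.mul_apply]
        simp only [map_sub, map_mul, map_natCast, hy]
        push_cast
        ring
      rw [h1]
      refine lt_of_le_of_lt (norm_add_le_max _ _) (max_lt ?_ ?_)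
      · rw [hiso]; exact ih
      · rw [norm_mul]
        calc ‖(j : K)‖ * ‖σ y - y‖ ≤ 1 * ‖σ y - y‖ :=
              mul_le_mul_of_nonneg_right (norm_natCast_le_one K j) (norm_nonneg _)
          _ < ‖y‖ := by rw [one_mul]; exact hwild y hy0
  have h2 := key m
  rw [hσm, sub_self, zero_sub, norm_neg, norm_mul] at h2
  have hm1 : ‖(m : K)‖ = 1 := by
    have hcop : IsCoprime (m : ℤ) (p : ℤ) := by
      rw [Int.isCoprime_iff_gcd_eq_one, Int.gcd_natCast_natCast]
      exact ((Nat.Prime.coprime_iff_not_dvd hp).mpr hm).symm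
    have := norm_intCast_eq_one (Ω := K) hpK hcop
    simpa using this
  rw [hm1, one_mul] at h2
  exact lt_irrefl _ h2

/-- trivial on residues and `θ = 1` implies wild -/
theorem wild_of_theta (σ : K ≃+* K) (hσ : ∀ x, ‖σ x‖ = ‖x‖) (hres : ∀ x, resMap σ hσ x = x)
    (hθ : theta σ hσ = 1) (x : K) (hx : x ≠ 0) : ‖σ x - x‖ < ‖x‖ := by
  -- the multiplicative set of `x` with `‖σ x / x - 1‖ < 1`
  have hπ0 : unif K ≠ 0 := (unif_isUniformizer K).ne_zero
  have hπ : ‖σ (unif K) / unif K - 1‖ < 1 := by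
    have h1 : ‖σ (unif K) / unif K‖ ≤ 1 := by
      rw [norm_div, hσ]; exact (div_self (unifNorm_pos K).ne').le
    have h2 : red (σ (unif K) / unif K - 1) = 0 := by
      rw [sub_eq_add_neg, red_add h1 (by simp), ← theta_eq_red σ hσ, hθ]
      have : red (-1 : K) = -1 := by
        have h3 : red ((1 : K) + (-1)) = red (1 : K) + red (-1 : K) := red_add (by simp) (by simp)
        rw [add_neg_cancel, red_one] at h3
        have h4 : red (0 : K) = 0 := red_eq_zero_of_lt (by simp)
        rw [h4] at h3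
        exact (neg_eq_of_add_eq_zero_right h3.symm).symm
      rw [this, add_neg_cancel]
    exact (red_eq_zero_iff ((norm_sub_le_max' _ _).trans (max_le h1 (by simp)))).1 h2
  have hunit : ∀ v : K, ‖v‖ = 1 → ‖σ v / v - 1‖ < 1 := by
    intro v hv
    have hv0 : v ≠ 0 := by
      rintro rfl; simp at hv
    have h1 : red (σ v - v) = 0 := by
      rw [sub_eq_add_neg, red_add (by rw [hσ, hv]) (by rw [norm_neg, hv]),
        red_map σ hσ hv.le, hres]
      have h3 : red (v + (-v)) = red v + red (-v) := red_add hv.le (by rw [norm_neg, hv])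
      rw [add_neg_cancel] at h3
      have h4 : red (0 : K) = 0 := red_eq_zero_of_lt (by simp)
      rw [h4] at h3
      exact h3.symm
    have h2 : ‖σ v - v‖ < 1 :=
      (red_eq_zero_iff ((norm_sub_le_max' _ _).trans (max_le (by rw [hσ, hv]) hv.le))).1 h1
    have : σ v / v - 1 = (σ v - v) / v := by field_simp
    rw [this, norm_div, hv, div_one]
    exact h2
  have hpow : ∀ j : ℕ, ‖σ (unif K ^ j) / unif K ^ j - 1‖ < 1 := by
    intro j
    induction j with
    | zero => simp
    | succ j ih =>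
      have : σ (unif K ^ (j + 1)) / unif K ^ (j + 1) =
          (σ (unif K ^ j) / unif K ^ j) * (σ (unif K) / unif K) := by
        rw [pow_succ, map_mul]
        field_simp
      rw [this]
      exact norm_one_unit_mul ih hπ
  have hzpow : ∀ j : ℤ, ‖σ (unif K ^ j) / unif K ^ j - 1‖ < 1 := by
    intro j
    rcases j with j | j
    · simpa using hpow j
    · have h1 := hpow (j + 1)
      have h2 : ‖σ (unif K ^ (j + 1)) / unif K ^ (j + 1)‖ = 1 := by
        rw [norm_div, hσ]; exact div_self (by rw [norm_pow]; exact (pow_pos (unifNorm_pos K) _).ne')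
      have h3 : σ (unif K ^ Int.negSucc j) / unif K ^ Int.negSucc j =
          (σ (unif K ^ (j + 1)) / unif K ^ (j + 1))⁻¹ := by
        rw [zpow_negSucc, map_inv₀, inv_div_inv, inv_div]
      rw [h3, norm_inv_sub_one h2]
      exact h1
  -- decompose `x`
  set j := ord K x with hj
  set v : K := x / unif K ^ j with hv
  have hπj0 : unif K ^ j ≠ 0 := zpow_ne_zero _ hπ0
  have hv1 : ‖v‖ = 1 := by
    rw [hv, norm_div, norm_zpow, norm_eq_zpow_ord hx]
    exact div_self (zpow_ne_zero _ (unifNorm_pos K).ne')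
  have hxv : x = v * unif K ^ j := by rw [hv]; field_simp
  have hfin : ‖σ x / x - 1‖ < 1 := by
    have : σ x / x = (σ v / v) * (σ (unif K ^ j) / unif K ^ j) := by
      have hv0 : v ≠ 0 := by
        rintro h0; rw [h0, norm_zero] at hv1; exact zero_ne_one hv1
      rw [hxv, map_mul]
      field_simp
    rw [this]
    exact norm_one_unit_mul (hunit v hv1) (hzpow j)
  have : σ x - x = (σ x / x - 1) * x := by field_simp
  rw [this, norm_mul]
  calc ‖σ x / x - 1‖ * ‖x‖ < 1 * ‖x‖ :=
        mul_lt_mul_of_pos_right hfin (norm_pos_iff.mpr hx)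
    _ = ‖x‖ := one_mul _

/-- the cocycle formula for `θ` -/
theorem theta_mul (σ τ : K ≃+* K) (hσ : ∀ x, ‖σ x‖ = ‖x‖) (hτ : ∀ x, ‖τ x‖ = ‖x‖)
    (hστ : ∀ x, ‖(σ * τ) x‖ = ‖x‖) :
    theta (σ * τ) hστ = theta σ hσ * resMap σ hσ (theta τ hτ) := by
  have hπ0 : unif K ≠ 0 := (unif_isUniformizer K).ne_zero
  have h1 : ‖τ (unif K) / unif K‖ ≤ 1 := by
    rw [norm_div, hτ]; exact (div_self (unifNorm_pos K).ne').le
  have h2 : ‖σ (unif K) / unif K‖ ≤ 1 := by
    rw [norm_div, hσ]; exact (div_self (unifNorm_pos K).ne').le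
  rw [theta_eq_red, theta_eq_red, theta_eq_red, ← red_map σ hσ h1, ← red_mul h2 (by rw [hσ]; exact h1)]
  congr 1
  rw [RingAut.mul_apply, map_div₀]
  have : σ (unif K) ≠ 0 := by rw [← norm_pos_iff, hσ]; exact unifNorm_pos K
  field_simp

end Wild


section Galois

variable (K L : Type*) [NontriviallyNormedField K] [IsUltrametricDist K] [ProperSpace K]
  [NontriviallyNormedField L] [IsUltrametricDist L] [ProperSpace L] [NormedAlgebra K L]
  [FiniteDimensional K L] [IsGalois K L] {p : ℕ}

/-- the residue action of a Galois automorphism, in `resMap` form -/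
theorem resMap_toRingEquiv (σ : L ≃ₐ[K] L) (x : 𝓀[L]) :
    resMap σ.toRingEquiv (norm_algEquiv K L σ) x = resGal K L σ x := by
  obtain ⟨y, rfl⟩ := IsLocalRing.residue_surjective x
  rw [resMap_residue, resGal_apply]
  rfl

/-- **Frobenius elements exist** -/
theorem exists_frobenius :
    ∃ φ : L ≃ₐ[K] L, ∀ x : 𝓀[L],
      resMap φ.toRingEquiv (norm_algEquiv K L φ) x = x ^ Nat.card 𝓀[K] := by
  obtain ⟨φ, hφ⟩ := resGal_surjective K L (resFrob K L)
  refine ⟨φ, fun x => ?_⟩
  rw [resMap_toRingEquiv, hφ, resFrob_apply]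

/-- the order of the inertia group is the ramification index -/
theorem card_ker_resGal : Nat.card (resGal K L).ker = ramIdx K L := by
  haveI := finite_residue K
  haveI := finite_residue L
  have h1 : Nat.card (L ≃ₐ[K] L) = ramIdx K L * resDeg K L := by
    rw [IsGalois.card_aut_eq_finrank, finrank_eq_ramIdx_mul_resDeg]
  have h2 : Nat.card (𝓀[L] ≃ₐ[𝓀[K]] 𝓀[L]) = resDeg K L := by
    rw [IsGalois.card_aut_eq_finrank, resDeg]
  have h3 : Nat.card (L ≃ₐ[K] L) = Nat.card (resGal K L).ker * Nat.card (𝓀[L] ≃ₐ[𝓀[K]] 𝓀[L]) := by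
    rw [Subgroup.card_eq_card_quotient_mul_card_subgroup (resGal K L).ker, mul_comm]
    congr 1
    exact Nat.card_congr
      (QuotientGroup.quotientKerEquivOfSurjective (resGal K L) (resGal_surjective K L)).toEquiv
  rw [h1, h2] at h3
  have hf : 0 < resDeg K L := resDeg_pos K L
  exact (Nat.eq_of_mul_eq_mul_right hf h3).symm

variable {K L}

/-- **tame generator**: if `p ∤ [L : K]` there is `τ` in the inertia group with `θ(τ)` of order
exactly `e(L/K)`. -/
theorem exists_tame_generator (hp : p.Prime) (hpL : ‖(p : L)‖ < 1)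
    (hdeg : ¬ p ∣ Module.finrank K L) :
    ∃ τ : L ≃ₐ[K] L, (∀ x : 𝓀[L], resMap τ.toRingEquiv (norm_algEquiv K L τ) x = x) ∧
      orderOf (Units.mk0 (theta τ.toRingEquiv (norm_algEquiv K L τ))
        (theta_ne_zero _ _)) = ramIdx K L := by
  classical
  set I := (resGal K L).ker with hI
  have hres : ∀ σ : I, ∀ x : 𝓀[L],
      resMap (σ : L ≃ₐ[K] L).toRingEquiv (norm_algEquiv K L σ) x = x := by
    intro σ x
    rw [resMap_toRingEquiv, (MonoidHom.mem_ker).1 σ.2]
    rfl
  -- the homomorphism `θ`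
  let Θ : I →* (𝓀[L])ˣ :=
    { toFun := fun σ => Units.mk0 (theta (σ : L ≃ₐ[K] L).toRingEquiv (norm_algEquiv K L σ))
        (theta_ne_zero _ _)
      map_one' := by
        apply Units.ext
        show theta (1 : L ≃ₐ[K] L).toRingEquiv _ = 1
        rw [theta_eq_red]
        have : (1 : L ≃ₐ[K] L).toRingEquiv (unif L) = unif L := rfl
        rw [this, div_self (unif_isUniformizer L).ne_zero, red_one]
      map_mul' := fun σ τ => by
        apply Units.ext
        show theta ((σ : L ≃ₐ[K] L) * (τ : L ≃ₐ[K] L)).toRingEquiv _ =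
          theta (σ : L ≃ₐ[K] L).toRingEquiv _ * theta (τ : L ≃ₐ[K] L).toRingEquiv _
        have h1 := theta_mul (σ : L ≃ₐ[K] L).toRingEquiv (τ : L ≃ₐ[K] L).toRingEquiv
          (norm_algEquiv K L σ) (norm_algEquiv K L τ)
          (norm_algEquiv K L ((σ : L ≃ₐ[K] L) * (τ : L ≃ₐ[K] L)))
        rw [hres σ] at h1
        exact h1 }
  have hΘinj : Function.Injective Θ := by
    rw [injective_iff_map_eq_one]
    intro σ hσ
    have hθ : theta (σ : L ≃ₐ[K] L).toRingEquiv (norm_algEquiv K L σ) = 1 :=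
      congrArg Units.val hσ
    have hwild := wild_of_theta (σ : L ≃ₐ[K] L).toRingEquiv (norm_algEquiv K L σ) (hres σ) hθ
    have hpow : ∀ x, ((σ : L ≃ₐ[K] L).toRingEquiv ^ Module.finrank K L) x = x := by
      intro x
      have h1 : (σ : L ≃ₐ[K] L) ^ Module.finrank K L = 1 := by
        rw [← IsGalois.card_aut_eq_finrank]
        exact pow_card_eq_one'
      have h2 : ∀ (n : ℕ) (y : L), ((σ : L ≃ₐ[K] L).toRingEquiv ^ n) y =
          ((σ : L ≃ₐ[K] L) ^ n) y := by
        intro n
        induction n with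
        | zero => intro y; rfl
        | succ n ih =>
          intro y
          rw [pow_succ', pow_succ', RingAut.mul_apply, AlgEquiv.mul_apply, ih]
          rfl
      rw [h2, h1]
      rfl
    have hid := eq_id_of_wild hp hpL (σ : L ≃ₐ[K] L).toRingEquiv hwild hdeg hpow
    apply Subtype.ext
    ext x
    exact hid x
  haveI : IsCyclic I :=
    isCyclic_of_injective_ringHom ((Units.coeHom 𝓀[L]).comp Θ)
      (Units.val_injective.comp hΘinj)
  obtain ⟨τ, hτ⟩ := IsCyclic.exists_generator (α := I)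
  refine ⟨τ, hres τ, ?_⟩
  have h1 : orderOf (Θ τ) = orderOf τ := orderOf_injective Θ hΘinj τ
  have h2 : orderOf τ = Nat.card I := orderOf_eq_card_of_forall_mem_zpowers hτ
  show orderOf (Θ τ) = _
  rw [h1, h2, hI, card_ker_resGal]

end Galois

end Fermat.Agent.S56lib.Kum
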