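/-
S56lib / Kum / TameP (helper3).
The tame structure for a finite Galois extension `K / ℚ_p` inside `PadicAlgCl p` of degree
prime to `p`, in terms of elements of `Γ = Gal(ℚ̄_p/ℚ_p)`:
* `exists_tame_lift` : `τ ∈ Γ` trivial on the residue field of `K`, with `θ_K(τ)` of order
  exactly `e = ord_K p`;
* `exists_frobenius_lift` : `φ ∈ Γ` inducing `x ↦ x ^ p` on the residue field of `K`.
-/
import Fermat.Agent.S56lib.Kum.Tame
import Fermat.Agent.S56lib.Kum.Dual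
import Fermat.Agent.S56lib.Kum.Struct
import Fermat.Agent.S55lib.LocalH.K9Tame

set_option autoImplicit false
set_option linter.unusedSectionVars false
set_option linter.style.haveILetI false

open scoped NormedField Valued NNReal

namespace Fermat.Agent.S56lib.Kum

open Fermat.Agent.S55lib Fermat.Agent.S55lib.LocalUnr IsUltrametricDist

section Congr

variable {K : Type*} [NontriviallyNormedField K] [IsUltrametricDist K] [ProperSpace K]

theorem theta_congr {σ σ' : K ≃+* K} (h : σ = σ') (hσ : ∀ x, ‖σ x‖ = ‖x‖)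
    (hσ' : ∀ x, ‖σ' x‖ = ‖x‖) : theta σ hσ = theta σ' hσ' := by
  subst h; rfl

theorem resMap_congr {σ σ' : K ≃+* K} (h : σ = σ') (hσ : ∀ x, ‖σ x‖ = ‖x‖)
    (hσ' : ∀ x, ‖σ' x‖ = ‖x‖) : resMap σ hσ = resMap σ' hσ' := by
  subst h; rfl

end Congr

variable {p : ℕ} [hp : Fact p.Prime]

section Lift

variable (K : IntermediateField ℚ_[p] (PadicAlgCl p)) [FiniteDimensional ℚ_[p] K]
  [Normal ℚ_[p] K]

theorem norm_natCast_lt_one_padic : ‖((p : ℕ) : K)‖ < 1 := by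
  show ‖(((p : ℕ) : K) : PadicAlgCl p)‖ < 1
  push_cast
  exact Places.norm_natCast_self_lt_one (q := p)

/-- `ord_K p = e(K/ℚ_p)` -/
theorem ord_natCast_eq_ramIdx : ord K ((p : ℕ) : K) = ramIdx ℚ_[p] K := by
  have h1 := ord_algebraMap (↥K) ((p : ℕ) : ℚ_[p])
  rw [map_natCast] at h1
  rw [h1]
  have h2 : IsUniformizer ℚ_[p] ((p : ℕ) : ℚ_[p]) := by
    rw [isUniformizer_iff_norm_eq, unifNorm_padic_eq]
  rw [ord_uniformizer h2, mul_one]

/-- every automorphism of `K` is the restriction of an element of `Γ` -/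
theorem exists_resAut_eq (σ : K ≃ₐ[ℚ_[p]] K) :
    ∃ δ : PadicAlgCl p ≃ₐ[ℚ_[p]] PadicAlgCl p, resAut K δ = σ.toRingEquiv := by
  haveI : Normal ℚ_[p] (PadicAlgCl p) := IsAlgClosure.normal ℚ_[p] (PadicAlgCl p)
  obtain ⟨δ, hδ⟩ := AlgEquiv.restrictNormalHom_surjective (F := ℚ_[p]) (K₁ := K) (PadicAlgCl p) σ
  exact ⟨δ, by rw [← hδ]; rfl⟩

/-- **tame generator in `Γ`** -/
theorem exists_tame_lift (hdeg : ¬ p ∣ Module.finrank ℚ_[p] K) :
    ∃ τ : PadicAlgCl p ≃ₐ[ℚ_[p]] PadicAlgCl p,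
      (∀ x, resMap (resAut K τ) (norm_resAut K τ) x = x) ∧
      ((orderOf (Units.mk0 (theta (resAut K τ) (norm_resAut K τ)) (theta_ne_zero _ _)) : ℕ) : ℤ)
        = ord K ((p : ℕ) : K) := by
  haveI : IsGalois ℚ_[p] K := ⟨⟩
  obtain ⟨τ₀, hres, hord⟩ := exists_tame_generator (K := ℚ_[p]) (L := K) hp.out
    (norm_natCast_lt_one_padic K) hdeg
  obtain ⟨τ, hτ⟩ := exists_resAut_eq K τ₀
  refine ⟨τ, fun x => ?_, ?_⟩
  · rw [resMap_congr hτ (norm_resAut K τ) (norm_algEquiv ℚ_[p] K τ₀)]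
    exact hres x
  · rw [ord_natCast_eq_ramIdx, ← hord]
    congr 2
    apply Units.ext
    exact theta_congr hτ _ _

/-- **Frobenius in `Γ`** -/
theorem exists_frobenius_lift :
    ∃ φ : PadicAlgCl p ≃ₐ[ℚ_[p]] PadicAlgCl p,
      ∀ x, resMap (resAut K φ) (norm_resAut K φ) x = x ^ p := by
  haveI : IsGalois ℚ_[p] K := ⟨⟩
  obtain ⟨φ₀, hφ₀⟩ := exists_frobenius ℚ_[p] K
  obtain ⟨φ, hφ⟩ := exists_resAut_eq K φ₀
  refine ⟨φ, fun x => ?_⟩
  rw [resMap_congr hφ (norm_resAut K φ) (norm_algEquiv ℚ_[p] K φ₀), hφ₀,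
    LocalH.card_residue_padic]

end Lift

end Fermat.Agent.S56lib.Kum
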