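/-
S56lib / Kum / Semilinear (helper3).
Fixed points of a `q`-Frobenius-semilinear additive operator on a finite-dimensional vector space
over a finite field: at most `q ^ dim` of them (Lang's bound, elementary form).
-/
import Mathlib

set_option autoImplicit false
set_option linter.unusedSectionVars false
set_option linter.style.haveILetI false

namespace Fermat.Agent.S56lib.Kum

open Polynomial

/-- the solutions of `x ^ q = x` in a field: at most `q` -/
theorem card_pow_eq_self_le {F : Type*} [Field F] [Finite F] (q : ℕ) (hq : 2 ≤ q) :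
    Nat.card {x : F // x ^ q = x} ≤ q := by
  classical
  haveI : Fintype F := Fintype.ofFinite F
  have hne : (X ^ q - X : F[X]) ≠ 0 := by
    intro h
    have h1 := congrArg (fun f : F[X] => f.coeff q) h
    simp only [coeff_sub, coeff_X_pow, if_true, coeff_X, coeff_zero] at h1
    rw [if_neg (by omega)] at h1
    simp at h1
  have hdeg : (X ^ q - X : F[X]).natDegree ≤ q := by
    refine (natDegree_sub_le _ _).trans ?_
    rw [natDegree_X_pow, natDegree_X]
    exact max_le le_rfl (by omega)
  rw [Nat.card_eq_fintype_card, Fintype.card_subtype]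
  calc (Finset.univ.filter fun x : F => x ^ q = x).card
      ≤ (X ^ q - X : F[X]).roots.toFinset.card := by
        apply Finset.card_le_card
        intro x hx
        rw [Finset.mem_filter] at hx
        rw [Multiset.mem_toFinset, mem_roots hne]
        simp [hx.2]
    _ ≤ Multiset.card (X ^ q - X : F[X]).roots := Multiset.toFinset_card_le _
    _ ≤ (X ^ q - X : F[X]).natDegree := card_roots' _
    _ ≤ q := hdeg

/-- **Semilinear fixed points**: if `T` is additive with `T (x • v) = x ^ q • T v`, then an
additive subgroup of fixed points of `T` has at most `q ^ dim V` elements. -/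
theorem card_fixed_le {F V : Type*} [Field F] [Finite F] [AddCommGroup V] [Module F V]
    [Module.Finite F V] (q : ℕ) (hq : 2 ≤ q) (T : V →+ V)
    (hT : ∀ (x : F) (v : V), T (x • v) = x ^ q • T v) (S : AddSubgroup V)
    (hS : ∀ v ∈ S, T v = v) : Nat.card S ≤ q ^ Module.finrank F V := by
  classical
  obtain ⟨b, hbS, hspan, hli⟩ := exists_linearIndependent F (S : Set V)
  haveI : Fintype b := hli.setFinite.fintype
  have hRcard := card_pow_eq_self_le (F := F) q hq
  have hmem : ∀ s : S, (s : V) ∈ Submodule.span F (Set.range ((↑) : b → V)) := by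
    intro s
    rw [Subtype.range_coe, hspan]
    exact Submodule.subset_span s.2
  let c : S → (b → F) := fun s v => hli.repr ⟨s, hmem s⟩ v
  have hc : ∀ s : S, ∑ v : b, c s v • (v : V) = s := by
    intro s
    have := hli.linearCombination_repr ⟨s, hmem s⟩
    rw [Finsupp.linearCombination_apply, Finsupp.sum_fintype _ _ (by simp)] at this
    exact this
  have hfix : ∀ (s : S) (v : b), c s v ^ q = c s v := by
    intro s
    have h1 : T s = s := hS s s.2
    have h2 : ∑ v : b, (c s v ^ q - c s v) • (v : V) = 0 := by
      simp only [sub_smul, Finset.sum_sub_distrib]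
      rw [hc s, sub_eq_zero]
      conv_rhs => rw [← h1, ← hc s, map_sum]
      apply Finset.sum_congr rfl
      intro v _
      rw [hT, hS _ (hbS v.2)]
    intro v
    exact sub_eq_zero.1 (Fintype.linearIndependent_iff.1 hli _ h2 v)
  let Φ : S → (b → {x : F // x ^ q = x}) := fun s v => ⟨c s v, hfix s v⟩
  have hΦ : Function.Injective Φ := by
    intro s s' h
    apply Subtype.ext
    rw [← hc s, ← hc s']
    apply Finset.sum_congr rfl
    intro v _
    have := congrArg Subtype.val (congrFun h v)
    simp only [Φ] at this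
    rw [this]
  haveI : Finite V := Module.finite_of_finite F
  calc Nat.card S ≤ Nat.card (b → {x : F // x ^ q = x}) := Nat.card_le_card_of_injective Φ hΦ
    _ = Nat.card {x : F // x ^ q = x} ^ Fintype.card b := by
        rw [Nat.card_fun, Nat.card_eq_fintype_card (α := b)]
    _ ≤ q ^ Fintype.card b := Nat.pow_le_pow_left hRcard _
    _ ≤ q ^ Module.finrank F V :=
        Nat.pow_le_pow_right (by omega) hli.fintype_card_le_finrank

/-- **Counting semilinear maps.**  `E ⊆ k`, `E → κ` finite fields of characteristic `p`,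
`#E = p ^ s`.  An additive group of `E`-linear maps `Λ : k → κ` with
`Λ (m' a) = C * Λ a ^ (p ^ s)` has at most `#k` elements. -/
theorem card_le_of_semilinear {E k κ : Type*} [Field E] [Field k] [Field κ] [Finite E] [Finite k]
    [Finite κ] [Algebra E k] [Algebra E κ] (p : ℕ) [Fact p.Prime] [CharP κ p] (s : ℕ)
    (hq : Nat.card E = p ^ s) (m' : k) (hm' : m' ≠ 0) (C : κ)
    (𝓛 : AddSubgroup (k →ₗ[E] κ))
    (h𝓛 : ∀ Λ ∈ 𝓛, ∀ a, Λ (m' * a) = C * (Λ a) ^ (p ^ s)) :
    Nat.card 𝓛 ≤ Nat.card k := by
  classical
  haveI : Fintype E := Fintype.ofFinite E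
  haveI : Fintype k := Fintype.ofFinite k
  have hp : p.Prime := Fact.out
  have hs : 1 ≤ s := by
    by_contra h
    have h0 : s = 0 := by omega
    rw [h0, pow_zero, Nat.card_eq_fintype_card] at hq
    have := Fintype.one_lt_card (α := E)
    omega
  have hq2 : 2 ≤ p ^ s := by
    calc 2 ≤ p := hp.two_le
      _ = p ^ 1 := (pow_one p).symm
      _ ≤ p ^ s := Nat.pow_le_pow_right hp.pos hs
  have hEpow : ∀ x : E, x ^ (p ^ s) = x := by
    intro x
    rw [← hq, Nat.card_eq_fintype_card]
    exact FiniteField.pow_card x
  -- the semilinear operator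
  let T : (k →ₗ[E] κ) →+ (k →ₗ[E] κ) :=
    { toFun := fun Λ =>
        { toFun := fun a => C * (Λ (m'⁻¹ * a)) ^ (p ^ s)
          map_add' := fun a b => by
            rw [mul_add, map_add, add_pow_char_pow, mul_add]
          map_smul' := fun x a => by
            rw [RingHom.id_apply, mul_smul_comm, map_smul, Algebra.smul_def, mul_pow, ← map_pow,
              hEpow, Algebra.smul_def]
            ring }
      map_zero' := by
        ext a
        simp [zero_pow (by omega : p ^ s ≠ 0)]
      map_add' := fun Λ Λ' => by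
        ext a
        simp only [LinearMap.add_apply, LinearMap.coe_mk, AddHom.coe_mk]
        rw [add_pow_char_pow, mul_add] }
  have hT : ∀ (x : κ) (Λ : k →ₗ[E] κ), T (x • Λ) = x ^ (p ^ s) • T Λ := by
    intro x Λ
    ext a
    simp only [T, AddMonoidHom.coe_mk, ZeroHom.coe_mk, LinearMap.coe_mk, AddHom.coe_mk,
      LinearMap.smul_apply, smul_eq_mul]
    rw [mul_pow]
    ring
  have hS : ∀ Λ ∈ 𝓛, T Λ = Λ := by
    intro Λ hΛ
    ext a
    simp only [T, AddMonoidHom.coe_mk, ZeroHom.coe_mk, LinearMap.coe_mk, AddHom.coe_mk]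
    rw [← h𝓛 Λ hΛ, ← mul_assoc, mul_inv_cancel₀ hm', one_mul]
  have h1 := card_fixed_le (F := κ) (p ^ s) hq2 T hT 𝓛 hS
  rw [Module.finrank_linearMap_self] at h1
  have h2 : Nat.card k = (p ^ s) ^ Module.finrank E k := by
    rw [Nat.card_eq_fintype_card, Module.card_eq_pow_finrank (K := E) (V := k), ← hq,
      Nat.card_eq_fintype_card]
  rw [h2]
  exact h1

end Fermat.Agent.S56lib.Kum
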