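/-
S56lib / Kum / CountAbs (helper3).
Abstract counting of "Kummer families": a `k`-vector space `𝓕` with a map `u : 𝓕 → Kˣ`
(`K ∋ ζ_p` a local field) which is additive modulo `p`-th powers, separates points, and is
equivariant for automorphisms of `K`:  `u (m • f) ≡ (σ (u f)) ^ N`.
* `levelRaise` : a non-matching good level can be skipped;
* `top_mem_pthPowers` : at the top level, `m ≠ 1` forces `u f ∈ Kˣᵖ`;
* `card_le_of_matching` : at a matching level, `#𝓕 ≤ #k` (semilinear count);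
* `card_le_of_top` : if everything is at the top level, `#𝓕 ≤ #k`.
-/
import Fermat.Agent.S56lib.Kum.Top
import Fermat.Agent.S56lib.Kum.Semilinear

set_option autoImplicit false
set_option linter.unusedSectionVars false
set_option linter.style.haveILetI false

open scoped NormedField Valued NNReal

namespace Fermat.Agent.S56lib.Kum

open Fermat.Agent.S55lib.LocalUnr IsUltrametricDist Polynomial

variable {K : Type*} [NontriviallyNormedField K] [IsUltrametricDist K] [ProperSpace K] {p : ℕ}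
variable {k 𝓕 : Type*} [Field k] [AddCommGroup 𝓕] [Module k 𝓕]

/-- additivity modulo `p`-th powers -/
def IsAddModP (p : ℕ) (u : 𝓕 → Kˣ) : Prop :=
  ∀ f g, u (f + g) * (u f * u g)⁻¹ ∈ pthPowers K p

/-- separation: `u (a • f) ∈ Kˣᵖ` for all `a` forces `f = 0` -/
def IsSepModP (p : ℕ) (k : Type*) [Field k] [Module k 𝓕] (u : 𝓕 → Kˣ) : Prop :=
  ∀ f, (∀ a : k, u (a • f) ∈ pthPowers K p) → f = 0

/-- equivariance: `u (m • f) ≡ (σ (u f)) ^ N` modulo `p`-th powers -/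
def IsEquivModP (p : ℕ) (u : 𝓕 → Kˣ) (σ : K ≃+* K) (m : k) (N : ℕ) : Prop :=
  ∀ f, u (m • f) * ((unitsMap σ (u f)) ^ N)⁻¹ ∈ pthPowers K p

section Basic

variable {u : 𝓕 → Kˣ}

theorem IsAddModP.eq_mul (ha : IsAddModP p u) (f g : 𝓕) :
    ∃ v ∈ pthPowers K p, u (f + g) = u f * u g * v :=
  ⟨_, ha f g, by rw [mul_comm (u f * u g), inv_mul_cancel_right]⟩

theorem IsAddModP.mem_lev (ha : IsAddModP p u) {i : ℕ} {f g : 𝓕} (hf : u f ∈ lev K p i)
    (hg : u g ∈ lev K p i) : u (f + g) ∈ lev K p i := by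
  obtain ⟨v, hv, h⟩ := ha.eq_mul f g
  rw [h]
  exact mul_mem (mul_mem hf hg) (pthPowers_le_lev i hv)

theorem IsAddModP.zero_mem (ha : IsAddModP p u) : u 0 ∈ pthPowers K p := by
  have := ha 0 0
  rw [add_zero, mul_inv, ← mul_assoc, mul_inv_cancel, one_mul] at this
  exact inv_mem_iff.1 this

theorem IsEquivModP.eq_mul {σ : K ≃+* K} {m : k} {N : ℕ} (hd : IsEquivModP p u σ m N) (f : 𝓕) :
    ∃ v ∈ pthPowers K p, u (m • f) = (unitsMap σ (u f)) ^ N * v :=
  ⟨_, hd f, by rw [mul_comm ((unitsMap σ (u f)) ^ N), inv_mul_cancel_right]⟩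

end Basic

section Prime

variable (hp : p.Prime) (hpK : ‖(p : K)‖ < 1) (hp0 : (p : K) ≠ 0) {u : 𝓕 → Kˣ}

include hp hpK hp0

theorem IsAddModP.levLc_add (ha : IsAddModP p u) {i : ℕ} (hg : GoodLevel K p i) {f g : 𝓕}
    (hf : u f ∈ lev K p i) (hg' : u g ∈ lev K p i) :
    levLc K p i (u (f + g)) = levLc K p i (u f) + levLc K p i (u g) := by
  obtain ⟨v, hv, h⟩ := ha.eq_mul f g
  rw [h, levLc_mul_pthPower hp hpK hp0 hg (mul_mem hf hg') hv, levLc_mul hp hpK hp0 hg hf hg']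

theorem IsAddModP.levLc_zero (ha : IsAddModP p u) {i : ℕ} (hg : GoodLevel K p i) :
    levLc K p i (u 0) = 0 :=
  levLc_pthPower hp hpK hp0 hg ha.zero_mem

theorem IsEquivModP.mem_lev {σ : K ≃+* K} (hσ : ∀ x, ‖σ x‖ = ‖x‖) {m : k} {N : ℕ}
    (hd : IsEquivModP p u σ m N) {i : ℕ} {f : 𝓕} (hf : u f ∈ lev K p i) :
    u (m • f) ∈ lev K p i := by
  obtain ⟨v, hv, h⟩ := hd.eq_mul f
  rw [h]
  exact mul_mem (pow_mem (unitsMap_mem_lev σ hσ hf) N) (pthPowers_le_lev i hv)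

theorem IsEquivModP.levLc_smul {σ : K ≃+* K} (hσ : ∀ x, ‖σ x‖ = ‖x‖) {m : k} {N : ℕ}
    (hd : IsEquivModP p u σ m N) {i : ℕ} (hg : GoodLevel K p i) {f : 𝓕}
    (hf : u f ∈ lev K p i) :
    levLc K p i (u (m • f)) = N • (theta σ hσ ^ i * resMap σ hσ (levLc K p i (u f))) := by
  obtain ⟨v, hv, h⟩ := hd.eq_mul f
  rw [h, levLc_mul_pthPower hp hpK hp0 hg (pow_mem (unitsMap_mem_lev σ hσ hf) N) hv,
    levLc_pow hp hpK hp0 hg (unitsMap_mem_lev σ hσ hf), levLc_unitsMap hp hpK hp0 hg σ hσ hf]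

/-- the additive map `a ↦ levLc (u (a • f))` -/
noncomputable def lcHom (ha : IsAddModP p u) {i : ℕ} (hg : GoodLevel K p i)
    (hall : ∀ f, u f ∈ lev K p i) (f : 𝓕) : k →+ 𝓀[K] where
  toFun a := levLc K p i (u (a • f))
  map_zero' := by rw [zero_smul]; exact ha.levLc_zero hp hpK hp0 hg
  map_add' a b := by rw [add_smul]; exact ha.levLc_add hp hpK hp0 hg (hall _) (hall _)

theorem lcHom_apply (ha : IsAddModP p u) {i : ℕ} (hg : GoodLevel K p i)
    (hall : ∀ f, u f ∈ lev K p i) (f : 𝓕) (a : k) :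
    lcHom hp hpK hp0 ha hg hall f a = levLc K p i (u (a • f)) := rfl

theorem lcHom_mul (ha : IsAddModP p u) {σ : K ≃+* K} (hσ : ∀ x, ‖σ x‖ = ‖x‖) {m : k} {N : ℕ}
    (hd : IsEquivModP p u σ m N) {i : ℕ} (hg : GoodLevel K p i)
    (hall : ∀ f, u f ∈ lev K p i) (f : 𝓕) (a : k) :
    lcHom hp hpK hp0 ha hg hall f (m * a) =
      (N : 𝓀[K]) * (theta σ hσ ^ i * resMap σ hσ (lcHom hp hpK hp0 ha hg hall f a)) := by
  rw [lcHom_apply, lcHom_apply, mul_smul, hd.levLc_smul hp hpK hp0 hσ hg (hall _),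
    nsmul_eq_mul]

/-- `Λ (Q(m) a) = Q(ϑ) Λ(a)` for integer polynomials `Q`, `ϑ = N θ_σ ^ i`, when `σ` is trivial on
the residue field -/
theorem lcHom_aeval (ha : IsAddModP p u) {σ : K ≃+* K} (hσ : ∀ x, ‖σ x‖ = ‖x‖)
    (hres : ∀ x, resMap σ hσ x = x) {m : k} {N : ℕ}
    (hd : IsEquivModP p u σ m N) {i : ℕ} (hg : GoodLevel K p i)
    (hall : ∀ f, u f ∈ lev K p i) (f : 𝓕) (Q : ℤ[X]) (a : k) :
    lcHom hp hpK hp0 ha hg hall f (aeval m Q * a) =
      aeval ((N : 𝓀[K]) * theta σ hσ ^ i) Q * lcHom hp hpK hp0 ha hg hall f a := by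
  induction Q using Polynomial.induction_on generalizing a with
  | C c =>
    rw [aeval_C, aeval_C, algebraMap_int_eq, eq_intCast, eq_intCast,
      ← zsmul_eq_mul, map_zsmul, zsmul_eq_mul]
  | add Q₁ Q₂ h₁ h₂ =>
    rw [map_add, map_add, add_mul, add_mul, map_add, h₁, h₂]
  | monomial n c h =>
    have e1 : aeval m (C c * X ^ (n + 1)) * a = m * (aeval m (C c * X ^ n) * a) := by
      rw [pow_succ, ← mul_assoc, map_mul (aeval m), aeval_X]
      ring
    have e2 : aeval ((N : 𝓀[K]) * theta σ hσ ^ i) (C c * X ^ (n + 1)) =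
        ((N : 𝓀[K]) * theta σ hσ ^ i) * aeval ((N : 𝓀[K]) * theta σ hσ ^ i) (C c * X ^ n) := by
      rw [pow_succ, ← mul_assoc, map_mul (aeval _), aeval_X]
      ring
    rw [e1, e2, lcHom_mul hp hpK hp0 ha hσ hd hg hall, hres, h]
    ring

/-- **level raising**: a good level `i` at which some integer polynomial `P` with `P(m) = 0`
has `P(N θ_σ ^ i) ≠ 0` (non-matching) can be skipped. -/
theorem levelRaise (ha : IsAddModP p u) {σ : K ≃+* K} (hσ : ∀ x, ‖σ x‖ = ‖x‖)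
    (hres : ∀ x, resMap σ hσ x = x) {m : k} {N : ℕ}
    (hd : IsEquivModP p u σ m N) {i : ℕ} (hg : GoodLevel K p i)
    (hall : ∀ f, u f ∈ lev K p i) (P : ℤ[X]) (hPm : aeval m P = 0)
    (hPθ : aeval ((N : 𝓀[K]) * theta σ hσ ^ i) P ≠ 0) (f : 𝓕) : u f ∈ lev K p (i + 1) := by
  have h := lcHom_aeval hp hpK hp0 ha hσ hres hd hg hall f P 1
  rw [hPm, zero_mul, map_zero] at h
  have h1 : lcHom (k := k) hp hpK hp0 ha hg hall f (1 : k) = 0 := by
    rcases mul_eq_zero.1 h.symm with h2 | h2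
    · exact absurd h2 hPθ
    · exact h2
  rw [lcHom_apply, one_smul] at h1
  exact (levLc_eq_zero_iff hp hpK hp0 hg (hall f)).1 h1

/-- levels divisible by `p` below the top can be skipped -/
theorem levelRaise_of_dvd {i : ℕ} (hi : 1 ≤ i) (hdvd : p ∣ i)
    (hlev : ((p : ℤ) - 1) * i < p * ord K (p : K)) (hall : ∀ f, u f ∈ lev K p i) (f : 𝓕) :
    u f ∈ lev K p (i + 1) := by
  rw [← lev_eq_succ_of_dvd hp hpK hp0 hi hdvd hlev]
  exact hall f

end Prime

section Quot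

variable {u : 𝓕 → Kˣ}

/-- the class modulo `p`-th powers -/
noncomputable def clP (p : ℕ) (x : Kˣ) : Kˣ ⧸ pthPowers K p := QuotientGroup.mk' (pthPowers K p) x

theorem clP_eq_one_iff {x : Kˣ} : clP p x = 1 ↔ x ∈ pthPowers K p :=
  QuotientGroup.eq_one_iff x

theorem clP_mul (x y : Kˣ) : clP p (x * y) = clP p x * clP p y := map_mul _ x y

theorem clP_pow (x : Kˣ) (n : ℕ) : clP p (x ^ n) = clP p x ^ n := map_pow _ x n

theorem clP_inv (x : Kˣ) : clP p x⁻¹ = (clP p x)⁻¹ := map_inv _ x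

theorem clP_pow_p (x : Kˣ) : clP p x ^ p = 1 := by
  rw [← clP_pow, clP_eq_one_iff]
  exact pow_mem_pthPowers x

theorem clP_eq_iff {x y : Kˣ} : clP p x = clP p y ↔ x * y⁻¹ ∈ pthPowers K p := by
  rw [← clP_eq_one_iff, clP_mul, clP_inv, mul_inv_eq_one]

theorem IsAddModP.clP_add (ha : IsAddModP p u) (f g : 𝓕) :
    clP p (u (f + g)) = clP p (u f) * clP p (u g) := by
  rw [← clP_mul, clP_eq_iff]
  exact ha f g

theorem IsAddModP.clP_zero (ha : IsAddModP p u) : clP p (u 0) = 1 :=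
  clP_eq_one_iff.2 ha.zero_mem

theorem IsAddModP.clP_neg (ha : IsAddModP p u) (f : 𝓕) :
    clP p (u (-f)) = (clP p (u f))⁻¹ := by
  have := ha.clP_add f (-f)
  rw [add_neg_cancel, ha.clP_zero] at this
  exact eq_inv_of_mul_eq_one_right this.symm

theorem IsAddModP.clP_sub (ha : IsAddModP p u) (f g : 𝓕) :
    clP p (u (f - g)) = clP p (u f) * (clP p (u g))⁻¹ := by
  rw [sub_eq_add_neg, ha.clP_add, ha.clP_neg]

theorem IsEquivModP.clP_smul {σ : K ≃+* K} {m : k} {N : ℕ} (hd : IsEquivModP p u σ m N)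
    (f : 𝓕) : clP p (u (m • f)) = clP p (unitsMap σ (u f)) ^ N := by
  rw [← clP_pow, clP_eq_iff]
  exact hd f

end Quot

section TopLevel

variable (hp : p.Prime) (hpK : ‖(p : K)‖ < 1) (hp0 : (p : K) ≠ 0) {ζ : K}
  (hζ : IsPrimitiveRoot ζ p) {u : 𝓕 → Kˣ}

include hp hpK hp0 hζ

/-- **top level, non-matching**: if `m ≠ 1` and everything is at the top level then everything
is a `p`-th power. -/
theorem top_mem_pthPowers (ha : IsAddModP p u) {σ : K ≃+* K} (hσ : ∀ x, ‖σ x‖ = ‖x‖)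
    (hres : ∀ x, resMap σ hσ x = x) {n N : ℕ} (hn : σ ζ = ζ ^ n) (hnN : n * N ≡ 1 [MOD p])
    {m : k} (hm : m ≠ 1) (hd : IsEquivModP p u σ m N)
    (hall : ∀ f, u f ∈ lev K p (topLevel K p ζ)) (f : 𝓕) : u f ∈ pthPowers K p := by
  -- step 1: `u (m • g) ≡ u g`
  have h1 : ∀ g, clP p (u (m • g)) = clP p (u g) := by
    intro g
    rw [hd.clP_smul]
    have h2 := unitsMap_mul_inv_pow_mem hp hpK hp0 hζ σ hσ hres hn (hall g)
    rw [← clP_eq_iff, clP_pow] at h2
    rw [h2, ← pow_mul]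
    -- `n * N = 1 + p * t`
    have h3 : (n * N) % p = 1 % p := hnN
    have h4 : n * N = p * (n * N / p) + 1 := by
      have := Nat.div_add_mod (n * N) p
      rw [h3, Nat.mod_eq_of_lt hp.one_lt] at this
      omega
    rw [h4, pow_add, pow_mul, clP_pow_p, one_pow, one_mul, pow_one]
  -- step 2: `u ((m - 1) • g) ≡ 1`
  have h2 : ∀ g, clP p (u ((m - 1) • g)) = 1 := by
    intro g
    rw [sub_smul, one_smul, ha.clP_sub, h1, mul_inv_cancel]
  have hm1 : m - 1 ≠ 0 := sub_ne_zero.mpr hm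
  have h3 := h2 ((m - 1)⁻¹ • f)
  rw [smul_smul, mul_inv_cancel₀ hm1, one_smul] at h3
  exact clP_eq_one_iff.1 h3

/-- **count at the top level**: if everything is at the top level, `#𝓕 ≤ #k`. -/
theorem card_le_of_top [Finite k] [CharP k p] (ha : IsAddModP p u) (hsep : IsSepModP p k u)
    (hall : ∀ f, u f ∈ lev K p (topLevel K p ζ)) : Nat.card 𝓕 ≤ Nat.card k := by
  classical
  haveI : Fact p.Prime := ⟨hp⟩
  letI : Algebra (ZMod p) k := ZMod.algebra k p
  haveI : Fintype k := Fintype.ofFinite k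
  set Z : Subgroup (Kˣ ⧸ pthPowers K p) :=
    (lev K p (topLevel K p ζ)).map (QuotientGroup.mk' (pthPowers K p)) with hZ
  have hZcard : Nat.card Z ≤ p := card_lev_top_le hp hpK hp0 hζ
  haveI : Finite Z := finite_lev_top hp hpK hp0 hζ
  let b := Module.finBasis (ZMod p) k
  let Φ : 𝓕 → (Fin (Module.finrank (ZMod p) k) → Z) := fun f j =>
    ⟨clP p (u (b j • f)), ⟨_, hall _, rfl⟩⟩
  have hΦ : Function.Injective Φ := by
    intro f g hfg
    rw [← sub_eq_zero]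
    apply hsep
    -- the additive subgroup of `a` with `u (a • (f - g)) ∈ Kˣᵖ`
    let A : AddSubgroup k :=
      { carrier := {a | clP p (u (a • (f - g))) = 1}
        zero_mem' := by
          show clP p (u ((0 : k) • (f - g))) = 1
          rw [zero_smul]; exact ha.clP_zero
        add_mem' := fun {a c} h1 h2 => by
          show clP p (u ((a + c) • (f - g))) = 1
          rw [add_smul, ha.clP_add]
          rw [show clP p (u (a • (f - g))) = 1 from h1, show clP p (u (c • (f - g))) = 1 from h2]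
          exact one_mul (1 : Kˣ ⧸ pthPowers K p)
        neg_mem' := fun {a} h1 => by
          show clP p (u ((-a) • (f - g))) = 1
          rw [neg_smul, ha.clP_neg, show clP p (u (a • (f - g))) = 1 from h1, inv_one] }
    have hbA : ∀ j, b j ∈ A := by
      intro j
      show clP p (u (b j • (f - g))) = 1
      rw [smul_sub, ha.clP_sub]
      have := congrArg (fun w : Z => (w : Kˣ ⧸ pthPowers K p)) (congrFun hfg j)
      rw [show clP p (u (b j • f)) = clP p (u (b j • g)) from this, mul_inv_cancel]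
    have hAtop : AddSubgroup.toZModSubmodule p A = ⊤ := by
      rw [eq_top_iff, ← b.span_eq, Submodule.span_le]
      rintro _ ⟨j, rfl⟩
      exact hbA j
    intro a
    have : a ∈ AddSubgroup.toZModSubmodule p A := by rw [hAtop]; trivial
    exact clP_eq_one_iff.1 this
  calc Nat.card 𝓕 ≤ Nat.card (Fin (Module.finrank (ZMod p) k) → Z) :=
        Nat.card_le_card_of_injective Φ hΦ
    _ = Nat.card Z ^ Module.finrank (ZMod p) k := by
        rw [Nat.card_fun, Nat.card_eq_fintype_card (α := Fin _), Fintype.card_fin]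
    _ ≤ p ^ Module.finrank (ZMod p) k := Nat.pow_le_pow_left hZcard _
    _ = Nat.card k := by
        rw [Nat.card_eq_fintype_card, Module.card_eq_pow_finrank (K := ZMod p) (V := k), ZMod.card]

end TopLevel


section Matching

variable (hp : p.Prime) (hpK : ‖(p : K)‖ < 1) (hp0 : (p : K) ≠ 0) {u : 𝓕 → Kˣ}

include hp hpK hp0

/-- **count at a matching level** (semilinear count): if everything is at the good level `i`,
the leading-coefficient maps are `E`-linear, a Frobenius-type automorphism `ψ`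
(`x ↦ x ^ #E` on residues) acts equivariantly, and nothing non-zero lies entirely above
level `i`, then `#𝓕 ≤ #k`. -/
theorem card_le_of_matching {E : Type*} [Field E] [Finite E] [Finite k] [Algebra E k]
    [Algebra E 𝓀[K]] (s : ℕ) (hq : Nat.card E = p ^ s)
    (ha : IsAddModP p u) {i : ℕ} (hg : GoodLevel K p i) (hall : ∀ f, u f ∈ lev K p i)
    (hlin : ∀ (f : 𝓕) (e : E) (a : k), levLc K p i (u ((e • a) • f)) = e • levLc K p i (u (a • f)))
    {ψ : K ≃+* K} (hψ : ∀ x, ‖ψ x‖ = ‖x‖) (hψres : ∀ x, resMap ψ hψ x = x ^ (p ^ s))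
    {mψ : k} (hmψ : mψ ≠ 0) {Nψ : ℕ} (hdψ : IsEquivModP p u ψ mψ Nψ)
    (hnext : ∀ f, (∀ a : k, u (a • f) ∈ lev K p (i + 1)) → f = 0) :
    Nat.card 𝓕 ≤ Nat.card k := by
  classical
  haveI : Fact p.Prime := ⟨hp⟩
  haveI : CharP 𝓀[K] p := charP_residue K hp hpK
  haveI : Finite 𝓀[K] := finite_residue K
  -- the map `Φ`
  let Φ : 𝓕 →+ (k →ₗ[E] 𝓀[K]) :=
    { toFun := fun f =>
        { toFun := fun a => levLc K p i (u (a • f))
          map_add' := fun a b => by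
            rw [add_smul]; exact ha.levLc_add hp hpK hp0 hg (hall _) (hall _)
          map_smul' := fun e a => by
            rw [RingHom.id_apply]; exact hlin f e a }
      map_zero' := by
        ext a
        show levLc K p i (u (a • (0 : 𝓕))) = 0
        rw [smul_zero]; exact ha.levLc_zero hp hpK hp0 hg
      map_add' := fun f g => by
        ext a
        show levLc K p i (u (a • (f + g))) = levLc K p i (u (a • f)) + levLc K p i (u (a • g))
        rw [smul_add]; exact ha.levLc_add hp hpK hp0 hg (hall _) (hall _) }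
  have hΦ : Function.Injective Φ := by
    rw [injective_iff_map_eq_zero]
    intro f hf
    apply hnext
    intro a
    have : levLc K p i (u (a • f)) = 0 := by
      have := LinearMap.congr_fun hf a
      exact this
    exact (levLc_eq_zero_iff hp hpK hp0 hg (hall _)).1 this
  have h𝓛 : ∀ Λ ∈ Φ.range, ∀ a, Λ (mψ * a) = ((Nψ : 𝓀[K]) * theta ψ hψ ^ i) * (Λ a) ^ (p ^ s) := by
    rintro _ ⟨f, rfl⟩ a
    show levLc K p i (u ((mψ * a) • f)) = _ * (levLc K p i (u (a • f))) ^ (p ^ s)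
    rw [mul_smul, hdψ.levLc_smul hp hpK hp0 hψ hg (hall _), nsmul_eq_mul, hψres, mul_assoc]
  have h1 := card_le_of_semilinear (E := E) (k := k) (κ := 𝓀[K]) p s hq mψ hmψ
    ((Nψ : 𝓀[K]) * theta ψ hψ ^ i) Φ.range h𝓛
  calc Nat.card 𝓕 = Nat.card Φ.range := by
        exact Nat.card_congr (Equiv.ofInjective Φ hΦ)
    _ ≤ Nat.card k := h1

end Matching


section Induction

variable (hp : p.Prime) (hpK : ‖(p : K)‖ < 1) (hp0 : (p : K) ≠ 0) {u : 𝓕 → Kˣ}

/-- level `i` is non-matching for `(σ, m, N)`: either `p ∣ i` or an integer polynomial separates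
`m` from `N θ_σ ^ i`. -/
def NonMatch (p : ℕ) (σ : K ≃+* K) (hσ : ∀ x, ‖σ x‖ = ‖x‖) (m : k) (N : ℕ) (i : ℕ) : Prop :=
  p ∣ i ∨ ∃ P : ℤ[X], aeval m P = 0 ∧ aeval ((N : 𝓀[K]) * theta σ hσ ^ i) P ≠ 0

include hp hpK hp0

/-- **level induction**: skipping non-matching levels -/
theorem mem_lev_of_nonMatch (ha : IsAddModP p u) {σ : K ≃+* K} (hσ : ∀ x, ‖σ x‖ = ‖x‖)
    (hres : ∀ x, resMap σ hσ x = x) {m : k} {N : ℕ} (hd : IsEquivModP p u σ m N) {i₀ : ℕ}
    (h0 : 1 ≤ i₀) (hall : ∀ f, u f ∈ lev K p i₀) (j : ℕ)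
    (hj : ((p : ℤ) - 1) * ((i₀ + j : ℕ) : ℤ) ≤ p * ord K (p : K))
    (hnm : ∀ i, i₀ ≤ i → i < i₀ + j → NonMatch p σ hσ m N i) :
    ∀ f, u f ∈ lev K p (i₀ + j) := by
  induction j with
  | zero => simpa using hall
  | succ j ih =>
    have hp1 : (0 : ℤ) < (p : ℤ) - 1 := by
      have := hp.one_lt
      omega
    have hlt : ((p : ℤ) - 1) * ((i₀ + j : ℕ) : ℤ) < p * ord K (p : K) := by
      refine lt_of_lt_of_le ?_ hj
      apply mul_lt_mul_of_pos_left _ hp1
      push_cast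
      omega
    have ih' := ih hlt.le (fun i h1 h2 => hnm i h1 (by omega))
    have hnm' := hnm (i₀ + j) (by omega) (by omega)
    have hpos : 1 ≤ i₀ + j := by omega
    by_cases hdvd : p ∣ i₀ + j
    · exact levelRaise_of_dvd hp hpK hp0 hpos hdvd hlt ih'
    · rcases hnm' with h | ⟨P, hPm, hPθ⟩
      · exact absurd h hdvd
      · exact levelRaise hp hpK hp0 ha hσ hres hd ⟨hpos, hdvd, hlt⟩ ih' P hPm hPθ

end Induction

section Final

variable (hp : p.Prime) (hpK : ‖(p : K)‖ < 1) (hp0 : (p : K) ≠ 0) {ζ : K}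
  (hζ : IsPrimitiveRoot ζ p) {u : 𝓕 → Kˣ}

include hp hpK hp0 hζ

/-- all levels from `i₀` up to the top are non-matching ⟹ everything is at the top level -/
theorem mem_lev_top_of_nonMatch (ha : IsAddModP p u) {σ : K ≃+* K} (hσ : ∀ x, ‖σ x‖ = ‖x‖)
    (hres : ∀ x, resMap σ hσ x = x) {m : k} {N : ℕ} (hd : IsEquivModP p u σ m N) {i₀ : ℕ}
    (h0 : 1 ≤ i₀) (hi₀ : i₀ ≤ topLevel K p ζ) (hall : ∀ f, u f ∈ lev K p i₀)
    (hnm : ∀ i, i₀ ≤ i → i < topLevel K p ζ → NonMatch p σ hσ m N i) :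
    ∀ f, u f ∈ lev K p (topLevel K p ζ) := by
  obtain ⟨j, hj⟩ := Nat.exists_eq_add_of_le hi₀
  rw [hj]
  refine mem_lev_of_nonMatch hp hpK hp0 ha hσ hres hd h0 hall j ?_ ?_
  · rw [← hj, topLevel_spec hp hpK hp0 hζ]
  · intro i h1 h2
    exact hnm i h1 (by omega)

/-- **vanishing**: all levels non-matching and `m ≠ 1` ⟹ `𝓕 = 0`. -/
theorem eq_zero_of_nonMatch (ha : IsAddModP p u) (hsep : IsSepModP p k u) {σ : K ≃+* K}
    (hσ : ∀ x, ‖σ x‖ = ‖x‖) (hres : ∀ x, resMap σ hσ x = x) {n N : ℕ} (hn : σ ζ = ζ ^ n)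
    (hnN : n * N ≡ 1 [MOD p]) {m : k} (hm : m ≠ 1) (hd : IsEquivModP p u σ m N) {i₀ : ℕ}
    (h0 : 1 ≤ i₀) (hi₀ : i₀ ≤ topLevel K p ζ) (hall : ∀ f, u f ∈ lev K p i₀)
    (hnm : ∀ i, i₀ ≤ i → i < topLevel K p ζ → NonMatch p σ hσ m N i) (f : 𝓕) : f = 0 := by
  have htop := mem_lev_top_of_nonMatch hp hpK hp0 hζ ha hσ hres hd h0 hi₀ hall hnm
  have hP := top_mem_pthPowers hp hpK hp0 hζ ha hσ hres hn hnN hm hd htop
  exact hsep f (fun a => hP (a • f))

/-- **unramified count**: all levels non-matching ⟹ `#𝓕 ≤ #k`. -/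
theorem card_le_of_nonMatch [Finite k] [CharP k p] (ha : IsAddModP p u) (hsep : IsSepModP p k u)
    {σ : K ≃+* K} (hσ : ∀ x, ‖σ x‖ = ‖x‖) (hres : ∀ x, resMap σ hσ x = x) {m : k} {N : ℕ}
    (hd : IsEquivModP p u σ m N) {i₀ : ℕ}
    (h0 : 1 ≤ i₀) (hi₀ : i₀ ≤ topLevel K p ζ) (hall : ∀ f, u f ∈ lev K p i₀)
    (hnm : ∀ i, i₀ ≤ i → i < topLevel K p ζ → NonMatch p σ hσ m N i) :
    Nat.card 𝓕 ≤ Nat.card k :=
  card_le_of_top hp hpK hp0 hζ ha hsep
    (mem_lev_top_of_nonMatch hp hpK hp0 hζ ha hσ hres hd h0 hi₀ hall hnm)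

omit hp hpK hp0 hζ in
/-- the subspace of `f` all of whose multiples lie at level `≥ i` -/
def aboveLevel (ha : IsAddModP p u) (i : ℕ) : Submodule k 𝓕 where
  carrier := {f | ∀ a : k, u (a • f) ∈ lev K p i}
  zero_mem' := fun a => by
    rw [smul_zero]; exact pthPowers_le_lev i ha.zero_mem
  add_mem' := fun {f g} hf hg a => by
    rw [smul_add]; exact ha.mem_lev (hf a) (hg a)
  smul_mem' := fun c f hf a => by
    rw [smul_smul]; exact hf (a * c)

/-- **final count**: a matching good level `i₁` (with `E`-linear leading coefficients and a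
Frobenius-type `ψ`), all higher levels non-matching for the tame `σ`, and `m ≠ 1`
⟹ `#𝓕 ≤ #k`. -/
theorem card_le_of_matching_nonMatch {E : Type*} [Field E] [Finite E] [Finite k] [Algebra E k]
    [Algebra E 𝓀[K]] (s : ℕ) (hq : Nat.card E = p ^ s)
    (ha : IsAddModP p u) (hsep : IsSepModP p k u) {i₁ : ℕ} (hg : GoodLevel K p i₁)
    (hall : ∀ f, u f ∈ lev K p i₁)
    (hlin : ∀ (f : 𝓕) (e : E) (a : k),
      levLc K p i₁ (u ((e • a) • f)) = e • levLc K p i₁ (u (a • f)))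
    {ψ : K ≃+* K} (hψ : ∀ x, ‖ψ x‖ = ‖x‖) (hψres : ∀ x, resMap ψ hψ x = x ^ (p ^ s))
    {mψ : k} (hmψ : mψ ≠ 0) {Nψ : ℕ} (hdψ : IsEquivModP p u ψ mψ Nψ)
    {σ : K ≃+* K} (hσ : ∀ x, ‖σ x‖ = ‖x‖) (hres : ∀ x, resMap σ hσ x = x) {n N : ℕ}
    (hn : σ ζ = ζ ^ n) (hnN : n * N ≡ 1 [MOD p]) {m : k} (hm : m ≠ 1)
    (hd : IsEquivModP p u σ m N)
    (hnm : ∀ i, i₁ < i → i < topLevel K p ζ → NonMatch p σ hσ m N i) :
    Nat.card 𝓕 ≤ Nat.card k := by
  refine card_le_of_matching hp hpK hp0 s hq ha hg hall hlin hψ hψres hmψ hdψ ?_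
  intro f hf
  -- work in the subspace above level `i₁`
  have hi₁T : i₁ + 1 ≤ topLevel K p ζ := by
    have h1 := hg.lt
    rw [← topLevel_spec hp hpK hp0 hζ] at h1
    have hp1 : (0 : ℤ) < (p : ℤ) - 1 := by
      have := hp.one_lt
      omega
    have := lt_of_mul_lt_mul_left h1 hp1.le
    omega
  let 𝓕' := aboveLevel (k := k) ha (i₁ + 1)
  let u' : 𝓕' → Kˣ := fun g => u g.1
  have ha' : IsAddModP p u' := fun g₁ g₂ => ha g₁.1 g₂.1
  have hsep' : IsSepModP p k u' := fun g hgP => Subtype.ext (hsep g.1 hgP)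
  have hd' : IsEquivModP p u' σ m N := fun g => hd g.1
  have hall' : ∀ g : 𝓕', u' g ∈ lev K p (i₁ + 1) := fun g => by
    have := g.2 1
    rwa [one_smul] at this
  have := eq_zero_of_nonMatch hp hpK hp0 hζ ha' hsep' hσ hres hn hnN hm hd' (by omega) hi₁T hall'
    (fun i h1 h2 => hnm i (by omega) h2) ⟨f, hf⟩
  exact congrArg Subtype.val this

/-- the prime-field case `E = 𝔽_p` of `card_le_of_matching_nonMatch`: linearity is automatic. -/
theorem card_le_of_matching_nonMatch_prime [Finite k] [CharP k p]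
    (ha : IsAddModP p u) (hsep : IsSepModP p k u) {i₁ : ℕ} (hg : GoodLevel K p i₁)
    (hall : ∀ f, u f ∈ lev K p i₁)
    {ψ : K ≃+* K} (hψ : ∀ x, ‖ψ x‖ = ‖x‖) (hψres : ∀ x, resMap ψ hψ x = x ^ p)
    {mψ : k} (hmψ : mψ ≠ 0) {Nψ : ℕ} (hdψ : IsEquivModP p u ψ mψ Nψ)
    {σ : K ≃+* K} (hσ : ∀ x, ‖σ x‖ = ‖x‖) (hres : ∀ x, resMap σ hσ x = x) {n N : ℕ}
    (hn : σ ζ = ζ ^ n) (hnN : n * N ≡ 1 [MOD p]) {m : k} (hm : m ≠ 1)
    (hd : IsEquivModP p u σ m N)
    (hnm : ∀ i, i₁ < i → i < topLevel K p ζ → NonMatch p σ hσ m N i) :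
    Nat.card 𝓕 ≤ Nat.card k := by
  haveI : Fact p.Prime := ⟨hp⟩
  haveI : CharP 𝓀[K] p := charP_residue K hp hpK
  letI : Algebra (ZMod p) k := ZMod.algebra k p
  letI : Algebra (ZMod p) 𝓀[K] := ZMod.algebra _ p
  refine card_le_of_matching_nonMatch hp hpK hp0 hζ (E := ZMod p) 1 (by rw [Nat.card_zmod, pow_one])
    ha hsep hg hall ?_ hψ (by simpa using hψres) hmψ hdψ hσ hres hn hnN hm hd hnm
  intro f e a
  obtain ⟨j, rfl⟩ := ZMod.natCast_zmod_surjective e
  rw [Nat.cast_smul_eq_nsmul, Nat.cast_smul_eq_nsmul, smul_assoc]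
  induction j with
  | zero => rw [zero_smul, zero_smul]; exact ha.levLc_zero hp hpK hp0 hg
  | succ j ih =>
    rw [succ_nsmul, succ_nsmul, ha.levLc_add hp hpK hp0 hg (hall _) (hall _), ih]

end Final

end Fermat.Agent.S56lib.Kum
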