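/-
S56lib / Kum / Dual (helper3).
Kummer characters on the local Galois group `Γ = Gal(ℚ̄_p / ℚ_p)` (`Ω = PadicAlgCl p`):
for a radical `y` (`y ^ p` fixed by `g`), `g y = ζ ^ (kch ζ y g) y`.
* `kch_spec`, `kch_eq`, `kch_mul`, `kch_mul_rad`, `kch_eq_zero_iff`, `kch_conj`;
* `exists_radical` : every smooth character of `Γ_K` (`ζ ∈ K`) is a Kummer character
  (Hilbert 90 in Dedekind form);
* `mem_of_kch_eq_zero` : a radical with trivial character on `Γ_K` lies in `K`.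
-/
import Fermat.Agent.S56lib.Kum2.Count
import Fermat.Agent.S55lib.Places.Basic
import Fermat.Agent.S55lib.LocalUnr.Padic
import Fermat.Agent.S56lib.Kum.CountAbs

set_option autoImplicit false
set_option linter.unusedSectionVars false
set_option linter.style.haveILetI false

noncomputable section

namespace Fermat.Agent.S56lib.Kum

open Fermat.Agent.S55lib Fermat.Agent.S56lib.Kum2

variable {p : ℕ} [hp : Fact p.Prime]

open Classical in
/-- the Kummer character of the radical `y`: `g y = ζ ^ (kch ζ y g) * y` -/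
def kch (ζ y : PadicAlgCl p) (g : PadicAlgCl p ≃ₐ[ℚ_[p]] PadicAlgCl p) : ZMod p :=
  if h : ∃ j : ZMod p, g y = zE ζ j * y then Classical.choose h else 0

section Basic

variable {ζ : PadicAlgCl p} (hζ : IsPrimitiveRoot ζ p)

include hζ

theorem kch_spec {y : PadicAlgCl p} (hy : y ≠ 0) {g : PadicAlgCl p ≃ₐ[ℚ_[p]] PadicAlgCl p} (hg : g (y ^ p) = y ^ p) :
    g y = zE ζ (kch ζ y g) * y := by
  have hex : ∃ j : ZMod p, g y = zE ζ j * y := by
    have h1 : (g y / y) ^ p = 1 := by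
      rw [div_pow, ← map_pow, hg, div_self (pow_ne_zero _ hy)]
    obtain ⟨n, hn⟩ := exists_zE_of_pow_eq_one hζ h1
    exact ⟨n, by rw [← hn, div_mul_cancel₀ _ hy]⟩
  rw [kch, dif_pos hex]
  exact Classical.choose_spec hex

theorem kch_eq {y : PadicAlgCl p} (hy : y ≠ 0) {g : PadicAlgCl p ≃ₐ[ℚ_[p]] PadicAlgCl p} {j : ZMod p} (h : g y = zE ζ j * y) :
    kch ζ y g = j := by
  have hex : ∃ j : ZMod p, g y = zE ζ j * y := ⟨j, h⟩
  have h1 : g y = zE ζ (kch ζ y g) * y := by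
    rw [kch, dif_pos hex]
    exact Classical.choose_spec hex
  rw [h] at h1
  exact (zE_injective hζ (mul_right_cancel₀ hy h1)).symm

theorem kch_eq_zero_iff {y : PadicAlgCl p} (hy : y ≠ 0) {g : PadicAlgCl p ≃ₐ[ℚ_[p]] PadicAlgCl p} (hg : g (y ^ p) = y ^ p) :
    kch ζ y g = 0 ↔ g y = y := by
  constructor
  · intro h
    have := kch_spec hζ hy hg
    rwa [h, zE_zero hζ, one_mul] at this
  · intro h
    exact kch_eq hζ hy (by rw [zE_zero hζ, one_mul, h])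

theorem kch_mul {y : PadicAlgCl p} (hy : y ≠ 0) {g h : PadicAlgCl p ≃ₐ[ℚ_[p]] PadicAlgCl p} (hgζ : g ζ = ζ) (hg : g (y ^ p) = y ^ p)
    (hh : h (y ^ p) = y ^ p) : kch ζ y (g * h) = kch ζ y g + kch ζ y h := by
  apply kch_eq hζ hy
  rw [AlgEquiv.mul_apply, kch_spec hζ hy hh, map_mul, kch_spec hζ hy hg, zE_add hζ]
  have : g (zE ζ (kch ζ y h)) = zE ζ (kch ζ y h) := by
    rw [zE, map_pow, hgζ]
  rw [this]
  ring

theorem kch_one {y : PadicAlgCl p} (hy : y ≠ 0) : kch ζ y (1 : PadicAlgCl p ≃ₐ[ℚ_[p]] PadicAlgCl p) = 0 :=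
  kch_eq hζ hy (by rw [zE_zero hζ, one_mul]; rfl)

theorem kch_mul_rad {y y' : PadicAlgCl p} (hy : y ≠ 0) (hy' : y' ≠ 0) {g : PadicAlgCl p ≃ₐ[ℚ_[p]] PadicAlgCl p} (hg : g (y ^ p) = y ^ p)
    (hg' : g (y' ^ p) = y' ^ p) : kch ζ (y * y') g = kch ζ y g + kch ζ y' g := by
  apply kch_eq hζ (mul_ne_zero hy hy')
  rw [map_mul, kch_spec hζ hy hg, kch_spec hζ hy' hg', zE_add hζ]
  ring

theorem kch_inv_rad {y : PadicAlgCl p} (hy : y ≠ 0) {g : PadicAlgCl p ≃ₐ[ℚ_[p]] PadicAlgCl p} (hg : g (y ^ p) = y ^ p) :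
    kch ζ y⁻¹ g = - kch ζ y g := by
  apply kch_eq hζ (inv_ne_zero hy)
  rw [map_inv₀, kch_spec hζ hy hg, mul_inv]
  congr 1
  rw [eq_comm, ← mul_eq_one_iff_eq_inv₀ (zE_ne_zero hζ _), zE_neg_mul hζ]

theorem kch_pow_rad {y : PadicAlgCl p} (hy : y ≠ 0) {g : PadicAlgCl p ≃ₐ[ℚ_[p]] PadicAlgCl p} (hg : g (y ^ p) = y ^ p) (n : ℕ) :
    kch ζ (y ^ n) g = n * kch ζ y g := by
  induction n with
  | zero =>
    rw [pow_zero, Nat.cast_zero, zero_mul]
    exact kch_eq hζ one_ne_zero (by rw [zE_zero hζ, one_mul, map_one])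
  | succ n ih =>
    have hgn : g ((y ^ n) ^ p) = (y ^ n) ^ p := by
      rw [← pow_mul, mul_comm, pow_mul, map_pow, hg]
    rw [pow_succ, kch_mul_rad hζ (pow_ne_zero _ hy) hy hgn hg, ih]
    push_cast
    ring

/-- radicals fixed by `g` have trivial character -/
theorem kch_of_fixed {y : PadicAlgCl p} (hy : y ≠ 0) {g : PadicAlgCl p ≃ₐ[ℚ_[p]] PadicAlgCl p} (hg : g y = y) : kch ζ y g = 0 :=
  kch_eq hζ hy (by rw [zE_zero hζ, one_mul, hg])

/-- **conjugation formula**: `κ_{δ y}(δ g δ⁻¹) = n κ_y(g)` if `δ ζ = ζ ^ n`. -/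
theorem kch_conj {y : PadicAlgCl p} (hy : y ≠ 0) {g : PadicAlgCl p ≃ₐ[ℚ_[p]] PadicAlgCl p} (hg : g (y ^ p) = y ^ p) (δ : PadicAlgCl p ≃ₐ[ℚ_[p]] PadicAlgCl p) {n : ℕ}
    (hδ : δ ζ = ζ ^ n) : kch ζ (δ y) (δ * g * δ⁻¹) = n * kch ζ y g := by
  apply kch_eq hζ ((map_ne_zero δ).2 hy)
  have h1 : (δ * g * δ⁻¹) (δ y) = δ (g y) := by
    simp only [AlgEquiv.mul_apply]
    congr 2
    exact δ.symm_apply_apply y
  rw [h1, kch_spec hζ hy hg, map_mul, map_zE hζ δ n hδ]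

end Basic


section Exist

/-- an "open" subgroup of `Γ`: finite index, and cut out by fixing a multiplicative set -/
def IsOpenSub (U₁ : Subgroup (PadicAlgCl p ≃ₐ[ℚ_[p]] PadicAlgCl p)) : Prop :=
  U₁.FiniteIndex ∧ ∃ L : Submonoid (PadicAlgCl p),
    (∀ u ∈ U₁, ∀ x ∈ L, u x = x) ∧
    ∀ s : PadicAlgCl p ≃ₐ[ℚ_[p]] PadicAlgCl p, (∀ x ∈ L, s x = x) → s ∈ U₁

/-- the level subgroups of the smooth cohomology are open -/
theorem isOpenSub_level (F : FieldQ) [FiniteDimensional ℚ F] :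
    IsOpenSub (p := p) (F.fixingSubgroup.comap (localGaloisToGlobal p)) := by
  refine ⟨?_, F.toSubalgebra.toSubsemiring.toSubmonoid.map
    (padicEmbedding p : AlgebraicClosure ℚ →* PadicAlgCl p), ?_, ?_⟩
  · haveI := fixingSubgroup_finiteIndex F
    refine ⟨?_⟩
    rw [Subgroup.index_comap]
    exact (Subgroup.instFiniteIndex_subgroupOf F.fixingSubgroup
      (localGaloisToGlobal p).range).index_ne_zero
  · rintro u hu x ⟨y, hy, rfl⟩
    show u (padicEmbedding p y) = padicEmbedding p y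
    rw [← padicEmbedding_localGaloisToGlobal]
    congr 1
    exact hu ⟨y, hy⟩
  · intro s hs
    show localGaloisToGlobal p s ∈ F.fixingSubgroup
    rw [IntermediateField.mem_fixingSubgroup_iff]
    intro y hy
    have := hs (padicEmbedding p y) ⟨y, hy, rfl⟩
    rw [← padicEmbedding_localGaloisToGlobal] at this
    exact (padicEmbedding p).toRingHom.injective this

/-- fixing subgroups of finite subextensions are open -/
theorem isOpenSub_fixingSubgroup (L : IntermediateField ℚ_[p] (PadicAlgCl p))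
    [FiniteDimensional ℚ_[p] L] : IsOpenSub (p := p) L.fixingSubgroup := by
  refine ⟨?_, L.toSubalgebra.toSubsemiring.toSubmonoid, ?_, ?_⟩
  · haveI : IsGalois ℚ_[p] (PadicAlgCl p) := ⟨⟩
    refine ⟨?_⟩
    rw [← IntermediateField.finrank_eq_fixingSubgroup_index]
    exact Module.finrank_pos.ne'
  · intro u hu x hx
    exact (IntermediateField.mem_fixingSubgroup_iff L u).1 hu x hx
  · intro s hs
    rw [IntermediateField.mem_fixingSubgroup_iff]
    exact hs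

theorem IsOpenSub.inf {U₁ U₂ : Subgroup (PadicAlgCl p ≃ₐ[ℚ_[p]] PadicAlgCl p)}
    (h₁ : IsOpenSub U₁) (h₂ : IsOpenSub U₂) : IsOpenSub (U₁ ⊓ U₂) := by
  obtain ⟨hf₁, L₁, hfix₁, hsep₁⟩ := h₁
  obtain ⟨hf₂, L₂, hfix₂, hsep₂⟩ := h₂
  refine ⟨inferInstance, Submonoid.closure ((L₁ : Set (PadicAlgCl p)) ∪ L₂), ?_, ?_⟩
  · intro u hu x hx
    induction hx using Submonoid.closure_induction with
    | mem x hx =>
      rcases hx with hx | hx
      · exact hfix₁ u hu.1 x hx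
      · exact hfix₂ u hu.2 x hx
    | one => exact map_one u
    | mul x y _ _ hx hy => rw [map_mul, hx, hy]
  · intro s hs
    exact ⟨hsep₁ s (fun x hx => hs x (Submonoid.subset_closure (Or.inl hx))),
      hsep₂ s (fun x hx => hs x (Submonoid.subset_closure (Or.inr hx)))⟩

/-- an element fixed by `Γ_K` lies in `K` -/
theorem mem_of_fixed (K : IntermediateField ℚ_[p] (PadicAlgCl p)) {x : PadicAlgCl p}
    (hx : ∀ g ∈ K.fixingSubgroup, g x = x) : x ∈ K := by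
  haveI : IsGalois ℚ_[p] (PadicAlgCl p) := ⟨⟩
  rw [← InfiniteGalois.fixedField_fixingSubgroup K, IntermediateField.mem_fixedField_iff]
  exact hx

variable {ζ : PadicAlgCl p} (hζ : IsPrimitiveRoot ζ p)

include hζ

/-- **every smooth character of `Γ_K` is a Kummer character** (`ζ ∈ K`). -/
theorem exists_radical (K : IntermediateField ℚ_[p] (PadicAlgCl p)) (hζK : ζ ∈ K)
    (χ : (PadicAlgCl p ≃ₐ[ℚ_[p]] PadicAlgCl p) → ZMod p)
    (U₁ : Subgroup (PadicAlgCl p ≃ₐ[ℚ_[p]] PadicAlgCl p)) (hU₁ : IsOpenSub U₁)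
    (hχ : ∀ g s, s ∈ U₁ → χ (g * s) = χ g)
    (hadd : ∀ g ∈ K.fixingSubgroup, ∀ h ∈ K.fixingSubgroup, χ (g * h) = χ g + χ h) :
    ∃ y : PadicAlgCl p, y ≠ 0 ∧ y ^ p ∈ K ∧ ∀ g ∈ K.fixingSubgroup, kch ζ y g = χ g := by
  obtain ⟨hfin, L, hfix, hsep⟩ := hU₁
  haveI := hfin
  have hζfix : ∀ s ∈ K.fixingSubgroup, s ζ = ζ := fun s hs =>
    (IntermediateField.mem_fixingSubgroup_iff K s).1 hs ζ hζK
  obtain ⟨b, hb0, hb⟩ := hilbert90_dedekind (Ω := PadicAlgCl p) K.fixingSubgroup U₁ L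
    (fun u hu x hx => hfix u hu x hx) (fun s _ hs => hsep s hs)
    (fun s => zE ζ (χ s)) (fun s _ => zE_ne_zero hζ _)
    (by
      intro s hs t ht
      show zE ζ (χ (s * t)) = zE ζ (χ s) * s (zE ζ (χ t))
      rw [hadd s hs t ht, zE_add hζ]
      congr 1
      rw [zE, map_pow, hζfix s hs])
    (by
      intro s _ u hu _
      show zE ζ (χ (s * u)) = zE ζ (χ s)
      rw [hχ s u hu])
  have hb' : ∀ t ∈ K.fixingSubgroup, zE ζ (χ t) * t b = b := hb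
  have hy0 : b⁻¹ ≠ 0 := inv_ne_zero hb0
  have hty : ∀ t ∈ K.fixingSubgroup, t b⁻¹ = zE ζ (χ t) * b⁻¹ := by
    intro t ht
    have h1 := hb' t ht
    have htb0 : t b ≠ 0 := (map_ne_zero t).2 hb0
    rw [map_inv₀]
    field_simp
    rw [mul_comm]
    exact h1.symm
  refine ⟨b⁻¹, hy0, ?_, fun g hg => kch_eq hζ hy0 (hty g hg)⟩
  apply mem_of_fixed
  intro g hg
  rw [map_pow, hty g hg, mul_pow, zE_pow hζ, one_mul]

end Exist


section Restrict

variable (K : IntermediateField ℚ_[p] (PadicAlgCl p)) [Normal ℚ_[p] K]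

/-- restriction of `δ ∈ Γ` to a normal subfield, as a ring automorphism -/
def resAut (δ : PadicAlgCl p ≃ₐ[ℚ_[p]] PadicAlgCl p) : K ≃+* K :=
  (AlgEquiv.restrictNormal δ K).toRingEquiv

theorem coe_resAut (δ : PadicAlgCl p ≃ₐ[ℚ_[p]] PadicAlgCl p) (x : K) :
    ((resAut K δ x : K) : PadicAlgCl p) = δ (x : PadicAlgCl p) :=
  AlgEquiv.restrictNormal_commutes δ K x

theorem norm_resAut (δ : PadicAlgCl p ≃ₐ[ℚ_[p]] PadicAlgCl p) (x : K) :
    ‖resAut K δ x‖ = ‖x‖ := by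
  show ‖((resAut K δ x : K) : PadicAlgCl p)‖ = ‖(x : PadicAlgCl p)‖
  rw [coe_resAut, Places.norm_algEquiv]

/-- `Γ_K` is stable under conjugation -/
theorem conj_mem_fixingSubgroup (δ : PadicAlgCl p ≃ₐ[ℚ_[p]] PadicAlgCl p)
    {g : PadicAlgCl p ≃ₐ[ℚ_[p]] PadicAlgCl p} (hg : g ∈ K.fixingSubgroup) :
    δ * g * δ⁻¹ ∈ K.fixingSubgroup := by
  rw [IntermediateField.mem_fixingSubgroup_iff] at hg ⊢
  intro x hx
  have h1 : δ⁻¹ x ∈ K := by
    have := coe_resAut K δ⁻¹ ⟨x, hx⟩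
    rw [← this]
    exact (resAut K δ⁻¹ ⟨x, hx⟩).2
  simp only [AlgEquiv.mul_apply]
  rw [hg _ h1]
  exact δ.apply_symm_apply x

end Restrict

section Family

variable {K : IntermediateField ℚ_[p] (PadicAlgCl p)} [FiniteDimensional ℚ_[p] K]
variable {k 𝓕 : Type*} [Field k] [AddCommGroup 𝓕] [Module k 𝓕]

/-- a unit of `K` with a radical in `Ω` whose Kummer character is trivial on `Γ_K` is a `p`-th
power -/
theorem mem_pthPowers_of_kch {ζ : PadicAlgCl p} (hζ : IsPrimitiveRoot ζ p) {v : (↥K)ˣ}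
    {y : PadicAlgCl p} (hy : y ^ p = ((v : K) : PadicAlgCl p))
    (h : ∀ g ∈ K.fixingSubgroup, kch ζ y g = 0) : v ∈ pthPowers K p := by
  have hy0 : y ≠ 0 := by
    rintro rfl
    rw [zero_pow hp.out.ne_zero] at hy
    have : ((v : K) : PadicAlgCl p) ≠ 0 := by
      intro h0
      exact v.ne_zero (Subtype.ext h0)
    exact this hy.symm
  have hyK : y ∈ K := by
    apply mem_of_fixed
    intro g hg
    have hgp : g (y ^ p) = y ^ p := by
      rw [hy]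
      exact (IntermediateField.mem_fixingSubgroup_iff K g).1 hg _ (v : K).2
    exact (kch_eq_zero_iff hζ hy0 hgp).1 (h g hg)
  have hw0 : (⟨y, hyK⟩ : K) ≠ 0 := by
    intro h0
    exact hy0 (congrArg Subtype.val h0)
  refine ⟨Units.mk0 ⟨y, hyK⟩ hw0, ?_⟩
  apply Units.ext
  apply Subtype.ext
  show ((Units.mk0 (⟨y, hyK⟩ : K) hw0 : (↥K)ˣ) : K).1 ^ p = _
  exact hy

/-- a Kummer family: radicals `y f` of units `u f` of `K` whose Kummer characters are `ℓ ∘ r f` -/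
structure IsKumFamily (K : IntermediateField ℚ_[p] (PadicAlgCl p)) (ζ : PadicAlgCl p)
    (ℓ : k →+ ZMod p) (r : 𝓕 → (PadicAlgCl p ≃ₐ[ℚ_[p]] PadicAlgCl p) → k)
    (y : 𝓕 → PadicAlgCl p) (u : 𝓕 → (↥K)ˣ) : Prop where
  ne_zero : ∀ f, y f ≠ 0
  pow : ∀ f, y f ^ p = ((u f : K) : PadicAlgCl p)
  kch : ∀ f, ∀ g ∈ K.fixingSubgroup, kch ζ (y f) g = ℓ (r f g)

variable {ζ : PadicAlgCl p} (hζ : IsPrimitiveRoot ζ p) {ℓ : k →+ ZMod p}
  {r : 𝓕 → (PadicAlgCl p ≃ₐ[ℚ_[p]] PadicAlgCl p) → k}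

include hζ in
/-- **existence of Kummer families** -/
theorem exists_isKumFamily (hζK : ζ ∈ K)
    (hsm : ∀ f, ∃ U₁, IsOpenSub (p := p) U₁ ∧ ∀ g s, s ∈ U₁ → r f (g * s) = r f g)
    (hadd : ∀ f, ∀ g ∈ K.fixingSubgroup, ∀ h ∈ K.fixingSubgroup, r f (g * h) = r f g + r f h) :
    ∃ (y : 𝓕 → PadicAlgCl p) (u : 𝓕 → (↥K)ˣ), IsKumFamily K ζ ℓ r y u := by
  have key : ∀ f, ∃ y : PadicAlgCl p, y ≠ 0 ∧ y ^ p ∈ K ∧
      ∀ g ∈ K.fixingSubgroup, kch ζ y g = ℓ (r f g) := by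
    intro f
    obtain ⟨U₁, hU₁, hinv⟩ := hsm f
    refine exists_radical hζ K hζK (fun g => ℓ (r f g)) U₁ hU₁ ?_ ?_
    · intro g s hs
      show ℓ (r f (g * s)) = ℓ (r f g)
      rw [hinv g s hs]
    · intro g hg h hh
      show ℓ (r f (g * h)) = ℓ (r f g) + ℓ (r f h)
      rw [hadd f g hg h hh, map_add]
  choose y hy0 hyK hkch using key
  have hu0 : ∀ f, (⟨y f ^ p, hyK f⟩ : K) ≠ 0 := by
    intro f h0
    exact pow_ne_zero p (hy0 f) (congrArg Subtype.val h0)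
  exact ⟨y, fun f => Units.mk0 ⟨y f ^ p, hyK f⟩ (hu0 f), hy0, fun f => rfl, hkch⟩

variable {y : 𝓕 → PadicAlgCl p} {u : 𝓕 → (↥K)ˣ}

include hζ in
theorem IsKumFamily.apply_pow (h : IsKumFamily K ζ ℓ r y u) (f : 𝓕)
    {g : PadicAlgCl p ≃ₐ[ℚ_[p]] PadicAlgCl p} (hg : g ∈ K.fixingSubgroup) :
    g (y f ^ p) = y f ^ p := by
  rw [h.pow f]
  exact (IntermediateField.mem_fixingSubgroup_iff K g).1 hg _ (u f : K).2

include hζ in
/-- additivity modulo `p`-th powers -/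
theorem IsKumFamily.isAddModP (h : IsKumFamily K ζ ℓ r y u)
    (hradd : ∀ f f', ∀ g ∈ K.fixingSubgroup, r (f + f') g = r f g + r f' g) :
    IsAddModP p u := by
  intro f f'
  apply mem_pthPowers_of_kch hζ (y := y (f + f') * (y f * y f')⁻¹)
  · rw [mul_pow, inv_pow, mul_pow, h.pow, h.pow, h.pow]
    simp
  · intro g hg
    have e1 := h.apply_pow hζ f hg
    have e2 := h.apply_pow hζ f' hg
    have e3 := h.apply_pow hζ (f + f') hg
    have e4 : g ((y f * y f') ^ p) = (y f * y f') ^ p := by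
      rw [mul_pow, map_mul, e1, e2]
    have e5 : g (((y f * y f')⁻¹) ^ p) = ((y f * y f')⁻¹) ^ p := by
      rw [inv_pow, map_inv₀, e4]
    rw [kch_mul_rad hζ (h.ne_zero _) (inv_ne_zero (mul_ne_zero (h.ne_zero _) (h.ne_zero _))) e3 e5,
      kch_inv_rad hζ (mul_ne_zero (h.ne_zero _) (h.ne_zero _)) e4,
      kch_mul_rad hζ (h.ne_zero _) (h.ne_zero _) e1 e2, h.kch _ g hg, h.kch _ g hg, h.kch _ g hg,
      hradd f f' g hg, map_add]
    ring

include hζ in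
/-- separation -/
theorem IsKumFamily.isSepModP (h : IsKumFamily K ζ ℓ r y u) (hζK : ζ ∈ K)
    (hrsmul : ∀ (a : k) f, ∀ g ∈ K.fixingSubgroup, r (a • f) g = a * r f g)
    (hinj : ∀ f, (∀ g ∈ K.fixingSubgroup, r f g = 0) → f = 0)
    (hℓ : ∀ x : k, (∀ a : k, ℓ (a * x) = 0) → x = 0) : IsSepModP p k u := by
  intro f hf
  apply hinj
  intro g hg
  apply hℓ
  intro a
  obtain ⟨w, hw⟩ := hf a
  have hw' : w ^ p = u (a • f) := hw
  have hwK : g ((w : K) : PadicAlgCl p) = ((w : K) : PadicAlgCl p) :=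
    (IntermediateField.mem_fixingSubgroup_iff K g).1 hg _ (w : K).2
  have hw0 : ((w : K) : PadicAlgCl p) ≠ 0 := by
    intro h0
    exact w.ne_zero (Subtype.ext h0)
  have hpow : (y (a • f) * (((w : K) : PadicAlgCl p))⁻¹) ^ p = 1 := by
    rw [mul_pow, inv_pow, h.pow, ← hw']
    have : (((w ^ p : (↥K)ˣ) : K) : PadicAlgCl p) = ((w : K) : PadicAlgCl p) ^ p := by
      simp
    rw [this, mul_inv_cancel₀ (pow_ne_zero _ hw0)]
  obtain ⟨j, hj⟩ := exists_zE_of_pow_eq_one hζ hpow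
  have hyw : y (a • f) = zE ζ j * ((w : K) : PadicAlgCl p) := by
    rw [← hj, inv_mul_cancel_right₀ hw0]
  have hgζ : g ζ = ζ := (IntermediateField.mem_fixingSubgroup_iff K g).1 hg ζ hζK
  have hgy : g (y (a • f)) = y (a • f) := by
    rw [hyw, map_mul, hwK, zE, map_pow, hgζ]
  have h0 := kch_of_fixed hζ (h.ne_zero (a • f)) hgy
  rw [h.kch _ g hg, hrsmul a f g hg] at h0
  exact h0

include hζ in
/-- **equivariance**: if `r f (δ g δ⁻¹) = m r f g` on `Γ_K`, `δ⁻¹ ζ = ζ ^ n'`, `N n' ≡ 1`, then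
`u (m f) ≡ (δ⁻¹ u f) ^ N`. -/
theorem IsKumFamily.isEquivModP [Normal ℚ_[p] K] (h : IsKumFamily K ζ ℓ r y u)
    (hrsmul : ∀ (a : k) f, ∀ g ∈ K.fixingSubgroup, r (a • f) g = a * r f g)
    (δ : PadicAlgCl p ≃ₐ[ℚ_[p]] PadicAlgCl p) {n' N : ℕ} (hδ : δ⁻¹ ζ = ζ ^ n')
    (hnN : N * n' ≡ 1 [MOD p]) {m : k}
    (hconj : ∀ f, ∀ g ∈ K.fixingSubgroup, r f (δ * g * δ⁻¹) = m * r f g) :
    IsEquivModP p u (resAut K δ⁻¹) m N := by
  intro f
  apply mem_pthPowers_of_kch hζ (y := y (m • f) * ((δ⁻¹ (y f)) ^ N)⁻¹)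
  · rw [mul_pow, inv_pow, ← pow_mul, mul_comm N p, pow_mul, ← map_pow, h.pow, h.pow]
    simp only [Units.val_mul, Units.val_inv_eq_inv_val, Units.val_pow_eq_pow_val, coe_unitsMap,
      IntermediateField.coe_mul, IntermediateField.coe_inv, IntermediateField.coe_pow,
      coe_resAut]
  · intro g hg
    have hy0 := h.ne_zero f
    have hδy0 : δ⁻¹ (y f) ≠ 0 := (map_ne_zero _).2 hy0
    have e1 := h.apply_pow hζ (m • f) hg
    -- `g` fixes `(δ⁻¹ y f)^p = δ⁻¹ (u f)`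
    have e2 : g ((δ⁻¹ (y f)) ^ p) = (δ⁻¹ (y f)) ^ p := by
      rw [← map_pow, h.pow, ← coe_resAut K δ⁻¹]
      exact (IntermediateField.mem_fixingSubgroup_iff K g).1 hg _ (resAut K δ⁻¹ (u f : K)).2
    have e3 : g (((δ⁻¹ (y f)) ^ N) ^ p) = ((δ⁻¹ (y f)) ^ N) ^ p := by
      rw [← pow_mul, mul_comm, pow_mul, map_pow, e2]
    have e4 : g ((((δ⁻¹ (y f)) ^ N)⁻¹) ^ p) = (((δ⁻¹ (y f)) ^ N)⁻¹) ^ p := by
      rw [inv_pow, map_inv₀, e3]
    -- the conjugation formula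
    have hg' : δ * g * δ⁻¹ ∈ K.fixingSubgroup := conj_mem_fixingSubgroup K δ hg
    have e5 : Kum.kch ζ (δ⁻¹ (y f)) g = (n' : ZMod p) * ℓ (r (m • f) g) := by
      have h1 := kch_conj hζ hy0 (h.apply_pow hζ f hg') δ⁻¹ hδ
      have h2 : δ⁻¹ * (δ * g * δ⁻¹) * δ⁻¹⁻¹ = g := by group
      rw [h2, h.kch f _ hg', hconj f g hg, ← hrsmul m f g hg] at h1
      exact h1
    rw [kch_mul_rad hζ (h.ne_zero _) (inv_ne_zero (pow_ne_zero _ hδy0)) e1 e4,
      kch_inv_rad hζ (pow_ne_zero _ hδy0) e3, kch_pow_rad hζ hδy0 e2, e5, h.kch _ g hg]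
    have h3 : ((N * n' : ℕ) : ZMod p) = 1 := by
      have := (ZMod.natCast_eq_natCast_iff _ _ _).2 hnN
      simpa using this
    push_cast at h3
    linear_combination (-(ℓ (r (m • f) g))) * h3

include hζ in
/-- **boundedness transfer**: if `r f` vanishes on `Γ_L`, `K ≤ L`, the radical lies in `L`. -/
theorem IsKumFamily.radical_mem (h : IsKumFamily K ζ ℓ r y u)
    (L : IntermediateField ℚ_[p] (PadicAlgCl p)) (hKL : K ≤ L) (f : 𝓕)
    (hvan : ∀ g ∈ L.fixingSubgroup, r f g = 0) : y f ∈ L := by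
  apply mem_of_fixed
  intro g hg
  have hgK : g ∈ K.fixingSubgroup := IntermediateField.fixingSubgroup_antitone hKL hg
  have e1 := h.apply_pow hζ f hgK
  apply (kch_eq_zero_iff hζ (h.ne_zero f) e1).1
  rw [h.kch f g hgK, hvan g hg, map_zero]

end Family

end Fermat.Agent.S56lib.Kum
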