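/-
S56lib / Kum / TopFrob (helper3).
The action of an arbitrary isometric automorphism `δ` (inducing `x ↦ x ^ (p ^ a)` on residues)
on the top level `lev T / Kˣᵖ`:  `δ u ≡ u ^ n` if `δ ζ = ζ ^ n`.
* `red_geom_sum`, `c1Bar_eq_neg_one` (Wilson), `theta_pow_topLevel_mul`,
* `unitsMap_mul_inv_pow_mem_frob`, `top_mem_pthPowers_frob`.
-/
import Fermat.Agent.S56lib.Kum.CountAbs

set_option autoImplicit false
set_option linter.unusedSectionVars false
set_option linter.style.haveILetI false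

open scoped NormedField Valued NNReal

namespace Fermat.Agent.S56lib.Kum

open Fermat.Agent.S55lib.LocalUnr IsUltrametricDist

variable {K : Type*} [NontriviallyNormedField K] [IsUltrametricDist K] [ProperSpace K] {p : ℕ}
variable (hp : p.Prime) (hpK : ‖(p : K)‖ < 1) (hp0 : (p : K) ≠ 0) {ζ : K}
  (hζ : IsPrimitiveRoot ζ p)

include hp hpK hζ in
theorem norm_geom_sum_le (n : ℕ) : ‖∑ j ∈ Finset.range n, ζ ^ j‖ ≤ 1 :=
  norm_sum_le_of_forall_le_of_nonneg zero_le_one (fun j _ => by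
    rw [norm_pow, norm_primitiveRoot hp hζ, one_pow])

include hp hpK hζ in
theorem red_geom_sum (n : ℕ) : red (∑ j ∈ Finset.range n, ζ ^ j) = (n : 𝓀[K]) := by
  have hζ1 : ‖ζ‖ = 1 := norm_primitiveRoot hp hζ
  induction n with
  | zero => simp [red_eq_zero_of_lt]
  | succ n ih =>
    rw [Finset.sum_range_succ, red_add (norm_geom_sum_le hp hpK hζ n)
      (by rw [norm_pow, hζ1, one_pow]), ih, red_pow hζ1.le, red_zeta hp hpK hζ, one_pow]
    push_cast
    rfl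

/-- the Artin–Schreier telescoping sum -/
theorem sum_pow_sub_sum {R : Type*} [CommRing R] (q : ℕ) [Fact q.Prime] [CharP R q] (x : R)
    (a : ℕ) : (∑ j ∈ Finset.range a, x ^ (q ^ j)) ^ q - ∑ j ∈ Finset.range a, x ^ (q ^ j) =
      x ^ (q ^ a) - x := by
  induction a with
  | zero => simp [zero_pow (Fact.out : q.Prime).ne_zero]
  | succ a ih =>
    rw [Finset.sum_range_succ, add_pow_char, ← pow_mul, ← pow_succ]
    linear_combination ih

theorem red_prod {ι : Type*} (s : Finset ι) (f : ι → K) (hf : ∀ i ∈ s, ‖f i‖ ≤ 1) :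
    ‖∏ i ∈ s, f i‖ ≤ 1 ∧ red (∏ i ∈ s, f i) = ∏ i ∈ s, red (f i) := by
  classical
  induction s using Finset.induction_on with
  | empty => simp [red_one]
  | insert a s ha ih =>
    have h1 := ih (fun i hi => hf i (Finset.mem_insert_of_mem hi))
    have h2 := hf a (Finset.mem_insert_self a s)
    rw [Finset.prod_insert ha, Finset.prod_insert ha]
    refine ⟨?_, ?_⟩
    · rw [norm_mul]; exact mul_le_one₀ h2 (norm_nonneg _) h1.1
    · rw [red_mul h2 h1.1, h1.2]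

include hp hpK hζ in
/-- **Wilson**: `p / (ζ - 1) ^ (p - 1) ≡ -1`. -/
theorem c1Bar_eq_neg_one (hp2 : p ≠ 2) : c1Bar K p ζ = -1 := by
  haveI := charP_residue K hp hpK
  haveI : Fact p.Prime := ⟨hp⟩
  obtain ⟨n, rfl⟩ : ∃ n, p = n + 1 := ⟨p - 1, (Nat.succ_pred_eq_of_pos hp.pos).symm⟩
  have hl0 := lam_ne_zero hp hpK hζ
  have hprod := hζ.prod_one_sub_pow_eq_order
  have heven : Even n := by
    have := hp.even_sub_one hp2
    simpa using this
  have h1 : ∀ k ∈ Finset.range n, (1 - ζ ^ (k + 1)) =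
      -(∑ j ∈ Finset.range (k + 1), ζ ^ j) * (ζ - 1) := by
    intro k _
    rw [neg_mul, geom_sum_mul]
    ring
  rw [Finset.prod_congr rfl h1, Finset.prod_mul_distrib, Finset.prod_const, Finset.card_range,
    Finset.prod_neg, Finset.card_range, heven.neg_one_pow, one_mul] at hprod
  have h2 : ((n + 1 : ℕ) : K) / (ζ - 1) ^ (n + 1 - 1) =
      ∏ k ∈ Finset.range n, ∑ j ∈ Finset.range (k + 1), ζ ^ j := by
    rw [Nat.add_sub_cancel, eq_comm, eq_div_iff (pow_ne_zero _ hl0)]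
    exact_mod_cast hprod
  rw [c1Bar, h2, (red_prod _ _ (fun k _ => norm_geom_sum_le hp hpK hζ (k + 1))).2,
    Finset.prod_congr rfl (fun k _ => red_geom_sum hp hpK hζ (k + 1))]
  have h3 : ((∏ k ∈ Finset.range n, ((k + 1 : ℕ) : ZMod (n + 1))) : ZMod (n + 1)) = -1 := by
    have := ZMod.wilsons_lemma (p := n + 1)
    rw [Nat.add_sub_cancel, ← Finset.prod_range_add_one_eq_factorial] at this
    exact_mod_cast this
  have h4 := congrArg (ZMod.castHom (dvd_refl (n + 1)) 𝓀[K]) h3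
  rw [map_prod, map_neg, map_one] at h4
  rw [← h4]
  apply Finset.prod_congr rfl
  intro k _
  rw [map_natCast]

include hp hpK hζ in
/-- `θ_δ ^ T * δ̄(ε̄) = n ε̄` for every isometric automorphism with `δ ζ = ζ ^ n` -/
theorem theta_pow_topLevel_mul (δ : K ≃+* K) (hδ : ∀ x, ‖δ x‖ = ‖x‖) {n : ℕ}
    (hn : δ ζ = ζ ^ n) :
    theta δ hδ ^ topLevel K p ζ * resMap δ hδ (epsBar K p ζ) = (n : 𝓀[K]) * epsBar K p ζ := by
  set T := topLevel K p ζ with hT
  haveI := charP_residue K hp hpK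
  haveI : Fact p.Prime := ⟨hp⟩
  have hπ0 : unif K ≠ 0 := (unif_isUniformizer K).ne_zero
  have hl0 := lam_ne_zero hp hpK hζ
  have hθ1 : ‖δ (unif K) / unif K‖ = 1 := by
    rw [norm_div, hδ]; exact div_self (unifNorm_pos K).ne'
  set E : K := (ζ - 1) ^ p / unif K ^ T with hE
  have hE1 : ‖E‖ = 1 := norm_eps hp hpK hζ
  have hδE1 : ‖δ E‖ = 1 := by rw [hδ, hE1]
  have hS := norm_geom_sum_le hp hpK hζ n
  have hdec : (δ (unif K) / unif K) ^ T * δ E = (∑ j ∈ Finset.range n, ζ ^ j) ^ p * E := by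
    have h1 : δ E = (ζ ^ n - 1) ^ p / δ (unif K) ^ T := by
      rw [hE, map_div₀, map_pow, map_pow, map_sub, map_one, hn]
    have h2 : ζ ^ n - 1 = (∑ j ∈ Finset.range n, ζ ^ j) * (ζ - 1) := (geom_sum_mul ζ n).symm
    have hδπ0 : δ (unif K) ≠ 0 := by rw [← norm_pos_iff, hδ]; exact unifNorm_pos K
    rw [h1, h2, hE, div_pow, mul_pow]
    field_simp
  have h3 := congrArg red hdec
  rw [red_mul (by rw [norm_pow, hθ1, one_pow]) hδE1.le, red_pow hθ1.le, red_map δ hδ hE1.le,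
    red_mul (by rw [norm_pow]; exact pow_le_one₀ (norm_nonneg _) hS) hE1.le, red_pow hS,
    red_geom_sum hp hpK hζ, ← theta_eq_red δ hδ] at h3
  rw [epsBar, h3, ← frobenius_def, map_natCast]

include hp hpK hp0 hζ in
/-- **Top level, general Galois action**: `δ u ≡ u ^ n` modulo `p`-th powers for `u ∈ lev T`,
for every isometric `δ` inducing a power of Frobenius on residues, `δ ζ = ζ ^ n`. -/
theorem unitsMap_mul_inv_pow_mem_frob (hp2 : p ≠ 2) (δ : K ≃+* K) (hδ : ∀ x, ‖δ x‖ = ‖x‖)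
    {a : ℕ} (hres : ∀ x, resMap δ hδ x = x ^ (p ^ a)) {n : ℕ} (hn : δ ζ = ζ ^ n) {u : Kˣ}
    (hu : u ∈ lev K p (topLevel K p ζ)) : unitsMap δ u * (u ^ n)⁻¹ ∈ pthPowers K p := by
  set T := topLevel K p ζ with hT
  haveI := charP_residue K hp hpK
  haveI : Fact p.Prime := ⟨hp⟩
  have hTpos := topLevel_pos hp hpK hζ
  obtain ⟨u₁, hu₁, w, rfl⟩ := mem_lev.1 hu
  have hsplit : unitsMap δ (u₁ * w ^ p) * ((u₁ * w ^ p) ^ n)⁻¹ =
      (unitsMap δ u₁ * (u₁ ^ n)⁻¹) * (unitsMap δ w * (w ^ n)⁻¹) ^ p := by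
    rw [map_mul, map_pow, mul_pow, mul_pow, mul_inv, inv_pow,
      ← pow_mul, ← pow_mul, mul_comm n p]
    rw [mul_mul_mul_comm]
  rw [hsplit]
  refine mul_mem ?_ (pow_mem_pthPowers _)
  set A : princUnits K T := ⟨u₁, hu₁⟩ with hA
  set B : princUnits K T := ⟨unitsMap δ u₁, unitsMap_mem_princUnits δ hδ hu₁⟩ with hB
  have h3 : ((B / A ^ n : princUnits K T) : Kˣ) = unitsMap δ u₁ * (u₁ ^ n)⁻¹ := by
    show (B : Kˣ) / ((A : Kˣ)) ^ n = _
    rw [div_eq_mul_inv]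
  rw [← h3]
  apply mem_pthPowers_of_leadCoeff_mem_range hp hpK hp0 hζ
  -- the leading coefficient
  set c : 𝓀[K] := Multiplicative.toAdd (leadCoeff K T hTpos A) with hc
  have hε : epsBar K p ζ ≠ 0 := red_ne_zero_of_norm_eq_one (norm_eps hp hpK hζ)
  have hlc : Multiplicative.toAdd (leadCoeff K T hTpos (B / A ^ n)) =
      theta δ hδ ^ T * c ^ (p ^ a) - (n : 𝓀[K]) * c := by
    rw [map_div, map_pow, toAdd_div, toAdd_pow]
    have h2 := leadCoeff_unitsMap δ hδ hTpos A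
    rw [show (⟨unitsMap δ (A : Kˣ), unitsMap_mem_princUnits δ hδ A.2⟩ : princUnits K T) = B
      from rfl] at h2
    rw [h2, hres, nsmul_eq_mul]
  rw [hlc]
  -- `c = ε̄ c'`
  set c' : 𝓀[K] := c / epsBar K p ζ with hc'
  have hcc' : c = epsBar K p ζ * c' := by rw [hc']; field_simp
  have hθT := theta_pow_topLevel_mul hp hpK hζ δ hδ hn
  rw [hres] at hθT
  have hkey : theta δ hδ ^ T * c ^ (p ^ a) - (n : 𝓀[K]) * c =
      (n : 𝓀[K]) * epsBar K p ζ * (c' ^ (p ^ a) - c') := by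
    rw [hcc', mul_pow, ← mul_assoc, hθT]
    ring
  rw [hkey]
  -- the Artin–Schreier sum
  set y : 𝓀[K] := ∑ j ∈ Finset.range a, c' ^ (p ^ j) with hy
  have hAS : y ^ p - y = c' ^ (p ^ a) - c' := sum_pow_sub_sum p c' a
  refine ⟨(n : 𝓀[K]) * y, ?_⟩
  show epsBar K p ζ * (((n : 𝓀[K]) * y) ^ p + c1Bar K p ζ * ((n : 𝓀[K]) * y)) = _
  rw [c1Bar_eq_neg_one hp hpK hζ hp2, mul_pow, ← hAS]
  have hnp : (n : 𝓀[K]) ^ p = n := by rw [← frobenius_def, map_natCast]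
  rw [hnp]
  ring


section Count

variable {k 𝓕 : Type*} [Field k] [AddCommGroup 𝓕] [Module k 𝓕] {u : 𝓕 → Kˣ}

include hp hpK hp0 hζ in
/-- **top level, general automorphism**: if `m ≠ 1` and everything is at the top level then
everything is a `p`-th power. -/
theorem top_mem_pthPowers_frob (hp2 : p ≠ 2) (ha : IsAddModP p u) {σ : K ≃+* K}
    (hσ : ∀ x, ‖σ x‖ = ‖x‖) {a : ℕ} (hres : ∀ x, resMap σ hσ x = x ^ (p ^ a)) {n N : ℕ}
    (hn : σ ζ = ζ ^ n) (hnN : n * N ≡ 1 [MOD p]) {m : k} (hm : m ≠ 1)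
    (hd : IsEquivModP p u σ m N)
    (hall : ∀ f, u f ∈ lev K p (topLevel K p ζ)) (f : 𝓕) : u f ∈ pthPowers K p := by
  have h1 : ∀ g, clP p (u (m • g)) = clP p (u g) := by
    intro g
    rw [hd.clP_smul]
    have h2 := unitsMap_mul_inv_pow_mem_frob hp hpK hp0 hζ hp2 σ hσ hres hn (hall g)
    rw [← clP_eq_iff, clP_pow] at h2
    rw [h2, ← pow_mul]
    have h3 : (n * N) % p = 1 % p := hnN
    have h4 : n * N = p * (n * N / p) + 1 := by
      have := Nat.div_add_mod (n * N) p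
      rw [h3, Nat.mod_eq_of_lt hp.one_lt] at this
      omega
    rw [h4, pow_add, pow_mul, clP_pow_p, one_pow, one_mul, pow_one]
  have h2 : ∀ g, clP p (u ((m - 1) • g)) = 1 := by
    intro g
    rw [sub_smul, one_smul, ha.clP_sub, h1, mul_inv_cancel]
  have hm1 : m - 1 ≠ 0 := sub_ne_zero.mpr hm
  have h3 := h2 ((m - 1)⁻¹ • f)
  rw [smul_smul, mul_inv_cancel₀ hm1, one_smul] at h3
  exact clP_eq_one_iff.1 h3

include hp hpK hp0 hζ in
/-- **vanishing for unramified twists**: all levels non-matching for the tame `σ`, and a second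
automorphism `ψ` (a Frobenius power on residues) acting through `mψ ≠ 1` ⟹ `𝓕 = 0`. -/
theorem eq_zero_of_nonMatch_frob (hp2 : p ≠ 2) (ha : IsAddModP p u) (hsep : IsSepModP p k u)
    {σ : K ≃+* K} (hσ : ∀ x, ‖σ x‖ = ‖x‖) (hres : ∀ x, resMap σ hσ x = x) {m : k} {N : ℕ}
    (hd : IsEquivModP p u σ m N) {i₀ : ℕ}
    (h0 : 1 ≤ i₀) (hi₀ : i₀ ≤ topLevel K p ζ) (hall : ∀ f, u f ∈ lev K p i₀)
    (hnm : ∀ i, i₀ ≤ i → i < topLevel K p ζ → NonMatch p σ hσ m N i)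
    {ψ : K ≃+* K} (hψ : ∀ x, ‖ψ x‖ = ‖x‖) {a : ℕ} (hψres : ∀ x, resMap ψ hψ x = x ^ (p ^ a))
    {nψ Nψ : ℕ} (hnψ : ψ ζ = ζ ^ nψ) (hnN : nψ * Nψ ≡ 1 [MOD p]) {mψ : k} (hmψ : mψ ≠ 1)
    (hdψ : IsEquivModP p u ψ mψ Nψ) (f : 𝓕) : f = 0 := by
  have htop := mem_lev_top_of_nonMatch hp hpK hp0 hζ ha hσ hres hd h0 hi₀ hall hnm
  have hP := top_mem_pthPowers_frob hp hpK hp0 hζ hp2 ha hψ hψres hnψ hnN hmψ hdψ htop
  exact hsep f (fun a => hP (a • f))

end Count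

end Fermat.Agent.S56lib.Kum
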