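/-
S56lib / Kum / Count (helper3).
The arithmetic of matching levels for a tame generator `σ` (trivial on the residue field, `θ_σ`
of exact order `e = ord p`):  `ϑ_i = N θ ^ i` for `e ≤ i < T = p e / (p - 1)`.
* for `m` in the prime field only the level `e` can match, and it does iff `m = N`;
* `N ≢ 1`;
* the resulting counts `card_le_of_trivial`, `eq_zero_of_intCast`, `card_le_of_cyclo`.
-/
import Fermat.Agent.S56lib.Kum.TopFrob

set_option autoImplicit false
set_option linter.unusedSectionVars false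
set_option linter.style.haveILetI false

open scoped NormedField Valued NNReal

namespace Fermat.Agent.S56lib.Kum

open Fermat.Agent.S55lib.LocalUnr IsUltrametricDist Polynomial

/-- an element of a field of characteristic `p` fixed by Frobenius is an integer -/
theorem exists_intCast_of_pow_eq_self {F : Type*} [Field F] (p : ℕ) [Fact p.Prime] [CharP F p]
    {x : F} (hx : x ^ p = x) : ∃ a : ℤ, x = a := by
  have h := (Subfield.mem_bot_iff_pow_eq_self F p).2 hx
  obtain ⟨n, hn⟩ := (mem_bot_iff_intCast p F).1 h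
  exact ⟨n, hn.symm⟩

variable {K : Type*} [NontriviallyNormedField K] [IsUltrametricDist K] [ProperSpace K] {p : ℕ}
variable {k 𝓕 : Type*} [Field k] [AddCommGroup 𝓕] [Module k 𝓕]

section Arith

variable (hp : p.Prime) (hpK : ‖(p : K)‖ < 1) (hp0 : (p : K) ≠ 0) {ζ : K}
  (hζ : IsPrimitiveRoot ζ p)
  {σ : K ≃+* K} (hσ : ∀ x, ‖σ x‖ = ‖x‖) (hres : ∀ x, resMap σ hσ x = x) {n N : ℕ}
  (hn : σ ζ = ζ ^ n) (hnN : n * N ≡ 1 [MOD p])
  (hord : ((orderOf (theta σ hσ) : ℕ) : ℤ) = ord K (p : K))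

include hp hpK hp0 hζ hord in
theorem orderOf_theta_eq : orderOf (theta σ hσ) = (p - 1) * lamOrd K ζ := by
  have h1 := lamOrd_mul hp hpK hp0 hζ
  rw [← hord] at h1
  have hp1 : 1 ≤ p := hp.pos
  zify [hp1]
  exact h1.symm

include hp hpK hp0 hζ hord in
theorem topLevel_eq_add : topLevel K p ζ = orderOf (theta σ hσ) + lamOrd K ζ := by
  rw [orderOf_theta_eq hp hpK hp0 hζ hσ hord, topLevel]
  have hp1 : 1 ≤ p := hp.pos
  obtain ⟨q, rfl⟩ : ∃ q, p = q + 1 := ⟨p - 1, by omega⟩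
  simp only [Nat.add_sub_cancel]
  ring

include hp hpK hnN in
theorem natCast_mul_natCast_eq_one : (n : 𝓀[K]) * (N : 𝓀[K]) = 1 := by
  haveI := charP_residue K hp hpK
  have h := (CharP.natCast_eq_natCast 𝓀[K] p).2 hnN
  simpa using h

include hp hpK hnN in
theorem natCast_N_ne_zero : (N : 𝓀[K]) ≠ 0 := by
  intro h
  have := natCast_mul_natCast_eq_one (K := K) hp hpK hnN
  rw [h, mul_zero] at this
  exact zero_ne_one this

include hp hpK hζ hres hn hnN in
/-- `ϑ_i θ ^ (T - i) = 1` -/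
theorem vartheta_mul_pow {i : ℕ} (hi : i ≤ topLevel K p ζ) :
    ((N : 𝓀[K]) * theta σ hσ ^ i) * theta σ hσ ^ (topLevel K p ζ - i) = 1 := by
  rw [mul_assoc, ← pow_add, Nat.add_sub_cancel' hi, theta_pow_topLevel hp hpK hζ σ hσ hres hn,
    mul_comm]
  exact natCast_mul_natCast_eq_one hp hpK hnN

include hp hpK hp0 hζ hres hn hnN hord in
/-- `N ≢ 1` if `p ≠ 2` -/
theorem not_modEq_one (hp2 : p ≠ 2) : ¬ N ≡ 1 [MOD p] := by
  intro h
  haveI := charP_residue K hp hpK
  have h1 : (N : 𝓀[K]) = 1 := by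
    have := (CharP.natCast_eq_natCast 𝓀[K] p).2 h
    simpa using this
  have h2 : (n : 𝓀[K]) = 1 := by
    have := natCast_mul_natCast_eq_one (K := K) hp hpK hnN
    rwa [h1, mul_one] at this
  have h3 : theta σ hσ ^ topLevel K p ζ = 1 := by
    rw [theta_pow_topLevel hp hpK hζ σ hσ hres hn, h2]
  have h4 := orderOf_dvd_of_pow_eq_one h3
  rw [orderOf_theta_eq hp hpK hp0 hζ hσ hord, topLevel] at h4
  have hl := lamOrd_pos hp hpK hζ
  have h5 : p - 1 ∣ p := by
    have h6 : (p - 1) * lamOrd K ζ ∣ p * lamOrd K ζ := h4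
    exact Nat.dvd_of_mul_dvd_mul_right (by omega) h6
  have h7 : p - 1 ∣ 1 := by
    have h8 : p - 1 ∣ p - (p - 1) := Nat.dvd_sub h5 (dvd_refl _)
    have h9 : p - (p - 1) = 1 := by have := hp.pos; omega
    rwa [h9] at h8
  have := Nat.dvd_one.1 h7
  have := hp.two_le
  omega

include hp hpK hp0 hζ hres hn hnN hord in
/-- strictly between `e` and `T` no level matches an `m` in the prime field -/
theorem nonMatch_intCast_of_lt {m : k} {a : ℤ} (hm : m = a) {i : ℕ}
    (h1 : orderOf (theta σ hσ) < i) (h2 : i < topLevel K p ζ) :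
    NonMatch p σ hσ m N i := by
  haveI := charP_residue K hp hpK
  haveI : Fact p.Prime := ⟨hp⟩
  right
  refine ⟨X - C a, ?_, ?_⟩
  · rw [map_sub, aeval_X, aeval_C, eq_intCast, hm, sub_self]
  · rw [map_sub, aeval_X, aeval_C, eq_intCast, sub_ne_zero]
    intro h
    have hv := vartheta_mul_pow hp hpK hζ hσ hres hn hnN h2.le
    -- `(a : 𝓀[K]) ^ (p - 1) = 1`
    have ha0 : ((a : ℤ) : 𝓀[K]) ≠ 0 := by
      rw [← h]
      exact mul_ne_zero (natCast_N_ne_zero hp hpK hnN) (pow_ne_zero _ (theta_ne_zero σ hσ))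
    have ha1 : ((a : ℤ) : 𝓀[K]) ^ (p - 1) = 1 := by
      letI : Algebra (ZMod p) 𝓀[K] := ZMod.algebra _ p
      have h3 : algebraMap (ZMod p) 𝓀[K] (a : ZMod p) = ((a : ℤ) : 𝓀[K]) := by simp
      have hz : ((a : ZMod p)) ≠ 0 := by
        intro h0
        apply ha0
        rw [← h3, h0, map_zero]
      have h4 := ZMod.pow_card_sub_one_eq_one hz
      have h5 := congrArg (algebraMap (ZMod p) 𝓀[K]) h4
      rw [map_pow, h3, map_one] at h5
      exact h5
    -- `(θ ^ (T - i)) ^ (p - 1) = 1`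
    have h6 : (theta σ hσ ^ (topLevel K p ζ - i)) ^ (p - 1) = 1 := by
      have h7 := congrArg (fun x => x ^ (p - 1)) hv
      simp only [one_pow] at h7
      rw [mul_pow, h, ha1, one_mul] at h7
      exact h7
    rw [← pow_mul] at h6
    have h8 := orderOf_dvd_of_pow_eq_one h6
    have h9 := orderOf_theta_eq hp hpK hp0 hζ hσ hord
    have h10 := topLevel_eq_add hp hpK hp0 hζ hσ hord
    rw [h9, mul_comm (topLevel K p ζ - i)] at h8
    have hp1 : 0 < p - 1 := by have := hp.two_le; omega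
    have h11 : lamOrd K ζ ∣ topLevel K p ζ - i := Nat.dvd_of_mul_dvd_mul_left hp1 h8
    have h12 : 0 < topLevel K p ζ - i := by omega
    have h13 := Nat.le_of_dvd h12 h11
    omega

include hp hpK hnN in
/-- the level `e` does not match `m = a` in the prime field unless `a ≡ N` -/
theorem nonMatch_intCast_order {m : k} {a : ℤ} (hm : m = a)
    (haN : ¬ a ≡ N [ZMOD p]) :
    NonMatch p σ hσ m N (orderOf (theta σ hσ)) := by
  haveI := charP_residue K hp hpK
  right
  refine ⟨X - C a, ?_, ?_⟩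
  · rw [map_sub, aeval_X, aeval_C, eq_intCast, hm, sub_self]
  · rw [map_sub, aeval_X, aeval_C, eq_intCast, sub_ne_zero, pow_orderOf_eq_one,
      mul_one]
    intro h
    apply haN
    have h1 : ((N : ℤ) : 𝓀[K]) = ((a : ℤ) : 𝓀[K]) := by
      rw [← h]; simp
    exact ((CharP.intCast_eq_intCast 𝓀[K] p).1 h1).symm

include hp hpK in
/-- the order of `θ` is prime to `p` -/
theorem not_dvd_orderOf_theta : ¬ p ∣ orderOf (theta σ hσ) := by
  classical
  haveI := charP_residue K hp hpK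
  haveI : Fact p.Prime := ⟨hp⟩
  haveI := finite_residue K
  haveI : Fintype 𝓀[K] := Fintype.ofFinite _
  intro h
  obtain ⟨f, hf⟩ := FiniteField.card 𝓀[K] p
  have h1 := FiniteField.pow_card_sub_one_eq_one (theta σ hσ) (theta_ne_zero σ hσ)
  have h2 := orderOf_dvd_of_pow_eq_one h1
  have h3 : p ∣ Fintype.card 𝓀[K] - 1 := h.trans h2
  have h4 : p ∣ Fintype.card 𝓀[K] := by
    rw [hf.2]
    exact dvd_pow_self p (PNat.ne_zero f)
  have h5 : 1 ≤ Fintype.card 𝓀[K] := Fintype.card_pos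
  have h6 : p ∣ 1 := by
    have := Nat.dvd_sub h4 h3
    have e : Fintype.card 𝓀[K] - (Fintype.card 𝓀[K] - 1) = 1 := by omega
    rwa [e] at this
  exact hp.one_lt.ne' (Nat.dvd_one.1 h6)

include hp hpK hp0 hζ hord in
theorem orderOf_theta_pos : 1 ≤ orderOf (theta σ hσ) := by
  rw [orderOf_theta_eq hp hpK hp0 hζ hσ hord]
  have := lamOrd_pos hp hpK hζ
  have := hp.two_le
  exact Nat.one_le_iff_ne_zero.mpr (Nat.mul_ne_zero (by omega) (by omega))

include hp hpK hp0 hζ hord in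
theorem orderOf_theta_lt_topLevel : orderOf (theta σ hσ) < topLevel K p ζ := by
  rw [topLevel_eq_add hp hpK hp0 hζ hσ hord]
  have := lamOrd_pos hp hpK hζ
  omega

include hp hpK hp0 hζ hord in
/-- `e` is a good level -/
theorem goodLevel_orderOf_theta : GoodLevel K p (orderOf (theta σ hσ)) := by
  refine ⟨orderOf_theta_pos hp hpK hp0 hζ hσ hord, not_dvd_orderOf_theta hp hpK hσ, ?_⟩
  rw [← topLevel_spec hp hpK hp0 hζ]
  have hp1 : (0 : ℤ) < (p : ℤ) - 1 := by
    have := hp.one_lt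
    omega
  apply mul_lt_mul_of_pos_left _ hp1
  exact_mod_cast orderOf_theta_lt_topLevel hp hpK hp0 hζ hσ hord

include hp hpK hp0 hζ hres hn hord in
/-- the cyclotomic exponent `n` of a tame generator has exact order `p - 1` -/
theorem natCast_pow_eq_one_iff (j : ℕ) : (n : 𝓀[K]) ^ j = 1 ↔ p - 1 ∣ j := by
  rw [← theta_pow_topLevel hp hpK hζ σ hσ hres hn, ← pow_mul, ← orderOf_dvd_iff_pow_eq_one,
    orderOf_theta_eq hp hpK hp0 hζ hσ hord, topLevel]
  have hl := lamOrd_pos hp hpK hζ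
  have hp1 : 0 < p - 1 := by have := hp.two_le; omega
  have hcop : Nat.Coprime (p - 1) p := by
    have h := (Nat.coprime_self_sub_right (m := 1) (n := p) hp.pos).2 (Nat.coprime_one_right p)
    exact h.symm
  constructor
  · intro h
    have h1 : (p - 1) * lamOrd K ζ ∣ (p * j) * lamOrd K ζ := by
      rw [show p * j * lamOrd K ζ = p * lamOrd K ζ * j by ring]
      exact h
    have h2 : p - 1 ∣ p * j := Nat.dvd_of_mul_dvd_mul_right (by omega) h1
    exact hcop.dvd_of_dvd_mul_left h2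
  · rintro ⟨t, rfl⟩
    exact ⟨p * t, by ring⟩

end Arith

section Counts

variable (hp : p.Prime) (hpK : ‖(p : K)‖ < 1) (hp0 : (p : K) ≠ 0) {ζ : K}
  (hζ : IsPrimitiveRoot ζ p) {u : 𝓕 → Kˣ}
  {σ : K ≃+* K} (hσ : ∀ x, ‖σ x‖ = ‖x‖) (hres : ∀ x, resMap σ hσ x = x) {n N : ℕ}
  (hn : σ ζ = ζ ^ n) (hnN : n * N ≡ 1 [MOD p])
  (hord : ((orderOf (theta σ hσ) : ℕ) : ℤ) = ord K (p : K))

include hp hpK hp0 hζ hres hn hnN hord

/-- all levels in `[e, T)` are non-matching for `m = a` in the prime field with `a ≢ N` -/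
theorem nonMatch_intCast {m : k} {a : ℤ} (hm : m = a) (haN : ¬ a ≡ N [ZMOD p]) (i : ℕ)
    (h1 : orderOf (theta σ hσ) ≤ i) (h2 : i < topLevel K p ζ) : NonMatch p σ hσ m N i := by
  rcases h1.lt_or_eq with h | h
  · exact nonMatch_intCast_of_lt hp hpK hp0 hζ hσ hres hn hnN hord hm h h2
  · rw [← h]
    exact nonMatch_intCast_order hp hpK hσ hnN hm haN

/-- **trivial character**: `m = 1`, everything at level `e` ⟹ `#𝓕 ≤ #k`. -/
theorem card_le_of_trivial [Finite k] [CharP k p] (hp2 : p ≠ 2) (ha : IsAddModP p u)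
    (hsep : IsSepModP p k u) (hd : IsEquivModP p u σ (1 : k) N)
    (hall : ∀ f, u f ∈ lev K p (orderOf (theta σ hσ))) : Nat.card 𝓕 ≤ Nat.card k := by
  refine card_le_of_nonMatch hp hpK hp0 hζ ha hsep hσ hres hd
    (orderOf_theta_pos hp hpK hp0 hζ hσ hord)
    (orderOf_theta_lt_topLevel hp hpK hp0 hζ hσ hord).le hall ?_
  intro i h1 h2
  refine nonMatch_intCast hp hpK hp0 hζ hσ hres hn hnN hord (a := 1) (by simp) ?_ i h1 h2
  intro h
  apply not_modEq_one hp hpK hp0 hζ hσ hres hn hnN hord hp2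
  have h3 : ((N : ℕ) : ℤ) ≡ ((1 : ℕ) : ℤ) [ZMOD p] := by
    simpa using h.symm
  exact Int.natCast_modEq_iff.1 h3

/-- **generic tame character**: `m = a ≠ 1` in the prime field, `a ≢ N` ⟹ `𝓕 = 0`. -/
theorem eq_zero_of_intCast (ha : IsAddModP p u) (hsep : IsSepModP p k u) {m : k} {a : ℤ}
    (hm : m = a) (hm1 : m ≠ 1) (haN : ¬ a ≡ N [ZMOD p]) (hd : IsEquivModP p u σ m N)
    (hall : ∀ f, u f ∈ lev K p (orderOf (theta σ hσ))) (f : 𝓕) : f = 0 :=
  eq_zero_of_nonMatch hp hpK hp0 hζ ha hsep hσ hres hn hnN hm1 hd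
    (orderOf_theta_pos hp hpK hp0 hζ hσ hord)
    (orderOf_theta_lt_topLevel hp hpK hp0 hζ hσ hord).le hall
    (nonMatch_intCast hp hpK hp0 hζ hσ hres hn hnN hord hm haN) f

/-- **cyclotomic-type character**: `m ≠ 1` in the prime field (e.g. `m = N`), with a Frobenius
`ψ` acting equivariantly ⟹ `#𝓕 ≤ #k`. -/
theorem card_le_of_cyclo [Finite k] [CharP k p] (ha : IsAddModP p u) (hsep : IsSepModP p k u)
    {m : k} {a : ℤ} (hm : m = a) (hm1 : m ≠ 1) (hd : IsEquivModP p u σ m N)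
    {ψ : K ≃+* K} (hψ : ∀ x, ‖ψ x‖ = ‖x‖) (hψres : ∀ x, resMap ψ hψ x = x ^ p)
    {mψ : k} (hmψ : mψ ≠ 0) {Nψ : ℕ} (hdψ : IsEquivModP p u ψ mψ Nψ)
    (hall : ∀ f, u f ∈ lev K p (orderOf (theta σ hσ))) : Nat.card 𝓕 ≤ Nat.card k := by
  refine card_le_of_matching_nonMatch_prime hp hpK hp0 hζ ha hsep
    (goodLevel_orderOf_theta hp hpK hp0 hζ hσ hord) hall hψ hψres hmψ hdψ hσ hres hn hnN hm1 hd ?_
  intro i h1 h2
  exact nonMatch_intCast_of_lt hp hpK hp0 hζ hσ hres hn hnN hord hm h1 h2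

end Counts

end Fermat.Agent.S56lib.Kum
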